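import Fermat.Agent.GR.FormalES

/-!
# ORD / P2 : depth calculus for Laurent series.  Definitions and basic API (no sorry).

`A` a valuation subring of a field `L`, `k` its residue field.
* `CRed A c c̄`  : the constant `c : L` lies in `A` and reduces to `c̄ : k`.
* `Dp A ε x a`  : `x = 1 + ε * X` where `X` has reduction `a` in the sense of `GR.HasRed`
  (so `X` is a quotient of integral series): "`x ≡ 1 + ε a` modulo `ε 𝔪`".
-/

set_option autoImplicit false
noncomputable section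

namespace Fermat.Agent.ORD.P2

open ModularCurve HahnSeries Fermat.Agent.GR

variable {L : Type*} [Field L] (A : ValuationSubring L)

/-- residue field of `A`. -/
abbrev kk : Type _ := IsLocalRing.ResidueField A

/-- the constant `c` lies in `A` and reduces to `cb`. -/
def CRed (c : L) (cb : kk A) : Prop := ∃ h : c ∈ A, IsLocalRing.residue A ⟨c, h⟩ = cb

/-- `x = 1 + ε X`, `X` with reduction `a`. -/
def Dp (ε : L) (x : LaurentSeries L) (a : LaurentSeries (kk A)) : Prop :=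
  HasRed A ((x - 1) / HahnSeries.C ε) a

variable {A}

/-! ### constants -/

theorem CRed.mk (c : A) : CRed A (c : L) (IsLocalRing.residue A c) := ⟨c.2, rfl⟩

theorem CRed.zero : CRed A 0 0 := ⟨A.zero_mem, map_zero _⟩

theorem CRed.one : CRed A 1 1 := ⟨A.one_mem, map_one _⟩

theorem CRed.add {c d : L} {cb db : kk A} (h : CRed A c cb) (h' : CRed A d db) :
    CRed A (c + d) (cb + db) := by
  obtain ⟨h1, rfl⟩ := h
  obtain ⟨h2, rfl⟩ := h'
  exact ⟨A.add_mem _ _ h1 h2, map_add (IsLocalRing.residue A) ⟨c, h1⟩ ⟨d, h2⟩⟩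

theorem CRed.mul {c d : L} {cb db : kk A} (h : CRed A c cb) (h' : CRed A d db) :
    CRed A (c * d) (cb * db) := by
  obtain ⟨h1, rfl⟩ := h
  obtain ⟨h2, rfl⟩ := h'
  exact ⟨A.mul_mem _ _ h1 h2, map_mul (IsLocalRing.residue A) ⟨c, h1⟩ ⟨d, h2⟩⟩

theorem CRed.neg {c : L} {cb : kk A} (h : CRed A c cb) : CRed A (-c) (-cb) := by
  obtain ⟨h1, rfl⟩ := h
  exact ⟨A.neg_mem _ h1, map_neg (IsLocalRing.residue A) ⟨c, h1⟩⟩

theorem CRed.sub {c d : L} {cb db : kk A} (h : CRed A c cb) (h' : CRed A d db) :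
    CRed A (c - d) (cb - db) := by
  rw [sub_eq_add_neg, sub_eq_add_neg]; exact h.add h'.neg

theorem CRed.pow {c : L} {cb : kk A} (h : CRed A c cb) (n : ℕ) : CRed A (c ^ n) (cb ^ n) := by
  obtain ⟨h1, rfl⟩ := h
  exact ⟨pow_mem h1 n, map_pow (IsLocalRing.residue A) ⟨c, h1⟩ n⟩

theorem CRed.natCast (n : ℕ) : CRed A (n : L) (n : kk A) :=
  ⟨natCast_mem A n, map_natCast (IsLocalRing.residue A) n⟩

theorem CRed.unique {c : L} {cb cb' : kk A} (h : CRed A c cb) (h' : CRed A c cb') : cb = cb' := by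
  obtain ⟨h1, rfl⟩ := h
  obtain ⟨h2, rfl⟩ := h'
  rfl

theorem CRed.mem {c : L} {cb : kk A} (h : CRed A c cb) : c ∈ A := h.1

/-- `c ∈ 𝔪_A`. -/
theorem cRed_zero_iff {c : L} : CRed A c 0 ↔ c ∈ A.nonunits := by
  constructor
  · rintro ⟨h, h0⟩
    rw [IsLocalRing.residue_eq_zero_iff, IsLocalRing.mem_maximalIdeal] at h0
    exact (ValuationSubring.coe_mem_nonunits_iff (a := ⟨c, h⟩)).mpr h0
  · intro h
    have hc : c ∈ A := A.nonunits_subset h
    refine ⟨hc, ?_⟩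
    rw [IsLocalRing.residue_eq_zero_iff, IsLocalRing.mem_maximalIdeal]
    exact (ValuationSubring.coe_mem_nonunits_iff (a := ⟨c, hc⟩)).mp h

theorem CRed.inv {c : L} {cb : kk A} (h : CRed A c cb) (hcb : cb ≠ 0) : CRed A c⁻¹ cb⁻¹ := by
  obtain ⟨h1, rfl⟩ := h
  have hu : IsUnit (⟨c, h1⟩ : A) := by
    by_contra hn
    exact hcb ((IsLocalRing.residue_eq_zero_iff _).mpr ((IsLocalRing.mem_maximalIdeal _).mpr hn))
  obtain ⟨u, hu⟩ := hu
  have hc : c⁻¹ = ((u⁻¹ : Aˣ) : A) := by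
    apply inv_eq_of_mul_eq_one_right
    have h2 : ((u : A) : L) = c := by rw [hu]
    rw [← h2, ← A.coe_mul, Units.mul_inv, A.coe_one]
  rw [hc]
  have h3 := CRed.mk (A := A) ((u⁻¹ : Aˣ) : A)
  have h4 : IsLocalRing.residue A ((u⁻¹ : Aˣ) : A) = (IsLocalRing.residue A ⟨c, h1⟩)⁻¹ := by
    apply eq_inv_of_mul_eq_one_left
    rw [← hu, ← map_mul, Units.inv_mul, map_one]
  rwa [h4] at h3

/-! ### more API for `HasRed` -/

theorem hasRed_zero' : HasRed A 0 0 := by
  have := HasRed.of_int (A := A) 0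
  rwa [map_zero, map_zero] at this

theorem hasRed_neg' {x : LaurentSeries L} {z : LaurentSeries (kk A)} (h : HasRed A x z) :
    HasRed A (-x) (-z) := by
  obtain ⟨P, Q, hQ, hP, hx⟩ := h
  exact ⟨-P, Q, hQ, by rw [map_neg, hP, neg_mul], by rw [map_neg, ← hx, neg_mul]⟩

theorem hasRed_sub' {x x' : LaurentSeries L} {z z' : LaurentSeries (kk A)} (h : HasRed A x z)
    (h' : HasRed A x' z') : HasRed A (x - x') (z - z') := by
  rw [sub_eq_add_neg, sub_eq_add_neg]; exact h.add (hasRed_neg' h')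

theorem coeffMap_C {R S : Type*} [CommRing R] [CommRing S] (f : R →+* S) (r : R) :
    coeffMap f (HahnSeries.C r) = HahnSeries.C (f r) :=
  coeffMap_single f 0 r

theorem CRed.hasRed {c : L} {cb : kk A} (h : CRed A c cb) :
    HasRed A (HahnSeries.C c) (HahnSeries.C cb) := by
  obtain ⟨h1, rfl⟩ := h
  have := HasRed.of_int (A := A) (HahnSeries.C (⟨c, h1⟩ : A))
  rwa [coeffMap_C, coeffMap_C] at this

theorem hasRed_C_mul {c : L} {cb : kk A} (h : CRed A c cb) {x : LaurentSeries L}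
    {z : LaurentSeries (kk A)} (hx : HasRed A x z) :
    HasRed A (HahnSeries.C c * x) (HahnSeries.C cb * z) := h.hasRed.mul hx

theorem hasRed_C_mul_zero {c : L} (h : c ∈ A.nonunits) {x : LaurentSeries L}
    {z : LaurentSeries (kk A)} (hx : HasRed A x z) : HasRed A (HahnSeries.C c * x) 0 := by
  have := hasRed_C_mul (cRed_zero_iff.mpr h) hx
  rwa [map_zero, zero_mul] at this

theorem C_ne_zero' {ε : L} (hε : ε ≠ 0) : (HahnSeries.C ε : LaurentSeries L) ≠ 0 := by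
  intro h
  apply hε
  have := congrArg (fun f : LaurentSeries L => f.coeff 0) h
  simpa using this

/-! ### basic calculus of `Dp` -/

/-- unfolding: `x = 1 + ε X`. -/
theorem dp_iff {ε : L} (hε : ε ≠ 0) {x : LaurentSeries L} {a : LaurentSeries (kk A)} :
    Dp A ε x a ↔ ∃ X : LaurentSeries L, HasRed A X a ∧ x = 1 + HahnSeries.C ε * X := by
  have hC := C_ne_zero' hε
  constructor
  · intro h
    refine ⟨_, h, ?_⟩
    rw [mul_div_cancel₀ _ hC]; ring
  · rintro ⟨X, hX, rfl⟩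
    unfold Dp
    rwa [add_sub_cancel_left, mul_div_cancel_left₀ _ hC]

theorem Dp.one (ε : L) : Dp A ε 1 0 := by
  unfold Dp
  rw [sub_self, zero_div]
  exact hasRed_zero'

theorem Dp.unique {ε : L} {x : LaurentSeries L} {a a' : LaurentSeries (kk A)} (h : Dp A ε x a)
    (h' : Dp A ε x a') : a = a' := HasRed.unique h h'

/-- `x ≡ 1`. -/
theorem Dp.hasRed_one {ε : L} (hε : ε ≠ 0) (hm : ε ∈ A.nonunits) {x : LaurentSeries L}
    {a : LaurentSeries (kk A)} (h : Dp A ε x a) : HasRed A x 1 := by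
  obtain ⟨X, hX, rfl⟩ := (dp_iff hε).mp h
  have := HasRed.one.add (hasRed_C_mul_zero hm hX)
  rwa [add_zero] at this

theorem Dp.ne_zero {ε : L} (hε : ε ≠ 0) (hm : ε ∈ A.nonunits) {x : LaurentSeries L}
    {a : LaurentSeries (kk A)} (h : Dp A ε x a) : x ≠ 0 :=
  (h.hasRed_one hε hm).ne_zero one_ne_zero

theorem Dp.mul {ε : L} (hε : ε ≠ 0) (hm : ε ∈ A.nonunits) {x y : LaurentSeries L}
    {a b : LaurentSeries (kk A)} (h : Dp A ε x a) (h' : Dp A ε y b) : Dp A ε (x * y) (a + b) := by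
  obtain ⟨X, hX, rfl⟩ := (dp_iff hε).mp h
  obtain ⟨Y, hY, rfl⟩ := (dp_iff hε).mp h'
  refine (dp_iff hε).mpr ⟨X + Y + HahnSeries.C ε * (X * Y), ?_, by ring⟩
  have := (hX.add hY).add (hasRed_C_mul_zero hm (hX.mul hY))
  rwa [add_zero] at this

theorem Dp.inv {ε : L} (hε : ε ≠ 0) (hm : ε ∈ A.nonunits) {x : LaurentSeries L}
    {a : LaurentSeries (kk A)} (h : Dp A ε x a) : Dp A ε x⁻¹ (-a) := by
  have h1 := h.hasRed_one hε hm
  have hx0 := h.ne_zero hε hm
  obtain ⟨X, hX, hx⟩ := (dp_iff hε).mp h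
  refine (dp_iff hε).mpr ⟨-X / x, ?_, ?_⟩
  · have := (hasRed_neg' hX).div h1 one_ne_zero
    rwa [div_one] at this
  · field_simp
    rw [hx]; ring

theorem Dp.div {ε : L} (hε : ε ≠ 0) (hm : ε ∈ A.nonunits) {x y : LaurentSeries L}
    {a b : LaurentSeries (kk A)} (h : Dp A ε x a) (h' : Dp A ε y b) : Dp A ε (x / y) (a - b) := by
  rw [div_eq_mul_inv, sub_eq_add_neg]; exact h.mul hε hm (h'.inv hε hm)

theorem Dp.pow {ε : L} (hε : ε ≠ 0) (hm : ε ∈ A.nonunits) {x : LaurentSeries L}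
    {a : LaurentSeries (kk A)} (h : Dp A ε x a) (n : ℕ) : Dp A ε (x ^ n) (n • a) := by
  induction n with
  | zero => simpa using Dp.one (A := A) ε
  | succ n ih => rw [pow_succ, succ_nsmul]; exact ih.mul hε hm h

/-- change of the scale: `ε = c ε'`, `c ∈ A`. -/
theorem Dp.rescale {ε ε' c : L} {cb : kk A} (hε : ε ≠ 0) (hc : CRed A c cb) (h : ε = c * ε')
    {x : LaurentSeries L} {a : LaurentSeries (kk A)} (hx : Dp A ε x a) :
    Dp A ε' x (HahnSeries.C cb * a) := by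
  have hε' : ε' ≠ 0 := by
    rintro rfl
    exact hε (by rw [h, mul_zero])
  obtain ⟨X, hX, rfl⟩ := (dp_iff hε).mp hx
  refine (dp_iff hε').mpr ⟨HahnSeries.C c * X, hasRed_C_mul hc hX, ?_⟩
  rw [h, map_mul]; ring

/-- a deeper congruence is trivial at a shallower scale. -/
theorem Dp.of_deeper {ε ε' c : L} (hε : ε ≠ 0) (hc : c ∈ A.nonunits) (h : ε = c * ε')
    {x : LaurentSeries L} {a : LaurentSeries (kk A)} (hx : Dp A ε x a) : Dp A ε' x 0 := by
  have := hx.rescale hε (cRed_zero_iff.mpr hc) h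
  rwa [map_zero, zero_mul] at this

/-- constants: `1 + ε c`. -/
theorem Dp.const {ε c : L} {cb : kk A} (hε : ε ≠ 0) (hc : CRed A c cb) :
    Dp A ε (HahnSeries.C (1 + ε * c)) (HahnSeries.C cb) :=
  (dp_iff hε).mpr ⟨HahnSeries.C c, hc.hasRed, by rw [map_add, map_mul, map_one]⟩

/-- transport of `Dp` along a compatible triple of ring homomorphisms. -/
theorem Dp.map {ε : L} (hε : ε ≠ 0) {x : LaurentSeries L} {a : LaurentSeries (kk A)}
    (h : Dp A ε x a) (ΦA : LaurentSeries A →+* LaurentSeries A)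
    (ΦL : LaurentSeries L →+* LaurentSeries L)
    (Φk : LaurentSeries (kk A) →+* LaurentSeries (kk A)) (ε' : L) (hε' : ε' ≠ 0)
    (hC : ΦL (HahnSeries.C ε) = HahnSeries.C ε')
    (h1 : ∀ y, coeffMap A.subtype (ΦA y) = ΦL (coeffMap A.subtype y))
    (h2 : ∀ y, coeffMap (IsLocalRing.residue A) (ΦA y) = Φk (coeffMap (IsLocalRing.residue A) y))
    (h3 : ∀ w, w ≠ 0 → Φk w ≠ 0) : Dp A ε' (ΦL x) (Φk a) := by
  obtain ⟨X, hX, rfl⟩ := (dp_iff hε).mp h
  refine (dp_iff hε').mpr ⟨ΦL X, hX.map ΦA ΦL Φk (map_mul _) (map_mul _) h1 h2 h3, ?_⟩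
  rw [map_add, map_one, map_mul, hC]

end Fermat.Agent.ORD.P2
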