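import Fermat.Agent.ORD.P2.Defs

/-!
# ORD / P2-C1 : the constant `λ = ζ_p - 1`
-/

set_option autoImplicit false
noncomputable section

namespace Fermat.Agent.ORD.P2

open ModularCurve HahnSeries Fermat.Agent.GR

variable {L : Type*} [Field L] {A : ValuationSubring L}

/-- `λ = ζ - 1`. -/
def lam (ζ : Lˣ) : L := (ζ : L) - 1

variable {p : ℕ} {ζ : Lˣ}

theorem lam_ne_zero (hp : p.Prime) (hζ : IsPrimitiveRoot ζ p) : lam ζ ≠ 0 := by
  intro h
  apply hζ.ne_one hp.one_lt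
  apply Units.ext
  rw [Units.val_one]
  exact sub_eq_zero.1 h

/-- `ζ ≡ 1` (`GR.map_residue_rootUnit`, or: `(ζ̄ - 1)^p = ζ̄^p - 1 = 0` in characteristic `p`). -/
theorem cRed_zeta (hp : p.Prime) (hA : A.LiesOverPrime p) (hζ : ζ ^ p = 1) : CRed A (ζ : L) 1 := by
  have h1 := map_residue_rootUnit hp hA ζ hζ
  have h2 := congrArg Units.val h1
  exact ⟨((rootUnit A ζ hp.ne_zero hζ : Aˣ) : A).2, h2⟩

theorem lam_mem_nonunits (hp : p.Prime) (hA : A.LiesOverPrime p) (hζ : ζ ^ p = 1) :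
    lam ζ ∈ A.nonunits := by
  rw [← cRed_zero_iff]
  have := (cRed_zeta hp hA hζ).sub CRed.one
  rwa [sub_self] at this

theorem Lam_cRed_sum {ι : Type*} (s : Finset ι) {c : ι → L} {cb : ι → kk A}
    (h : ∀ i ∈ s, CRed A (c i) (cb i)) : CRed A (∑ i ∈ s, c i) (∑ i ∈ s, cb i) := by
  classical
  induction s using Finset.induction_on with
  | empty => simpa using CRed.zero
  | insert a s ha ih =>
    rw [Finset.sum_insert ha, Finset.sum_insert ha]
    exact (h a (Finset.mem_insert_self a s)).add (ih fun i hi => h i (Finset.mem_insert_of_mem hi))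

theorem Lam_cRed_prod {ι : Type*} (s : Finset ι) {c : ι → L} {cb : ι → kk A}
    (h : ∀ i ∈ s, CRed A (c i) (cb i)) : CRed A (∏ i ∈ s, c i) (∏ i ∈ s, cb i) := by
  classical
  induction s using Finset.induction_on with
  | empty => simpa using CRed.one
  | insert a s ha ih =>
    rw [Finset.prod_insert ha, Finset.prod_insert ha]
    exact (h a (Finset.mem_insert_self a s)).mul (ih fun i hi => h i (Finset.mem_insert_of_mem hi))

/-- `(ζ^e - 1)/(ζ - 1) = 1 + ζ + … + ζ^(e-1) ≡ e`. -/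
theorem cRed_geom (hp : p.Prime) (hA : A.LiesOverPrime p) (hζ : IsPrimitiveRoot ζ p) (e : ℕ) :
    CRed A (((ζ : L) ^ e - 1) / lam ζ) (e : kk A) := by
  have h1 : (ζ : L) ≠ 1 := fun h => lam_ne_zero hp hζ (sub_eq_zero.2 h)
  rw [lam, ← geom_sum_eq h1 e]
  have h2 := Lam_cRed_sum (A := A) (Finset.range e) (c := fun i => (ζ : L) ^ i)
    (cb := fun i => (1 : kk A) ^ i) (fun i _ => (cRed_zeta hp hA hζ.pow_eq_one).pow i)
  simpa using h2

theorem Lam_wilson (hp : p.Prime) (hA : A.LiesOverPrime p) :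
    (((p - 1).factorial : ℕ) : kk A) = -1 := by
  have := charP_residueField hp hA
  have := Fact.mk hp
  have h1 := ZMod.wilsons_lemma p
  have h2 := congrArg (ZMod.castHom (dvd_refl p) (kk A)) h1
  rwa [map_natCast, map_neg, map_one] at h2

/-- `p / λ^(p-1) = ∏_{0<i<p} (1 + ζ + … + ζ^(i-1)) ≡ (p-1)! = -1`
(`p = ∏_{0<i<p} (1 - ζ^i)`: `IsPrimitiveRoot.…`/`Polynomial.cyclotomic_prime` evaluated at `1`; Wilson: `ZMod.wilsons_lemma`). -/
theorem cRed_p_div_lam (hp : p.Prime) (hp2 : p ≠ 2) (hA : A.LiesOverPrime p)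
    (hζ : IsPrimitiveRoot ζ p) : CRed A ((p : L) / lam ζ ^ (p - 1)) (-1) := by
  obtain ⟨n, rfl⟩ : ∃ n, p = n + 1 := ⟨p - 1, (Nat.sub_add_cancel hp.one_le).symm⟩
  have hζ' : IsPrimitiveRoot (ζ : L) (n + 1) := IsPrimitiveRoot.coe_units_iff.2 hζ
  have h1 := hζ'.prod_pow_sub_one_eq_order
  have heven : Even n := by
    rcases hp.eq_two_or_odd' with h | h
    · exact absurd h hp2
    · rcases Nat.even_or_odd n with h' | h'
      · exact h'
      · exact absurd (h'.add_one) (Nat.not_even_iff_odd.2 h)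
  rw [heven.neg_one_pow, one_mul] at h1
  have hl := lam_ne_zero hp hζ
  have h2 : (((n + 1 : ℕ) : L)) / lam ζ ^ (n + 1 - 1) =
      ∏ k ∈ Finset.range n, (((ζ : L) ^ (k + 1) - 1) / lam ζ) := by
    rw [Finset.prod_div_distrib, h1, Finset.prod_const, Finset.card_range, Nat.add_sub_cancel]
    push_cast
    rfl
  rw [h2]
  have h3 := Lam_cRed_prod (A := A) (Finset.range n)
    (c := fun k => ((ζ : L) ^ (k + 1) - 1) / lam ζ) (cb := fun k => ((k + 1 : ℕ) : kk A))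
    (fun k _ => cRed_geom hp hA hζ (k + 1))
  have h4 : ∏ k ∈ Finset.range n, ((k + 1 : ℕ) : kk A) = -1 := by
    rw [← Nat.cast_prod, Finset.prod_range_add_one_eq_factorial]
    exact Lam_wilson hp hA
  rwa [h4] at h3

theorem cRed_lam_div_p (hp : p.Prime) (hp2 : p ≠ 2) (hA : A.LiesOverPrime p)
    (hζ : IsPrimitiveRoot ζ p) : CRed A (lam ζ ^ (p - 1) / (p : L)) (-1) := by
  have h := (cRed_p_div_lam hp hp2 hA hζ).inv (neg_ne_zero.2 one_ne_zero)
  rwa [inv_div, inv_neg, inv_one] at h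

theorem natCast_ne_zero_of_isPrimitiveRoot (hp : p.Prime) (hζ : IsPrimitiveRoot ζ p) :
    (p : L) ≠ 0 := by
  obtain ⟨n, rfl⟩ : ∃ n, p = n + 1 := ⟨p - 1, (Nat.sub_add_cancel hp.one_le).symm⟩
  have hζ' : IsPrimitiveRoot (ζ : L) (n + 1) := IsPrimitiveRoot.coe_units_iff.2 hζ
  have h1 := hζ'.prod_one_sub_pow_eq_order
  have h2 : (((n + 1 : ℕ) : L)) = ∏ k ∈ Finset.range n, (1 - (ζ : L) ^ (k + 1)) := by
    rw [h1]; push_cast; rfl
  rw [h2, Finset.prod_ne_zero_iff]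
  intro k hk
  rw [sub_ne_zero]
  exact (hζ'.pow_ne_one_of_pos_of_lt (Nat.succ_ne_zero k)
    (Nat.succ_lt_succ (Finset.mem_range.1 hk))).symm

end Fermat.Agent.ORD.P2
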