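import Fermat.Agent.ORD.P2.Lam

/-!
# ORD / P2-D : the action of inertia on leading terms
-/

set_option autoImplicit false
noncomputable section

namespace Fermat.Agent.ORD.P2

open ModularCurve HahnSeries Fermat.Agent.GR

variable {K L : Type*} [Field K] [Field L] [Algebra K L] {A : ValuationSubring L}

/-- inertia does not change reductions (as in `GR.hasRed_inertia`). -/
theorem hasRed_map_inertia {σ : L ≃ₐ[K] L} (hσ : σ ∈ A.inertiaSubgroupIn K)
    {x : LaurentSeries L} {z : LaurentSeries (kk A)} (h : HasRed A x z) :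
    HasRed A (coeffMap (σ : L →+* L) x) z := by
  obtain ⟨hd, hred⟩ := red_decompHom_of_inertia hσ
  exact h.map (coeffMap (decompHom σ hd)) (coeffMap (σ : L →+* L)) id (map_mul _) (fun _ _ => rfl)
    (incl_decompHom σ hd) hred (fun _ hw => hw)

theorem CRed.map_inertia {σ : L ≃ₐ[K] L} (hσ : σ ∈ A.inertiaSubgroupIn K) {c : L} {cb : kk A}
    (h : CRed A c cb) : CRed A (σ c) cb := by
  obtain ⟨hd, hred⟩ := red_decompHom_of_inertia hσ
  obtain ⟨hc, rfl⟩ := h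
  refine ⟨(decompHom σ hd ⟨c, hc⟩).2, ?_⟩
  have h1 := hred (HahnSeries.C (⟨c, hc⟩ : A))
  rw [coeffMap_C, coeffMap_C, coeffMap_C] at h1
  exact HahnSeries.C_injective h1

theorem Dp.map_inertia {σ : L ≃ₐ[K] L} (hσ : σ ∈ A.inertiaSubgroupIn K) {ε : L} (hε : ε ≠ 0)
    {x : LaurentSeries L} {a : LaurentSeries (kk A)} (h : Dp A ε x a) :
    Dp A (σ ε) (coeffMap (σ : L →+* L) x) a := by
  obtain ⟨X, hX, rfl⟩ := (dp_iff hε).mp h
  have hσε : σ ε ≠ 0 := (map_ne_zero σ).2 hε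
  refine (dp_iff hσε).mpr ⟨coeffMap (σ : L →+* L) X, hasRed_map_inertia hσ hX, ?_⟩
  rw [map_add, map_one, map_mul, coeffMap_C]
  rfl

variable {p : ℕ} {ζ : Lˣ}

/-- `σ(1 + λ^n a) = 1 + λ^n e^n a` if `σ ζ = ζ^e`. -/
theorem Dp.inertia_lam_pow (hp : p.Prime) (hA : A.LiesOverPrime p) (hζ : IsPrimitiveRoot ζ p)
    {σ : L ≃ₐ[K] L} (hσ : σ ∈ A.inertiaSubgroupIn K) {e : ℕ} (he : σ (ζ : L) = (ζ : L) ^ e) (n : ℕ)
    {x : LaurentSeries L} {a : LaurentSeries (kk A)} (h : Dp A (lam ζ ^ n) x a) :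
    Dp A (lam ζ ^ n) (coeffMap (σ : L →+* L) x) (HahnSeries.C ((e : kk A) ^ n) * a) := by
  have hl : lam ζ ≠ 0 := lam_ne_zero hp hζ
  have hln : lam ζ ^ n ≠ 0 := pow_ne_zero n hl
  have h1 := h.map_inertia hσ hln
  have h2 : σ (lam ζ ^ n) = (((ζ : L) ^ e - 1) / lam ζ) ^ n * lam ζ ^ n := by
    rw [← mul_pow, div_mul_cancel₀ _ hl, map_pow]
    congr 1
    unfold lam
    rw [map_sub, map_one, he]
  exact h1.rescale ((map_ne_zero σ).2 hln) ((cRed_geom hp hA hζ e).pow n) h2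

/-- **(C) of the plan**: `σ(1 + λ^p a) ≡ (1 + λ^p a)^e` modulo `λ^p 𝔪`. -/
theorem Dp.inertia_lam_p (hp : p.Prime) (hA : A.LiesOverPrime p) (hζ : IsPrimitiveRoot ζ p)
    {σ : L ≃ₐ[K] L} (hσ : σ ∈ A.inertiaSubgroupIn K) {e : ℕ} (he : σ (ζ : L) = (ζ : L) ^ e)
    {x : LaurentSeries L} {a : LaurentSeries (kk A)} (h : Dp A (lam ζ ^ p) x a) :
    Dp A (lam ζ ^ p) (coeffMap (σ : L →+* L) x / x ^ e) 0 := by
  have hl : lam ζ ≠ 0 := lam_ne_zero hp hζ
  have hlp : lam ζ ^ p ≠ 0 := pow_ne_zero p hl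
  have hm : lam ζ ^ p ∈ A.nonunits := by
    have h1 : CRed A (lam ζ) 0 := cRed_zero_iff.mpr (lam_mem_nonunits hp hA hζ.pow_eq_one)
    have h2 := h1.pow p
    rw [zero_pow hp.ne_zero] at h2
    exact cRed_zero_iff.mp h2
  have : CharP (kk A) p := charP_residueField hp hA
  have : ExpChar (kk A) p := ExpChar.prime hp
  have hep : (e : kk A) ^ p = e := by
    have := map_natCast (frobenius (kk A) p) e
    rwa [frobenius_def] at this
  have h1 := h.inertia_lam_pow hp hA hζ hσ he p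
  have h2 := h1.div hlp hm (h.pow hlp hm e)
  have h3 : HahnSeries.C ((e : kk A) ^ p) * a - e • a = 0 := by
    rw [hep, map_natCast, nsmul_eq_mul, sub_self]
  rwa [h3] at h2

end Fermat.Agent.ORD.P2
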