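import Fermat.Agent.ORD.P2.Comb

/-!
# ORD / P2-B1 : fractions, `V = qExpand n`, and the depth calculus for `x ↦ x ^ p`

`Dp A ε x a` : `x = 1 + ε (a + …)`.  With `s = v(ε)` (normalised by `v(p) = 1`):
`x ↦ x ^ p` sends depth `s` to `min (p s, s + 1)`, with explicit leading terms.
PROOF of `pow_p_*`: `Dp.exists_frac` gives `x Q = Q + ε P`; `x^p Q^p = (Q + ε P)^p`; `add_mul_pow_prime` in the ring `LaurentSeries A`
(with `ε : A`); divide by `ε^p` resp. `p ε` (the quotient `p/ε^(p-1)` resp. `ε^(p-1)/p` lies in `A` by `hc`); `dp_of_frac`.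
-/

set_option autoImplicit false
noncomputable section

namespace Fermat.Agent.ORD.P2

open ModularCurve HahnSeries Fermat.Agent.GR

variable {L : Type*} [Field L] {A : ValuationSubring L}

/-- fractions: `y Z = Z + δ Y` with `Y, Z` integral, `Z̄ ≠ 0`. -/
theorem dp_of_frac {δ : L} (hδ : δ ≠ 0) (Y Z : LaurentSeries A)
    (hZ : coeffMap (IsLocalRing.residue A) Z ≠ 0) {y : LaurentSeries L}
    (hy : y * coeffMap A.subtype Z = coeffMap A.subtype Z + HahnSeries.C δ * coeffMap A.subtype Y) :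
    Dp A δ y (coeffMap (IsLocalRing.residue A) Y / coeffMap (IsLocalRing.residue A) Z) := by
  have hC := C_ne_zero' hδ
  refine ⟨Y, Z, hZ, (div_mul_cancel₀ _ hZ).symm, ?_⟩
  rw [div_mul_eq_mul_div, div_eq_iff hC, sub_mul, one_mul, hy]
  ring

/-- conversely. -/
theorem Dp.exists_frac {ε : L} (hε : ε ≠ 0) {x : LaurentSeries L} {a : LaurentSeries (kk A)}
    (h : Dp A ε x a) : ∃ P Q : LaurentSeries A, coeffMap (IsLocalRing.residue A) Q ≠ 0 ∧
      coeffMap (IsLocalRing.residue A) P = a * coeffMap (IsLocalRing.residue A) Q ∧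
      x * coeffMap A.subtype Q = coeffMap A.subtype Q + HahnSeries.C ε * coeffMap A.subtype P := by
  have hC := C_ne_zero' hε
  obtain ⟨P, Q, hQ, hP, hx⟩ := h
  refine ⟨P, Q, hQ, hP, ?_⟩
  rw [div_mul_eq_mul_div, div_eq_iff hC, sub_mul, one_mul] at hx
  linear_combination hx

theorem Dp.qExpand (n : ℕ) [NeZero n] {ε : L} (hε : ε ≠ 0) {x : LaurentSeries L}
    {a : LaurentSeries (kk A)} (h : Dp A ε x a) :
    Dp A ε (ModularCurve.qExpand L n x) (ModularCurve.qExpand (kk A) n a) :=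
  h.map hε (ModularCurve.qExpand A n) (ModularCurve.qExpand L n) (ModularCurve.qExpand (kk A) n) ε hε
    (qExpand_C _ _) (fun y => GR.coeffMap_qExpand _ n y) (fun y => GR.coeffMap_qExpand _ n y)
    (fun w hw e => hw (qExpand_injective n (by rw [e, map_zero])))

section P

variable {p : ℕ} [NeZero p] [ExpChar (kk A) p]

/-- `x ↦ x ^ p`, regime `|p| ≤ |ε|^(p-1)`. -/
theorem Dp.pow_p_shallow (hp : p.Prime) (hA : A.LiesOverPrime p) {ε : L} (hε : ε ≠ 0)
    (hm : ε ∈ A.nonunits) {c : kk A} (hc : CRed A ((p : L) / ε ^ (p - 1)) c)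
    {x : LaurentSeries L} {a : LaurentSeries (kk A)} (h : Dp A ε x a) :
    Dp A (ε ^ p) (x ^ p) (a ^ p + HahnSeries.C c * a) := by
  obtain ⟨P, Q, hQ, hP, hx⟩ := h.exists_frac hε
  obtain ⟨hd, hdc⟩ := hc
  have hεA : ε ∈ A := A.nonunits_subset hm
  set e : A := ⟨ε, hεA⟩ with he
  set d : A := ⟨(p : L) / ε ^ (p - 1), hd⟩ with hdd
  have he0 : IsLocalRing.residue A e = 0 := by
    obtain ⟨h1, h2⟩ := cRed_zero_iff.mpr hm
    exact h2
  obtain ⟨W, hW⟩ := add_mul_pow_prime hp (HahnSeries.C e : LaurentSeries A) P Q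
  have hp1 : p - 1 + 1 = p := Nat.sub_add_cancel hp.one_le
  -- `p ε = d ε ^ p`
  have hpe : (p : A) * e = d * e ^ p := by
    apply Subtype.ext
    show (((p : A) : L)) * ε = (p : L) / ε ^ (p - 1) * ε ^ p
    rw [← hp1, pow_succ, Nat.add_sub_cancel, ← mul_assoc, div_mul_cancel₀ _ (pow_ne_zero _ hε)]
    simp
  have hpe' : (p : LaurentSeries A) * HahnSeries.C e = HahnSeries.C d * HahnSeries.C e ^ p := by
    rw [← map_natCast (HahnSeries.C : A →+* LaurentSeries A), ← map_pow, ← map_mul, ← map_mul, hpe]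
  have hW' : (Q + HahnSeries.C e * P) ^ p = Q ^ p + HahnSeries.C e ^ p *
      (P ^ p + HahnSeries.C d * (P * Q ^ (p - 1) + HahnSeries.C e * W)) := by
    rw [hW, hpe']; ring
  have hCe : coeffMap A.subtype (HahnSeries.C e) = HahnSeries.C ε := coeffMap_C _ _
  have key := dp_of_frac (A := A) (pow_ne_zero p hε)
    (P ^ p + HahnSeries.C d * (P * Q ^ (p - 1) + HahnSeries.C e * W)) (Q ^ p)
    (by rw [map_pow]; exact pow_ne_zero _ hQ) (y := x ^ p) (by
      rw [map_pow, ← mul_pow, hx, ← hCe, ← map_mul, ← map_add, ← map_pow, hW', map_add, map_mul,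
        map_pow, map_pow, map_pow, hCe])
  convert key using 1
  rw [eq_div_iff (by rw [map_pow]; exact pow_ne_zero _ hQ)]
  simp only [map_add, map_mul, map_pow, coeffMap_C, he0, hdc, hP, map_zero, zero_mul, add_zero]
  have : coeffMap (IsLocalRing.residue A) Q ^ p
      = coeffMap (IsLocalRing.residue A) Q * coeffMap (IsLocalRing.residue A) Q ^ (p - 1) := by
    rw [← pow_succ', hp1]
  rw [mul_pow, add_mul, this]
  ring

/-- `x ↦ x ^ p`, regime `|ε|^(p-1) ≤ |p|`. -/
theorem Dp.pow_p_deep (hp : p.Prime) (hA : A.LiesOverPrime p) (h0 : (p : L) ≠ 0) {ε : L} (hε : ε ≠ 0)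
    (hm : ε ∈ A.nonunits) {c : kk A} (hc : CRed A (ε ^ (p - 1) / (p : L)) c)
    {x : LaurentSeries L} {a : LaurentSeries (kk A)} (h : Dp A ε x a) :
    Dp A ((p : L) * ε) (x ^ p) (a + HahnSeries.C c * a ^ p) := by
  obtain ⟨P, Q, hQ, hP, hx⟩ := h.exists_frac hε
  obtain ⟨hd, hdc⟩ := hc
  have hεA : ε ∈ A := A.nonunits_subset hm
  set e : A := ⟨ε, hεA⟩ with he
  set d : A := ⟨ε ^ (p - 1) / (p : L), hd⟩ with hdd
  have he0 : IsLocalRing.residue A e = 0 := by
    obtain ⟨h1, h2⟩ := cRed_zero_iff.mpr hm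
    exact h2
  obtain ⟨W, hW⟩ := add_mul_pow_prime hp (HahnSeries.C e : LaurentSeries A) P Q
  have hp1 : p - 1 + 1 = p := Nat.sub_add_cancel hp.one_le
  -- `ε ^ p = d p ε`
  have hpe : e ^ p = (p : A) * e * d := by
    apply Subtype.ext
    show ε ^ p = (((p : A) : L)) * ε * (ε ^ (p - 1) / (p : L))
    have : ((p : A) : L) = (p : L) := by simp
    rw [this]
    conv_lhs => rw [← hp1, pow_succ]
    field_simp
  have hpe' : HahnSeries.C e ^ p = (p : LaurentSeries A) * HahnSeries.C e * HahnSeries.C d := by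
    rw [← map_natCast (HahnSeries.C : A →+* LaurentSeries A), ← map_pow, ← map_mul, ← map_mul, hpe]
  have hW' : (Q + HahnSeries.C e * P) ^ p = Q ^ p + (p : LaurentSeries A) * HahnSeries.C e *
      (HahnSeries.C d * P ^ p + (P * Q ^ (p - 1) + HahnSeries.C e * W)) := by
    rw [hW, hpe']; ring
  have hCe : coeffMap A.subtype (HahnSeries.C e) = HahnSeries.C ε := coeffMap_C _ _
  have key := dp_of_frac (A := A) (mul_ne_zero h0 hε)
    (HahnSeries.C d * P ^ p + (P * Q ^ (p - 1) + HahnSeries.C e * W)) (Q ^ p)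
    (by rw [map_pow]; exact pow_ne_zero _ hQ) (y := x ^ p) (by
      rw [map_pow, ← mul_pow, hx, ← hCe, ← map_mul, ← map_add, ← map_pow, hW', map_add, map_mul,
        map_mul, map_natCast, map_pow, hCe, map_mul, map_natCast])
  convert key using 1
  rw [eq_div_iff (by rw [map_pow]; exact pow_ne_zero _ hQ)]
  simp only [map_add, map_mul, map_pow, coeffMap_C, he0, hdc, hP, map_zero, zero_mul, add_zero]
  have : coeffMap (IsLocalRing.residue A) Q ^ p
      = coeffMap (IsLocalRing.residue A) Q * coeffMap (IsLocalRing.residue A) Q ^ (p - 1) := by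
    rw [← pow_succ', hp1]
  rw [mul_pow, add_mul, this]
  ring

end P

end Fermat.Agent.ORD.P2
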