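import Fermat.Agent.ORD.P2.NormU
import Fermat.Agent.ORD.P2.DepPow

/-!
# ORD / P2-B2 : depth calculus for `U = normU p ζ` and `T = formalT p ζ`

`U` sends depth `s` to `min (p s, s + 1)`, with explicit leading terms.
PROOF of `normU_*`: `Dp.exists_frac` gives `x Q = Q + ε P` (`P, Q` integral, `ε : A`); `normU` is multiplicative over `L` (`GR.normU_mul`) and
commutes with `coeffMap` (`GR.coeffMap_normU`, `GR.rootUnit`, `map_subtype_rootUnit`, `map_residue_rootUnit`); `normU_add_C_mul` in `LaurentSeries A`;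
over `k`: `normU p 1 y = qContract p (y ^ p) = coeffMap frobenius y` (`GR.pow_char_eq_qExpand`, `qContract_qExpand`), `qScale 1 = id`,
`qContract (P̄ Q̄^(p-1)) = qContract (a Q̄^p) = qContract a * Q̄^σ` (`qContract_mul_qExpand`); `dp_of_frac`.
-/

set_option autoImplicit false
noncomputable section

namespace Fermat.Agent.ORD.P2

open ModularCurve HahnSeries Fermat.Agent.GR

variable {L : Type*} [Field L] {A : ValuationSubring L}

section P

variable {p : ℕ} [NeZero p] [ExpChar (kk A) p]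

omit [ExpChar (kk A) p] in
theorem DepU_normU_one {k : Type*} [CommRing k] [ExpChar k p] (w : LaurentSeries k) :
    normU p (1 : kˣ) w = coeffMap (frobenius k p) w := by
  rw [normU, conjProd]
  simp only [one_pow, qScale_one, Finset.prod_const, Finset.card_range]
  rw [pow_char_eq_qExpand p w, qContract_qExpand]

/-- the common computation: `ε ^ p = c₁ δ`, `p ε = c₂ δ` with `c₁, c₂ ∈ A`. -/
theorem DepU_key (hp : p.Prime) (hA : A.LiesOverPrime p) {ζ : Lˣ}
    (hζ : IsPrimitiveRoot ζ p) {ε : L} (hε : ε ≠ 0) (hm : ε ∈ A.nonunits) {δ c₁ c₂ : L}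
    {b₁ b₂ : kk A} (hδ : δ ≠ 0) (h₁ : CRed A c₁ b₁) (h₂ : CRed A c₂ b₂) (e₁ : ε ^ p = c₁ * δ)
    (e₂ : (p : L) * ε = c₂ * δ) {x : LaurentSeries L} {a : LaurentSeries (kk A)}
    (h : Dp A ε x a) :
    Dp A δ (normU p ζ x)
      (HahnSeries.C b₁ * coeffMap (frobenius (kk A) p) a + HahnSeries.C b₂ * qContract p a) := by
  obtain ⟨P, Q, hQ, hP, hx⟩ := h.exists_frac hε
  obtain ⟨hc₁, rfl⟩ := h₁
  obtain ⟨hc₂, rfl⟩ := h₂
  obtain ⟨hεA, hε0⟩ := cRed_zero_iff.mpr hm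
  obtain ⟨W, hW⟩ := normU_add_C_mul p hp (rootUnit_pow A ζ hp.ne_zero hζ.pow_eq_one)
    (⟨ε, hεA⟩ : A) P Q
  have hι : ∀ y, coeffMap A.subtype (normU p (rootUnit A ζ hp.ne_zero hζ.pow_eq_one) y) =
      normU p ζ (coeffMap A.subtype y) := fun y => by
    rw [coeffMap_normU, map_subtype_rootUnit]
  have hρ : ∀ y, coeffMap (IsLocalRing.residue A)
      (normU p (rootUnit A ζ hp.ne_zero hζ.pow_eq_one) y) =
      coeffMap (frobenius (kk A) p) (coeffMap (IsLocalRing.residue A) y) := fun y => by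
    rw [coeffMap_normU, map_residue_rootUnit hp hA, DepU_normU_one]
  set ζA := rootUnit A ζ hp.ne_zero hζ.pow_eq_one with hζA
  set M := qContract p (P * ∏ b ∈ Finset.Ico 1 p, qScale (ζA ^ b) Q) +
    HahnSeries.C (⟨ε, hεA⟩ : A) * W with hM
  have hMres : coeffMap (IsLocalRing.residue A) M =
      qContract p a * coeffMap (frobenius (kk A) p) (coeffMap (IsLocalRing.residue A) Q) := by
    rw [hM, map_add, map_mul (coeffMap (IsLocalRing.residue A)) (HahnSeries.C _) W, coeffMap_C,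
      hε0, map_zero, zero_mul, add_zero, coeffMap_qContract,
      map_mul (coeffMap (IsLocalRing.residue A)), map_prod]
    simp only [coeffMap_qScale, map_pow]
    rw [hζA, map_residue_rootUnit hp hA]
    simp only [one_pow, qScale_one, Finset.prod_const, Nat.card_Ico]
    rw [hP, mul_assoc, ← pow_succ', Nat.sub_add_cancel hp.one_le, pow_char_eq_qExpand p,
      qContract_mul_qExpand]
  have hZ : coeffMap (IsLocalRing.residue A) (normU p ζA Q) ≠ 0 := by
    rw [hρ]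
    exact coeffMap_ne_zero_of_injective (frobenius_inj (kk A) p) hQ
  have key := dp_of_frac hδ
    (HahnSeries.C (⟨c₁, hc₁⟩ : A) * normU p ζA P + HahnSeries.C (⟨c₂, hc₂⟩ : A) * M)
    (normU p ζA Q) hZ (y := normU p ζ x) ?_
  · convert key using 1
    rw [eq_div_iff hZ, map_add, map_mul, map_mul, coeffMap_C, coeffMap_C, hρ, hρ, hMres, hP,
      map_mul]
    ring
  · rw [hι, ← normU_mul p hζ, hx]
    have h1 : coeffMap A.subtype Q + HahnSeries.C ε * coeffMap A.subtype P =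
        coeffMap A.subtype (Q + HahnSeries.C (⟨ε, hεA⟩ : A) * P) := by
      rw [map_add, map_mul, coeffMap_C]
      rfl
    have h2 : A.subtype ((⟨ε, hεA⟩ : A) ^ p) = c₁ * δ := by
      rw [map_pow]; exact e₁
    have h3 : A.subtype ((p : A) * (⟨ε, hεA⟩ : A)) = c₂ * δ := by
      rw [map_mul, map_natCast]; exact e₂
    have h4 : A.subtype (⟨c₁, hc₁⟩ : A) = c₁ := rfl
    have h5 : A.subtype (⟨c₂, hc₂⟩ : A) = c₂ := rfl
    rw [h1, ← hι, hW]
    simp only [map_add (coeffMap A.subtype), map_mul (coeffMap A.subtype), coeffMap_C, h2, h3, h4,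
      h5, map_mul (HahnSeries.C (Γ := ℤ) (R := L))]
    rw [← hι Q]
    ring

/-- `U`, regime `|p| ≤ |ε|^(p-1)`:  `U (1 + ε a) = 1 + ε^p (a^σ + c U₊ a)`, `c = p / ε^(p-1)`. -/
theorem Dp.normU_shallow (hp : p.Prime) (hA : A.LiesOverPrime p) {ζ : Lˣ}
    (hζ : IsPrimitiveRoot ζ p) {ε : L} (hε : ε ≠ 0) (hm : ε ∈ A.nonunits) {c : kk A}
    (hc : CRed A ((p : L) / ε ^ (p - 1)) c) {x : LaurentSeries L} {a : LaurentSeries (kk A)}
    (h : Dp A ε x a) :
    Dp A (ε ^ p) (normU p ζ x)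
      (coeffMap (frobenius (kk A) p) a + HahnSeries.C c * qContract p a) := by
  have e₂ : (p : L) * ε = (p : L) / ε ^ (p - 1) * ε ^ p := by
    have h1 : ε ^ p = ε ^ (p - 1) * ε := by
      rw [← pow_succ, Nat.sub_add_cancel hp.one_le]
    rw [h1, ← mul_assoc, div_mul_cancel₀ _ (pow_ne_zero _ hε)]
  have := DepU_key hp hA hζ hε hm (pow_ne_zero p hε) CRed.one hc (one_mul _).symm e₂ h
  rwa [map_one, one_mul] at this

/-- `U`, regime `|ε|^(p-1) ≤ |p|`:  `U (1 + ε a) = 1 + p ε (U₊ a + c a^σ)`, `c = ε^(p-1) / p`. -/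
theorem Dp.normU_deep (hp : p.Prime) (hA : A.LiesOverPrime p) (h0 : (p : L) ≠ 0) {ζ : Lˣ}
    (hζ : IsPrimitiveRoot ζ p) {ε : L} (hε : ε ≠ 0) (hm : ε ∈ A.nonunits) {c : kk A}
    (hc : CRed A (ε ^ (p - 1) / (p : L)) c) {x : LaurentSeries L} {a : LaurentSeries (kk A)}
    (h : Dp A ε x a) :
    Dp A ((p : L) * ε) (normU p ζ x)
      (qContract p a + HahnSeries.C c * coeffMap (frobenius (kk A) p) a) := by
  have e₁ : ε ^ p = ε ^ (p - 1) / (p : L) * ((p : L) * ε) := by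
    have h1 : ε ^ p = ε ^ (p - 1) * ε := by
      rw [← pow_succ, Nat.sub_add_cancel hp.one_le]
    rw [h1, ← mul_assoc, div_mul_cancel₀ _ h0]
  have := DepU_key hp hA hζ hε hm (mul_ne_zero h0 hε) hc CRed.one e₁ (one_mul _).symm h
  rwa [map_one, one_mul, add_comm] at this

/-- **contraction**: `U` strictly increases the depth. -/
theorem Dp.normU_contract (hp : p.Prime) (hA : A.LiesOverPrime p) (h0 : (p : L) ≠ 0) {ζ : Lˣ}
    (hζ : IsPrimitiveRoot ζ p) {ε : L} (hε : ε ≠ 0) (hm : ε ∈ A.nonunits) {x : LaurentSeries L}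
    {a : LaurentSeries (kk A)} (h : Dp A ε x a) :
    (∃ b, Dp A (ε ^ p) (normU p ζ x) b) ∨ (∃ b, Dp A ((p : L) * ε) (normU p ζ x) b) := by
  rcases A.mem_or_inv_mem ((p : L) / ε ^ (p - 1)) with hc | hc
  · exact Or.inl ⟨_, Dp.normU_shallow hp hA hζ hε hm ⟨hc, rfl⟩ h⟩
  · rw [inv_div] at hc
    exact Or.inr ⟨_, Dp.normU_deep hp hA h0 hζ hε hm ⟨hc, rfl⟩ h⟩

theorem Dp.normU_zero (hp : p.Prime) (hA : A.LiesOverPrime p) (h0 : (p : L) ≠ 0) {ζ : Lˣ}
    (hζ : IsPrimitiveRoot ζ p) {ε : L} (hε : ε ≠ 0) (hm : ε ∈ A.nonunits) {x : LaurentSeries L}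
    {a : LaurentSeries (kk A)} (h : Dp A ε x a) : Dp A ε (normU p ζ x) 0 := by
  have e₁ : ε ^ p = ε ^ (p - 1) * ε := by
    rw [← pow_succ, Nat.sub_add_cancel hp.one_le]
  have h₁ : CRed A (ε ^ (p - 1)) 0 := by
    have := (cRed_zero_iff.mpr hm).pow (p - 1)
    rwa [zero_pow (Nat.sub_ne_zero_of_lt hp.one_lt)] at this
  have h₂ : CRed A (p : L) 0 := cRed_zero_iff.mpr hA
  have := DepU_key hp hA hζ hε hm hε h₁ h₂ e₁ rfl h
  rwa [map_zero, zero_mul, zero_mul, add_zero] at this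

/-- `T_p (1 + ε a) = 1 + ε a(q^p)`. -/
theorem Dp.formalT (hp : p.Prime) (hA : A.LiesOverPrime p) (h0 : (p : L) ≠ 0) {ζ : Lˣ}
    (hζ : IsPrimitiveRoot ζ p) {ε : L} (hε : ε ≠ 0) (hm : ε ∈ A.nonunits) {x : LaurentSeries L}
    {a : LaurentSeries (kk A)} (h : Dp A ε x a) :
    Dp A ε (Fermat.Agent.GR.formalT p ζ x) (ModularCurve.qExpand (kk A) p a) := by
  have := (Dp.qExpand p hε h).mul hε hm (Dp.normU_zero hp hA h0 hζ hε hm h)
  rwa [add_zero] at this

end P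

end Fermat.Agent.ORD.P2
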