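import Fermat.Agent.ORD.P2.Lam
import Fermat.Agent.ORD.P2.DepU

/-!
# ORD / P2-C2 : the depth calculus at the scales `λ ^ i`  (corollaries of DepPow, DepU, Lam, `Dp.rescale`, `Dp.of_deeper`)
-/

set_option autoImplicit false
noncomputable section

namespace Fermat.Agent.ORD.P2

open ModularCurve HahnSeries Fermat.Agent.GR

variable {L : Type*} [Field L] {A : ValuationSubring L}

variable {p : ℕ} {ζ : Lˣ}

theorem LamDp_pow_mem_nonunits {c : L} (h : c ∈ A.nonunits) {n : ℕ} (hn : n ≠ 0) :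
    c ^ n ∈ A.nonunits := by
  have h1 := (cRed_zero_iff.mpr h).pow n
  rw [zero_pow hn] at h1
  exact cRed_zero_iff.mp h1

/-- `λ^(i (p-1)) / p ≡ 0` for `i ≥ 2`. -/
theorem LamDp_cRed_deep (hp : p.Prime) (hp2 : p ≠ 2) (hA : A.LiesOverPrime p)
    (hζ : IsPrimitiveRoot ζ p) {i : ℕ} (hi : 2 ≤ i) :
    CRed A ((lam ζ ^ i) ^ (p - 1) / (p : L)) 0 := by
  have h1 := cRed_lam_div_p hp hp2 hA hζ
  have hp1 : p - 1 ≠ 0 := by have := hp.two_le; omega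
  have h2 : lam ζ ^ ((i - 1) * (p - 1)) ∈ A.nonunits :=
    LamDp_pow_mem_nonunits (lam_mem_nonunits hp hA hζ.pow_eq_one)
      (Nat.mul_ne_zero (by omega) hp1)
  have h3 := h1.mul (cRed_zero_iff.mpr h2)
  rw [mul_zero] at h3
  have h4 : (lam ζ ^ i) ^ (p - 1) / (p : L)
      = lam ζ ^ (p - 1) / (p : L) * lam ζ ^ ((i - 1) * (p - 1)) := by
    rw [← pow_mul, div_mul_eq_mul_div, ← _root_.pow_add]
    congr 2
    obtain ⟨j, rfl⟩ : ∃ j, i = j + 1 := ⟨i - 1, by omega⟩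
    rw [Nat.add_sub_cancel]
    ring
  rwa [h4]

/-- `p λ^i = (p / λ^(p-1)) λ^(i+p-1)`. -/
theorem LamDp_scale_eq (hp : p.Prime) (hζ : IsPrimitiveRoot ζ p) (i : ℕ) :
    (p : L) * lam ζ ^ i = (p : L) / lam ζ ^ (p - 1) * lam ζ ^ (i + (p - 1)) := by
  have h0 := lam_ne_zero hp hζ
  rw [_root_.pow_add]
  field_simp

section Scales

variable [NeZero p] [ExpChar (kk A) p]

/-- `(1 + λ a)^p = 1 + λ^p (a^p - a)`. -/
theorem Dp.pow_p_lam_one (hp : p.Prime) (hp2 : p ≠ 2) (hA : A.LiesOverPrime p)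
    (hζ : IsPrimitiveRoot ζ p) {x : LaurentSeries L} {a : LaurentSeries (kk A)}
    (h : Dp A (lam ζ) x a) : Dp A (lam ζ ^ p) (x ^ p) (a ^ p - a) := by
  have h1 := h.pow_p_shallow hp hA (lam_ne_zero hp hζ) (lam_mem_nonunits hp hA hζ.pow_eq_one)
    (cRed_p_div_lam hp hp2 hA hζ)
  rwa [map_neg, map_one, neg_one_mul, ← sub_eq_add_neg] at h1

/-- `(1 + λ^i a)^p = 1 - λ^(i+p-1) a` for `i ≥ 2`. -/
theorem Dp.pow_p_lam (hp : p.Prime) (hp2 : p ≠ 2) (hA : A.LiesOverPrime p)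
    (hζ : IsPrimitiveRoot ζ p) {i : ℕ} (hi : 2 ≤ i) {x : LaurentSeries L}
    {a : LaurentSeries (kk A)} (h : Dp A (lam ζ ^ i) x a) :
    Dp A (lam ζ ^ (i + (p - 1))) (x ^ p) (-a) := by
  have h0 := natCast_ne_zero_of_isPrimitiveRoot hp hζ
  have hl0 := lam_ne_zero hp hζ
  have hε : lam ζ ^ i ≠ 0 := pow_ne_zero i hl0
  have hm : lam ζ ^ i ∈ A.nonunits :=
    LamDp_pow_mem_nonunits (lam_mem_nonunits hp hA hζ.pow_eq_one) (by omega)
  have h1 := h.pow_p_deep hp hA h0 hε hm (LamDp_cRed_deep hp hp2 hA hζ hi)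
  rw [map_zero, zero_mul, add_zero] at h1
  have h2 := h1.rescale (mul_ne_zero h0 hε) (cRed_p_div_lam hp hp2 hA hζ) (LamDp_scale_eq hp hζ i)
  rwa [map_neg, map_one, neg_one_mul] at h2

/-- in particular `x ≡ 1 mod λ` implies `x ^ p ≡ 1 mod λ^p`. -/
theorem Dp.exists_pow_p_lam (hp : p.Prime) (hp2 : p ≠ 2) (hA : A.LiesOverPrime p)
    (hζ : IsPrimitiveRoot ζ p) {i : ℕ} (hi : 1 ≤ i) {x : LaurentSeries L}
    {a : LaurentSeries (kk A)} (h : Dp A (lam ζ ^ i) x a) :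
    ∃ b, Dp A (lam ζ ^ p) (x ^ p) b := by
  rcases Nat.lt_or_ge i 2 with hi2 | hi2
  · obtain rfl : i = 1 := by omega
    rw [pow_one] at h
    exact ⟨_, h.pow_p_lam_one hp hp2 hA hζ⟩
  · have h1 := h.pow_p_lam hp hp2 hA hζ hi2
    have hl0 := lam_ne_zero hp hζ
    refine ⟨0, h1.of_deeper (c := lam ζ ^ (i - 1)) (pow_ne_zero _ hl0)
      (LamDp_pow_mem_nonunits (lam_mem_nonunits hp hA hζ.pow_eq_one) (by omega)) ?_⟩
    rw [← _root_.pow_add]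
    congr 1
    have := hp.two_le
    omega

/-- `U (1 + λ a) = 1 + λ^p (a^σ - U₊ a)`. -/
theorem Dp.normU_lam_one (hp : p.Prime) (hp2 : p ≠ 2) (hA : A.LiesOverPrime p)
    (hζ : IsPrimitiveRoot ζ p) {x : LaurentSeries L} {a : LaurentSeries (kk A)}
    (h : Dp A (lam ζ) x a) :
    Dp A (lam ζ ^ p) (normU p ζ x) (coeffMap (frobenius (kk A) p) a - qContract p a) := by
  have h1 := h.normU_shallow hp hA hζ (lam_ne_zero hp hζ) (lam_mem_nonunits hp hA hζ.pow_eq_one)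
    (cRed_p_div_lam hp hp2 hA hζ)
  rwa [map_neg, map_one, neg_one_mul, ← sub_eq_add_neg] at h1

/-- `U (1 + λ^i a) = 1 - λ^(i+p-1) U₊ a` for `i ≥ 2`. -/
theorem Dp.normU_lam (hp : p.Prime) (hp2 : p ≠ 2) (hA : A.LiesOverPrime p)
    (hζ : IsPrimitiveRoot ζ p) {i : ℕ} (hi : 2 ≤ i) {x : LaurentSeries L}
    {a : LaurentSeries (kk A)} (h : Dp A (lam ζ ^ i) x a) :
    Dp A (lam ζ ^ (i + (p - 1))) (normU p ζ x) (-(qContract p a)) := by
  have h0 := natCast_ne_zero_of_isPrimitiveRoot hp hζ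
  have hl0 := lam_ne_zero hp hζ
  have hε : lam ζ ^ i ≠ 0 := pow_ne_zero i hl0
  have hm : lam ζ ^ i ∈ A.nonunits :=
    LamDp_pow_mem_nonunits (lam_mem_nonunits hp hA hζ.pow_eq_one) (by omega)
  have h1 := h.normU_deep hp hA h0 hζ hε hm (LamDp_cRed_deep hp hp2 hA hζ hi)
  rw [map_zero, zero_mul, add_zero] at h1
  have h2 := h1.rescale (mul_ne_zero h0 hε) (cRed_p_div_lam hp hp2 hA hζ) (LamDp_scale_eq hp hζ i)
  rwa [map_neg, map_one, neg_one_mul] at h2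

/-- `T_p (1 + λ^i a) = 1 + λ^i a(q^p)`. -/
theorem Dp.formalT_lam (hp : p.Prime) (hA : A.LiesOverPrime p)
    (hζ : IsPrimitiveRoot ζ p) {i : ℕ} (hi : 1 ≤ i) {x : LaurentSeries L}
    {a : LaurentSeries (kk A)} (h : Dp A (lam ζ ^ i) x a) :
    Dp A (lam ζ ^ i) (Fermat.Agent.GR.formalT p ζ x) (ModularCurve.qExpand (kk A) p a) :=
  h.formalT hp hA (natCast_ne_zero_of_isPrimitiveRoot hp hζ) hζ (pow_ne_zero i (lam_ne_zero hp hζ))
    (LamDp_pow_mem_nonunits (lam_mem_nonunits hp hA hζ.pow_eq_one) (by omega))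

end Scales

end Fermat.Agent.ORD.P2
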