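import Fermat.Agent.ORD.P2.FFDefs

/-!
# ORD / P2-E1 : small formal lemmas: constant series, Frobenius lifts

Notation in the comments: `V = qExpand _ p` (`q ↦ q^p`), `Fr = coeffMap (frobenius k p)` (Frobenius on the coefficients).
Basic identity (`GR.pow_char_eq_qExpand`): `z ^ p = V (Fr z)`; `V` and `Fr` commute (`GR.coeffMap_qExpand`).
-/

set_option autoImplicit false
noncomputable section

namespace Fermat.Agent.ORD.P2

open ModularCurve HahnSeries Fermat.Agent.GR

/-! ### constants -/

section Const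

variable {L : Type*} [Field L] {A : ValuationSubring L}

/-- a constant series which has a reduction is integral, and the reduction is a constant.
PROOF: `C c * Q = P`, `Q̄ ≠ 0`: pick `n` with `Q_n` a unit of `A`; `c = P_n / Q_n ∈ A`; then `P = C c * Q` in `A((q))`, reduce, cancel `Q̄`.
(model: `GAL.KLC.ValThm_mem_of_hasRed_C`.) -/
theorem hasRed_C_inv {c : L} {z : LaurentSeries (kk A)} (h : HasRed A (HahnSeries.C c) z) :
    ∃ cb : kk A, CRed A c cb ∧ z = HahnSeries.C cb := by
  have hc : c ∈ A := by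
    by_contra hc
    have hv : c⁻¹ ∈ A.nonunits := by
      rw [ValuationSubring.mem_nonunits_iff, map_inv₀]
      have h1 : 1 < A.valuation c := by
        rw [← not_le, ValuationSubring.valuation_le_one_iff]
        exact hc
      exact inv_lt_one_of_one_lt₀ h1
    have hc0 : c ≠ 0 := fun e => hc (by rw [e]; exact A.zero_mem)
    have h1 := hasRed_C_mul_zero hv h
    rw [← map_mul, inv_mul_cancel₀ hc0, map_one] at h1
    exact one_ne_zero (HasRed.one.unique h1)
  exact ⟨_, CRed.mk ⟨c, hc⟩, h.unique (CRed.mk (A := A) ⟨c, hc⟩).hasRed⟩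

theorem Dp.const_inv {ε γ : L} {b : LaurentSeries (kk A)} (h : Dp A ε (HahnSeries.C γ) b) :
    ∃ cb : kk A, CRed A ((γ - 1) / ε) cb ∧ b = HahnSeries.C cb := by
  apply hasRed_C_inv
  have e : (HahnSeries.C ((γ - 1) / ε) : LaurentSeries L)
      = (HahnSeries.C γ - 1) / HahnSeries.C ε := by
    rw [map_div₀, map_sub, map_one]
  rw [e]
  exact h

/-- `Dp` only depends on the scale up to a unit `≡ 1`... general form: `ε' = c ε`, `c` a unit. -/
theorem Dp.rescale_unit {ε ε' c : L} {cb : kk A} (hε : ε ≠ 0) (hc : CRed A c cb) (hcb : cb ≠ 0)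
    (h : ε' = c * ε) {x : LaurentSeries L} {a : LaurentSeries (kk A)} (hx : Dp A ε x a) :
    Dp A ε' x (HahnSeries.C cb⁻¹ * a) := by
  have hc0 : c ≠ 0 := by
    rintro rfl
    exact hcb (hc.unique CRed.zero)
  refine hx.rescale hε (hc.inv hcb) ?_
  rw [h, ← mul_assoc, inv_mul_cancel₀ hc0, one_mul]

end Const

section Ring

variable {R : Type*} [CommRing R]

theorem qExpand_C (n : ℕ) [NeZero n] (c : R) :
    qExpand R n (HahnSeries.C c) = HahnSeries.C c := by
  exact ModularCurve.qExpand_C n c

theorem qExpand_eq_C (n : ℕ) [NeZero n] {a : LaurentSeries R} {c : R}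
    (h : qExpand R n a = HahnSeries.C c) : a = HahnSeries.C c := by
  apply qExpand_injective (R := R) n
  rw [h, ModularCurve.qExpand_C]

theorem iterate_qExpand_C (p : ℕ) [NeZero p] (n : ℕ) (c : R) :
    (qExpand R p)^[n] (HahnSeries.C c) = HahnSeries.C c := by
  exact Function.iterate_fixed (ModularCurve.qExpand_C p c) n

theorem normU_C (p : ℕ) [NeZero p] (ζ : Rˣ) (c : R) :
    normU p ζ (HahnSeries.C c) = HahnSeries.C (c ^ p) := by
  have h1 : conjProd p ζ (HahnSeries.C c : LaurentSeries R) = HahnSeries.C (c ^ p) := by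
    have h2 : ∀ b : ℕ, qScale (ζ ^ b) (HahnSeries.C c : LaurentSeries R) = HahnSeries.C c := by
      intro b
      show qScale (ζ ^ b) (HahnSeries.single 0 c) = HahnSeries.single 0 c
      rw [qScale_single, zpow_zero, Units.val_one, one_mul]
    rw [conjProd, Finset.prod_congr rfl (fun b _ => h2 b), Finset.prod_const, Finset.card_range,
      map_pow]
  rw [normU, h1]
  conv_lhs => rw [← ModularCurve.qExpand_C p (c ^ p)]
  exact qContract_qExpand p _

theorem formalT_C (p : ℕ) [NeZero p] (ζ : Rˣ) (c : R) :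
    formalT p ζ (HahnSeries.C c) = HahnSeries.C (c ^ (p + 1)) := by
  rw [formalT, normU_C, ModularCurve.qExpand_C, ← map_mul, pow_succ']

end Ring

/-! ### Frobenius lifts -/

section Frob

variable {K L : Type*} [Field K] [Field L] [Algebra K L] {A : ValuationSubring L}
variable {p : ℕ} [ExpChar (kk A) p] {s : L ≃ₐ[K] L}

/-- `s⁻¹` on reductions.  PROOF: `s.symm = s⁻¹ ∈ A.decompositionSubgroup K`; `HasRed.map` with `ΦA = coeffMap (decompHom s⁻¹ _)`,
`Φk = coeffMap (MulSemiringAction.toRingHom _ (kk A) ⟨s⁻¹, _⟩)` (`GR.residue_decompHom`, `GR.incl_decompHom`); then `Fr ∘ Φk = id` because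
`⟨s,_⟩ • x = x ^ p` (`IsFrobeniusAt.smul_residue_eq`) and `smul_inv_smul`. -/
theorem hasRed_symm_frobenius (hs : A.IsFrobeniusAt s p) {x : LaurentSeries L}
    {z : LaurentSeries (kk A)} (h : HasRed A x z) :
    ∃ z' : LaurentSeries (kk A), HasRed A (coeffMap (s.symm : L →+* L) x) z' ∧
      coeffMap (frobenius (kk A) p) z' = z := by
  have hd : s ∈ A.decompositionSubgroup K := hs.mem_decompositionSubgroup
  have hd' : s.symm ∈ A.decompositionSubgroup K := (A.decompositionSubgroup K).inv_mem hd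
  have hinv : (⟨s.symm, hd'⟩ : A.decompositionSubgroup K) = (⟨s, hd⟩ : A.decompositionSubgroup K)⁻¹ :=
    rfl
  refine ⟨coeffMap (MulSemiringAction.toRingHom (A.decompositionSubgroup K) (kk A) ⟨s.symm, hd'⟩) z,
    ?_, ?_⟩
  · refine h.map (coeffMap (decompHom s.symm hd')) (coeffMap (s.symm : L →+* L))
      (coeffMap (MulSemiringAction.toRingHom (A.decompositionSubgroup K) (kk A) ⟨s.symm, hd'⟩))
      (map_mul _) (map_mul _) (incl_decompHom s.symm hd') ?_
      (fun _ hw => coeffMap_ne_zero_of_injective (RingHom.injective _) hw)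
    intro y
    ext n
    simp only [coeffMap_coeff]
    exact residue_decompHom s.symm hd' _
  · ext n
    simp only [coeffMap_coeff]
    rw [frobenius_def, ← hs.smul_residue_eq]
    show (⟨s, hd⟩ : A.decompositionSubgroup K) •
      ((⟨s.symm, hd'⟩ : A.decompositionSubgroup K) • z.coeff n) = z.coeff n
    rw [hinv, smul_inv_smul]

theorem hasRed_of_map_frobenius (hs : A.IsFrobeniusAt s p) {x : LaurentSeries L}
    {z : LaurentSeries (kk A)}
    (h : HasRed A (coeffMap (s : L →+* L) x) (coeffMap (frobenius (kk A) p) z)) :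
    HasRed A x z := by
  obtain ⟨z', h1, h2⟩ := hasRed_symm_frobenius hs h
  have h3 : z' = z := coeffMap_injective (RingHom.injective _) h2
  have h4 : coeffMap (s.symm : L →+* L) (coeffMap (s : L →+* L) x) = x := by
    ext n
    simp
  rwa [h3, h4] at h1

theorem hasRed_iterate_frobenius (hs : A.IsFrobeniusAt s p) (n : ℕ) {x : LaurentSeries L}
    {z : LaurentSeries (kk A)} (h : HasRed A x z) :
    HasRed A ((coeffMap (s : L →+* L))^[n] x) ((coeffMap (frobenius (kk A) p))^[n] z) := by
  induction n with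
  | zero => exact h
  | succ n ih =>
    rw [Function.iterate_succ_apply', Function.iterate_succ_apply']
    exact ih.map_frobenius hs

theorem hasRed_iterate_symm_frobenius (hs : A.IsFrobeniusAt s p) (n : ℕ) {x : LaurentSeries L}
    {z : LaurentSeries (kk A)} (h : HasRed A x z) :
    ∃ z' : LaurentSeries (kk A), HasRed A ((coeffMap (s.symm : L →+* L))^[n] x) z' ∧
      (coeffMap (frobenius (kk A) p))^[n] z' = z := by
  induction n with
  | zero => exact ⟨z, h, rfl⟩
  | succ n ih =>
    obtain ⟨z₁, h1, h2⟩ := ih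
    obtain ⟨z₂, h3, h4⟩ := hasRed_symm_frobenius hs h1
    refine ⟨z₂, ?_, ?_⟩
    · rw [Function.iterate_succ_apply']
      exact h3
    · rw [Function.iterate_succ_apply, h4, h2]

variable {𝔽 : Type*} [Field 𝔽] {i : 𝔽 →+* LaurentSeries L}

theorem FrobOn.lift_iterate (S : FrobOn A p s i) (n : ℕ) (x : 𝔽) :
    ∃ x' : 𝔽, i x' = (coeffMap (s : L →+* L))^[n] (i x) := by
  induction n with
  | zero => exact ⟨x, rfl⟩
  | succ n ih =>
    obtain ⟨x₁, h1⟩ := ih
    obtain ⟨x₂, h2⟩ := S.lift x₁
    exact ⟨x₂, by rw [h2, h1, Function.iterate_succ_apply']⟩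

theorem FrobOn.lift_symm_iterate (S : FrobOn A p s i) (n : ℕ) (x : 𝔽) :
    ∃ x' : 𝔽, i x' = (coeffMap (s.symm : L →+* L))^[n] (i x) := by
  induction n with
  | zero => exact ⟨x, rfl⟩
  | succ n ih =>
    obtain ⟨x₁, h1⟩ := ih
    obtain ⟨x₂, h2⟩ := S.lift_symm x₁
    exact ⟨x₂, by rw [h2, h1, Function.iterate_succ_apply']⟩

theorem iterate_symm_iterate (n : ℕ) (x : LaurentSeries L) :
    (coeffMap (s.symm : L →+* L))^[n] ((coeffMap (s : L →+* L))^[n] x) = x := by
  induction n with
  | zero => rfl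
  | succ n ih =>
    rw [Function.iterate_succ_apply, Function.iterate_succ_apply']
    have h4 : ∀ y : LaurentSeries L,
        coeffMap (s.symm : L →+* L) (coeffMap (s : L →+* L) y) = y := by
      intro y
      ext n
      simp
    rw [h4, ih]

end Frob

end Fermat.Agent.ORD.P2
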