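import Fermat.Agent.ORD.P2.SmallP
import Fermat.Agent.ORD.P2.Small
import Fermat.Agent.GAL.Mod.Kum

/-!
# ORD / P2-K1 : the formal facts (K1) of ORD DECISIONS v2 (#1611 D1)

WARNING: `HasRed A ((galS τ u / u)^n) 1` is FALSE in general (take `u = C c`, `c = p^(1/m)`, `p ∤ m`: `τ c / c` is a root of unity of order prime to `p`):
a constant is needed.  Since constants have `n`-th roots in `ℚ̄`, the class of `galS τ u / u` modulo `FL` has a representative `v` with `v^n ≡ 1`.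
-/

set_option autoImplicit false
noncomputable section

namespace Fermat.Agent.ORD.P2

open ModularCurve HahnSeries Fermat.Agent.GR Fermat.Agent.GAL

variable {A : ValuationSubring Qb} {M : ℕ}

/-- **(K1a)**  PROOF: `GAL.inertia_gauss` for `u^n ∈ FL`: `C c₀ * (galS τ (u^n) / u^n) ≡ 1`; `c^n = c₀` (`IsAlgClosed.exists_pow_nat_eq`). -/
theorem k1a {n : ℕ} (hn : n ≠ 0) {τ : GQ} (hτ : τ ∈ A.inertiaSubgroupIn ℚ) {u : LaurentSeries Qb}
    (hu : IsKum Qb M n u) :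
    ∃ c : Qb, c ≠ 0 ∧ HasRed A ((HahnSeries.C c * (galS τ u / u)) ^ n) 1 := by
  obtain ⟨c₀, hc₀, hred⟩ := inertia_gauss A τ hτ M hu.pow_mem (pow_ne_zero n hu.ne_zero)
  obtain ⟨c, hc⟩ := IsAlgClosed.exists_pow_nat_eq c₀ (Nat.pos_of_ne_zero hn)
  refine ⟨c, ?_, ?_⟩
  · rintro rfl
    rw [zero_pow hn] at hc
    exact hc₀ hc.symm
  · have e : (HahnSeries.C c * (galS τ u / u)) ^ n
        = HahnSeries.C c₀ * (galS τ (u ^ n) / u ^ n) := by
      rw [mul_pow, ← map_pow, hc, div_pow, map_pow]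
    rw [e]
    exact hred

/-- **(K1b)**  `x ∈ FL`, `x^(p^k) ≡ 1 ⇒ x ≡ 1`.
PROOF: `GR.exists_hasRed_C_mul_of_mem_FL`: `C c * x` has reduction `z ≠ 0`; so `C (c^(p^k)) = (C c * x)^(p^k) / x^(p^k)` has reduction `z^(p^k)`; `hasRed_C_inv`: `c^(p^k) ∈ A` with reduction
`d ≠ 0`; so `c ∈ A` (`GR`/`TOR.GB.mem_of_pow_mem'`) and `c` is a unit with reduction `cb`, `cb^(p^k) = d`; `x = C c⁻¹ * (C c * x)` has reduction `z' = C cb⁻¹ * z`; `z'^(p^k) = 1` by `HasRed.unique`;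
`eq_one_of_pow_p_pow`. -/
theorem k1b {p : ℕ} (hp : p.Prime) (hA : A.LiesOverPrime p) {k : ℕ} {x : LaurentSeries Qb}
    (hx : x ∈ FL Qb M) (h : HasRed A (x ^ (p ^ k)) 1) : HasRed A x 1 := by
  have : NeZero p := ⟨hp.ne_zero⟩
  have : CharP (kk A) p := charP_residueField hp hA
  have : ExpChar (kk A) p := ExpChar.prime hp
  have hN : p ^ k ≠ 0 := pow_ne_zero k hp.ne_zero
  have hxN0 : x ^ (p ^ k) ≠ 0 := h.ne_zero one_ne_zero
  have hx0 : x ≠ 0 := by
    rintro rfl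
    exact hxN0 (zero_pow hN)
  obtain ⟨c, hc0, z, hz, hred⟩ := exists_hasRed_C_mul_of_mem_FL A M hx hx0
  -- `c ^ N` is integral with nonzero reduction
  have h1 : HasRed A (HahnSeries.C (c ^ (p ^ k))) (z ^ (p ^ k)) := by
    have h2 := (hred.pow (p ^ k)).div h one_ne_zero
    rwa [mul_pow, mul_div_assoc, div_self hxN0, mul_one, div_one, ← map_pow] at h2
  obtain ⟨d, hd, hzd⟩ := hasRed_C_inv h1
  have hd0 : d ≠ 0 := by
    rintro rfl
    rw [map_zero] at hzd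
    exact pow_ne_zero _ hz hzd
  have hcA : c ∈ A := by
    rw [← ValuationSubring.valuation_le_one_iff]
    have h3 := (ValuationSubring.valuation_le_one_iff A _).2 hd.mem
    rw [map_pow] at h3
    exact (pow_le_one_iff hN).1 h3
  have hcb : CRed A c (IsLocalRing.residue A ⟨c, hcA⟩) := CRed.mk ⟨c, hcA⟩
  have hcb0 : IsLocalRing.residue A ⟨c, hcA⟩ ≠ 0 := by
    intro h0
    have h4 := (hcb.pow (p ^ k)).unique hd
    rw [h0, zero_pow hN] at h4
    exact hd0 h4.symm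
  have h5 := hasRed_C_mul (hcb.inv hcb0) hred
  rw [← mul_assoc, ← map_mul, inv_mul_cancel₀ hc0, map_one, one_mul] at h5
  have h6 := (h5.pow (p ^ k)).unique h
  rwa [eq_one_of_pow_p_pow p h6] at h5

end Fermat.Agent.ORD.P2
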