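import Fermat.Agent.ORD.P2.DiscLemmas
import Fermat.Agent.ORD.P2.LamDp

/-!
# ORD / P2-G0 : the formal core of (5)(A)(B) of the plan #1179.  Definitions (no sorry).

`𝔽` = function field of level `M = M₁ p` (over a discretely valued field of constants), with its two expansions
`i₁` (at the cusp `∞`) and `i₂ = i₁ ∘ w_p` (at the cusp `0`);  `U = U_p` (multiplicative), `V = qExpand L p`.
-/

set_option autoImplicit false
noncomputable section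

namespace Fermat.Agent.ORD.P2

open ModularCurve HahnSeries Fermat.Agent.GR

variable {L : Type*} [Field L] (A : ValuationSubring L)
variable {𝔽 : Type*} [Field 𝔽]

/-- `λ = u π ^ e₁` with `u` a unit of `A`. -/
def LamPi (ζ : Lˣ) (π : L) (e₁ : ℕ) : Prop :=
  ∃ (u : L) (ub : kk A), CRed A u ub ∧ ub ≠ 0 ∧ lam ζ = u * π ^ e₁

/-- the data of the formal core. -/
structure CoreData (p : ℕ) [NeZero p] (ζ : Lˣ) (π : L) (e₁ : ℕ)
    (i₁ i₂ : 𝔽 →+* LaurentSeries L) (U : 𝔽 →* 𝔽) : Prop where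
  d₁ : Disc A π i₁
  d₂ : Disc A π i₂
  /-- the two expansions have the same constants -/
  cst : ∀ (κ : 𝔽) (c : L), i₁ κ = HahnSeries.C c ↔ i₂ κ = HahnSeries.C c
  /-- `U` is `normU` on the expansion at `∞` -/
  U₁ : ∀ x : 𝔽, i₁ (U x) = normU p ζ (i₁ x)
  /-- `w (U u) * u = V (w u * U u)` (TOR/GB/Norm.lean `coe_wq_nmF`) -/
  ident : ∀ u : 𝔽, u ≠ 0 → i₂ (U u) * i₁ u = qExpand L p (i₂ u * i₁ (U u))
  /-- separating function (TOR `ThetaC`) -/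
  theta : ∃ θ : 𝔽, HasRed A (i₁ θ) 0 ∧ HasRed A (i₂ θ) 1
  lamPi : LamPi A ζ π e₁

/-- `U^n` fixes the class of `h`. -/
def UFix (p : ℕ) (i₁ : 𝔽 →+* LaurentSeries L) (U : 𝔽 →* 𝔽) (n : ℕ) (h : 𝔽) : Prop :=
  ∃ κ g : 𝔽, IsC i₁ κ ∧ U^[n] h = κ * h * g ^ p

variable {A}

theorem CoreData.isC_iff {p : ℕ} [NeZero p] {ζ : Lˣ} {π : L} {e₁ : ℕ}
    {i₁ i₂ : 𝔽 →+* LaurentSeries L} {U : 𝔽 →* 𝔽} (CD : CoreData A p ζ π e₁ i₁ i₂ U) (κ : 𝔽) :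
    IsC i₁ κ ↔ IsC i₂ κ :=
  ⟨fun ⟨c, hc⟩ => ⟨c, (CD.cst κ c).mp hc⟩, fun ⟨c, hc⟩ => ⟨c, (CD.cst κ c).mpr hc⟩⟩

end Fermat.Agent.ORD.P2
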