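import Fermat.Agent.ORD.P2.Lam
import Fermat.Agent.ORD.P2.Small
import Fermat.Agent.ORD.P4.Conc
import Fermat.Agent.GAL.KLC.Main

/-!
# ORD / P2-T0 : bridge between the `Dp` language and the Gauss valuation `vG A M`;  `KL_p` in `Dp` form
-/

set_option autoImplicit false
noncomputable section

namespace Fermat.Agent.ORD.P2

open ModularCurve AlgebraicCurve HahnSeries Fermat.Agent.GR Fermat.Agent.GAL Fermat.Agent.GAL.KLC

variable {A : ValuationSubring Qb} {M : ℕ}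

theorem Bridge_coe_div {ε : Qb} (W : FL Qb M) :
    (((W - 1) / algebraMap Qb (FL Qb M) ε : FL Qb M) : LaurentSeries Qb)
      = ((W : LaurentSeries Qb) - 1) / HahnSeries.C ε := by
  rw [← ValThm_coe_algebraMap M ε]
  rfl

theorem Bridge_algebraMap_ne_zero {ε : Qb} (hε : ε ≠ 0) : algebraMap Qb (FL Qb M) ε ≠ 0 := by
  rw [Ne, map_eq_zero_iff _ (algebraMap Qb (FL Qb M)).injective]
  exact hε

theorem Bridge_eq_mul {ε : Qb} (hε : ε ≠ 0) (W : FL Qb M) :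
    W - 1 = (W - 1) / algebraMap Qb (FL Qb M) ε * algebraMap Qb (FL Qb M) ε :=
  (div_mul_cancel₀ _ (Bridge_algebraMap_ne_zero hε)).symm

theorem Bridge_vG_const_le {c : Qb} {cb : kk A} (h : CRed A c cb) :
    vG A M (algebraMap Qb (FL Qb M) c) ≤ 1 := by
  refine (ValThm_le_one_iff A M).2 ⟨HahnSeries.C cb, ?_⟩
  rw [ValThm_coe_algebraMap]
  exact h.hasRed

/-- (`ValThm_le_one_iff`, `ValThm_coe_algebraMap`; `(W - 1)/ε` is an element of `FL`.) -/
theorem vG_sub_one_le_of_dp {ε : Qb} (hε : ε ≠ 0) {W : FL Qb M} {a : LaurentSeries (kk A)}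
    (h : Dp A ε (W : LaurentSeries Qb) a) :
    vG A M (W - 1) ≤ vG A M (algebraMap Qb (FL Qb M) ε) := by
  have h1 : vG A M ((W - 1) / algebraMap Qb (FL Qb M) ε) ≤ 1 := by
    refine (ValThm_le_one_iff A M).2 ⟨a, ?_⟩
    rw [Bridge_coe_div]
    exact h
  rw [Bridge_eq_mul hε W, map_mul]
  exact mul_le_of_le_one_left' h1

/-- (`vG_lt_one_iff`.) -/
theorem vG_sub_one_lt_of_dp_zero {ε : Qb} (hε : ε ≠ 0) {W : FL Qb M}
    (h : Dp A ε (W : LaurentSeries Qb) 0) :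
    vG A M (W - 1) < vG A M (algebraMap Qb (FL Qb M) ε) := by
  have h1 : vG A M ((W - 1) / algebraMap Qb (FL Qb M) ε) < 1 := by
    refine (vG_lt_one_iff A M).2 ?_
    rw [Bridge_coe_div]
    exact h
  have h0 : 0 < vG A M (algebraMap Qb (FL Qb M) ε) :=
    zero_lt_iff.2 ((Valuation.ne_zero_iff _).2 (Bridge_algebraMap_ne_zero hε))
  rw [Bridge_eq_mul hε W, map_mul]
  calc vG A M ((W - 1) / algebraMap Qb (FL Qb M) ε) * vG A M (algebraMap Qb (FL Qb M) ε)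
      < 1 * vG A M (algebraMap Qb (FL Qb M) ε) := mul_lt_mul_of_pos_right h1 h0
    _ = _ := one_mul _

/-- conversely. -/
theorem dp_zero_of_vG_lt {ε : Qb} (hε : ε ≠ 0) {W : FL Qb M}
    (h : vG A M (W - 1) < vG A M (algebraMap Qb (FL Qb M) ε)) :
    Dp A ε (W : LaurentSeries Qb) 0 := by
  have h0 : 0 < vG A M (algebraMap Qb (FL Qb M) ε) :=
    zero_lt_iff.2 ((Valuation.ne_zero_iff _).2 (Bridge_algebraMap_ne_zero hε))
  have h1 : vG A M ((W - 1) / algebraMap Qb (FL Qb M) ε) < 1 := by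
    rw [map_div₀, div_lt_one₀ h0]
    exact h
  have h2 := (vG_lt_one_iff A M).1 h1
  rw [Bridge_coe_div] at h2
  exact h2

/-- `|ζ - 1| = |lam'|` if `lam'^(p-1) = -p`.  PROOF: `cRed_p_div_lam`, `cRed_lam_div_p`: `p / λ^(p-1)` is a unit of `A`, so `vG (λ)^(p-1) = vG p = vG (lam')^(p-1)`;
`pow_left_injective`-type lemma in a linearly ordered group with zero (`pow_left_inj₀`/`pow_eq_pow_iff_of_ne_zero`). -/
theorem vG_lam_eq {p : ℕ} (hp : p.Prime) (hp2 : p ≠ 2) (hA : A.LiesOverPrime p) {ζ : Qbˣ}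
    (hζ : IsPrimitiveRoot ζ p) {lam' : Qb} (hlam : lam' ^ (p - 1) = -(p : Qb)) :
    vG A M (algebraMap Qb (FL Qb M) (lam ζ)) = vG A M (algebraMap Qb (FL Qb M) lam') := by
  have hl := lam_ne_zero hp hζ
  have hp0 : (p : Qb) ≠ 0 := natCast_ne_zero_of_isPrimitiveRoot hp hζ
  have h1 := Bridge_vG_const_le (M := M) (cRed_p_div_lam hp hp2 hA hζ)
  have h2 := Bridge_vG_const_le (M := M) (cRed_lam_div_p hp hp2 hA hζ)
  have e1 : algebraMap Qb (FL Qb M) (p : Qb)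
      = algebraMap Qb (FL Qb M) ((p : Qb) / lam ζ ^ (p - 1))
        * algebraMap Qb (FL Qb M) (lam ζ) ^ (p - 1) := by
    rw [← map_pow, ← map_mul, div_mul_cancel₀ _ (pow_ne_zero _ hl)]
  have e2 : algebraMap Qb (FL Qb M) (lam ζ) ^ (p - 1)
      = algebraMap Qb (FL Qb M) (lam ζ ^ (p - 1) / (p : Qb)) * algebraMap Qb (FL Qb M) (p : Qb) := by
    rw [← map_pow, ← map_mul, div_mul_cancel₀ _ hp0]
  have h3 : vG A M (algebraMap Qb (FL Qb M) (p : Qb))
      ≤ vG A M (algebraMap Qb (FL Qb M) (lam ζ)) ^ (p - 1) := by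
    rw [e1, map_mul, map_pow]
    exact mul_le_of_le_one_left' h1
  have h4 : vG A M (algebraMap Qb (FL Qb M) (lam ζ)) ^ (p - 1)
      ≤ vG A M (algebraMap Qb (FL Qb M) (p : Qb)) := by
    rw [← map_pow, e2, map_mul]
    exact mul_le_of_le_one_left' h2
  have h5 : vG A M (algebraMap Qb (FL Qb M) lam') ^ (p - 1)
      = vG A M (algebraMap Qb (FL Qb M) (p : Qb)) := by
    rw [← map_pow, ← map_pow, hlam, map_neg, Valuation.map_neg]
  have hp1 : p - 1 ≠ 0 := (Nat.sub_pos_of_lt hp.one_lt).ne'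
  exact (pow_left_inj₀ zero_le zero_le hp1).1 ((le_antisymm h4 h3).trans h5.symm)

/-- **`KL_p` in `Dp` form** (good reduction, level `M`, `p ∤ M`).
PROOF: `lam'` with `lam'^(p-1) = -p` (`IsAlgClosed.exists_pow_nat_eq`); `P4.key_lemma_p_of` with `spansStatement M`, `riStatement M`, `ctStatement M p hM hp hpM A hA`; `vG_sub_one_lt_of_dp_zero`, `vG_lam_eq`,
`map_pow`. -/
theorem klp_dp [NeZero M] (hM : AdmLevel M) {p : ℕ} (hp : p.Prime) (hp2 : p ≠ 2) (hpM : ¬ p ∣ M)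
    (hA : A.LiesOverPrime p) {ζ : Qbˣ} (hζ : IsPrimitiveRoot ζ p) (W : FL Qb M)
    (hW : Dp A (lam ζ ^ p) (W : LaurentSeries Qb) 0)
    (hdiv : ∀ P : Place Qb (FL Qb M), (p : ℤ) ∣ P.ord W) : ∃ y : FL Qb M, y ^ p = W := by
  obtain ⟨lam', hlam⟩ := IsAlgClosed.exists_pow_nat_eq (-(p : Qb)) (Nat.sub_pos_of_lt hp.one_lt)
  have h1 := vG_sub_one_lt_of_dp_zero (pow_ne_zero p (lam_ne_zero hp hζ)) hW
  rw [map_pow, map_pow, vG_lam_eq hp hp2 hA hζ hlam] at h1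
  exact P4.key_lemma_p_of M p hp A hA (spansStatement M) (riStatement M)
    (ctStatement M p hM hp hpM A hA) lam' hlam W h1 hdiv

end Fermat.Agent.ORD.P2
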