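import Fermat.Agent.ORD.P2.Defs

/-!
# ORD / P2-A1 : combinatorial lemma on shift invariant functions of subsets of `ℤ/p`; `qContract`; binomial expansion
-/

set_option autoImplicit false
noncomputable section

namespace Fermat.Agent.ORD.P2

open ModularCurve HahnSeries Fermat.Agent.GR

theorem Comb_shift_nat {p : ℕ} {M : Type*} (F : Finset (ZMod p) → M)
    (hF : ∀ S, F (S.image (· + 1)) = F S) (n : ℕ) (S : Finset (ZMod p)) :
    F (S.image (· + (n : ZMod p))) = F S := by
  induction n with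
  | zero => simp
  | succ n ih =>
    have h : S.image (· + ((n + 1 : ℕ) : ZMod p)) = (S.image (· + (n : ZMod p))).image (· + 1) := by
      rw [Finset.image_image]
      congr 1
      funext x
      simp [add_assoc]
    rw [h, hF, ih]

theorem Comb_shift {p : ℕ} [NeZero p] {M : Type*} (F : Finset (ZMod p) → M)
    (hF : ∀ S, F (S.image (· + 1)) = F S) (b : ZMod p) (S : Finset (ZMod p)) :
    F (S.image (· + b)) = F S := by
  have h := Comb_shift_nat F hF b.val S
  rwa [ZMod.natCast_zmod_val] at h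

theorem Comb_sum_filter {p : ℕ} [NeZero p] {M : Type*} [AddCommGroup M]
    (F : Finset (ZMod p) → M) (hF : ∀ S, F (S.image (· + 1)) = F S) (i : ℕ) (b : ZMod p) :
    ∑ S ∈ (Finset.powersetCard i Finset.univ).filter (fun S => b ∈ S), F S =
      ∑ S ∈ (Finset.powersetCard i Finset.univ).filter (fun S => (0 : ZMod p) ∈ S), F S := by
  symm
  refine Finset.sum_nbij' (fun S => S.image (· + b)) (fun S => S.image (· + -b)) ?_ ?_ ?_ ?_ ?_
  · intro S hS
    rw [Finset.mem_filter, Finset.mem_powersetCard] at hS ⊢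
    refine ⟨⟨Finset.subset_univ _, ?_⟩, ?_⟩
    · rw [Finset.card_image_of_injective _ (add_left_injective b)]
      exact hS.1.2
    · exact Finset.mem_image.mpr ⟨0, hS.2, zero_add b⟩
  · intro S hS
    rw [Finset.mem_filter, Finset.mem_powersetCard] at hS ⊢
    refine ⟨⟨Finset.subset_univ _, ?_⟩, ?_⟩
    · rw [Finset.card_image_of_injective _ (add_left_injective (-b))]
      exact hS.1.2
    · exact Finset.mem_image.mpr ⟨b, hS.2, add_neg_cancel b⟩
  · intro S _
    rw [Finset.image_image]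
    have : ((· + -b) ∘ (· + b) : ZMod p → ZMod p) = id := by funext x; simp
    rw [this, Finset.image_id]
  · intro S _
    rw [Finset.image_image]
    have : ((· + b) ∘ (· + -b) : ZMod p → ZMod p) = id := by funext x; simp
    rw [this, Finset.image_id]
  · intro S _
    exact (Comb_shift F hF b S).symm

/-- **combinatorial lemma.**  PROOF (double counting, no orbits): `i • ∑_{|S| = i} F S = ∑_S ∑_{b ∈ S} F S = ∑_b ∑_{S ∋ b} F S
= p • ∑_{S ∋ 0, |S| = i} F S` (shift by `b`, `F (S + b) = F S` by induction on `b.val`); Bezout `u i + v p = 1`. -/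
theorem sum_powersetCard_shift {p : ℕ} [Fact p.Prime] {M : Type*} [AddCommGroup M]
    (F : Finset (ZMod p) → M) (hF : ∀ S, F (S.image (· + 1)) = F S) {i : ℕ} (h0 : 0 < i)
    (hi : i < p) : ∃ R : M, ∑ S ∈ Finset.powersetCard i Finset.univ, F S = p • R := by
  classical
  have hp : p.Prime := Fact.out
  have : NeZero p := ⟨hp.ne_zero⟩
  set T : M := ∑ S ∈ (Finset.powersetCard i Finset.univ).filter (fun S => (0 : ZMod p) ∈ S), F S
    with hT
  set Sg : M := ∑ S ∈ Finset.powersetCard i Finset.univ, F S with hSg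
  have h1 : i • Sg = p • T := by
    calc i • Sg = ∑ S ∈ Finset.powersetCard i (Finset.univ : Finset (ZMod p)), ∑ _b ∈ S, F S := by
          rw [hSg, Finset.smul_sum]
          refine Finset.sum_congr rfl fun S hS => ?_
          rw [Finset.sum_const, (Finset.mem_powersetCard.mp hS).2]
      _ = ∑ S ∈ Finset.powersetCard i (Finset.univ : Finset (ZMod p)),
            ∑ b : ZMod p, if b ∈ S then F S else 0 := by
          refine Finset.sum_congr rfl fun S _ => ?_
          rw [← Finset.sum_filter]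
          congr 1
          ext b
          simp
      _ = ∑ b : ZMod p, ∑ S ∈ Finset.powersetCard i (Finset.univ : Finset (ZMod p)),
            if b ∈ S then F S else 0 := Finset.sum_comm
      _ = ∑ _b : ZMod p, T := by
          refine Finset.sum_congr rfl fun b _ => ?_
          rw [← Finset.sum_filter, Comb_sum_filter F hF i b]
      _ = p • T := by
          rw [Finset.sum_const, Finset.card_univ, ZMod.card]
  have hcop : IsCoprime (i : ℤ) (p : ℤ) := by
    rw [Nat.isCoprime_iff_coprime]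
    exact (Nat.Coprime.symm ((Nat.Prime.coprime_iff_not_dvd hp).mpr
      (fun h => absurd (Nat.le_of_dvd h0 h) (not_le.mpr hi))))
  obtain ⟨u, v, huv⟩ := hcop
  refine ⟨u • T + v • Sg, ?_⟩
  have h2 : Sg = (u * (i : ℤ) + v * (p : ℤ)) • Sg := by rw [huv, one_smul]
  have h3 : ((i : ℤ)) • Sg = (p : ℤ) • T := by
    rw [natCast_zsmul, natCast_zsmul, h1]
  calc Sg = (u * (i : ℤ) + v * (p : ℤ)) • Sg := h2
    _ = u • ((i : ℤ) • Sg) + v • ((p : ℤ) • Sg) := by rw [add_smul, mul_smul, mul_smul]
    _ = (p : ℤ) • (u • T + v • Sg) := by rw [h3, smul_add, smul_comm u, smul_comm v]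
    _ = p • (u • T + v • Sg) := natCast_zsmul _ _

theorem qContract_qScale {R : Type*} [CommRing R] (p : ℕ) [NeZero p] {ζ : Rˣ} (hζ : ζ ^ p = 1)
    (y : LaurentSeries R) : qContract p (qScale ζ y) = qContract p y := by
  ext n
  rw [qContract_coeff, qContract_coeff, qScale_coeff, zpow_mul, zpow_natCast, hζ, one_zpow,
    Units.val_one, one_mul]

theorem qContract_C_mul {R : Type*} [CommRing R] (p : ℕ) [NeZero p] (c : R)
    (y : LaurentSeries R) : qContract p (HahnSeries.C c * y) = HahnSeries.C c * qContract p y := by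
  ext n
  rw [HahnSeries.C_mul_eq_smul, HahnSeries.C_mul_eq_smul, qContract_coeff, HahnSeries.coeff_smul,
    HahnSeries.coeff_smul, qContract_coeff]

/-- projection formula. -/
theorem qContract_mul_qExpand {R : Type*} [CommRing R] (p : ℕ) [NeZero p]
    (y g : LaurentSeries R) : qContract p (y * qExpand R p g) = qContract p y * g := by
  have hp0 : (p : ℤ) ≠ 0 := by exact_mod_cast NeZero.ne p
  ext n
  rw [qContract_coeff, HahnSeries.coeff_mul, HahnSeries.coeff_mul]
  symm
  refine Finset.sum_bij (fun ab _ => ((p : ℤ) * ab.1, (p : ℤ) * ab.2)) ?_ ?_ ?_ ?_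
  · rintro ⟨a, b⟩ hab
    rw [Finset.mem_antidiagonal] at hab ⊢
    obtain ⟨ha, hb, hab⟩ := hab
    refine ⟨ha, ?_, ?_⟩
    · show (qExpand R p g).coeff ((p : ℤ) * b) ≠ 0
      rw [qExpand_coeff_mul]
      exact hb
    · show (p : ℤ) * a + (p : ℤ) * b = (p : ℤ) * n
      rw [← mul_add]
      exact congrArg _ hab
  · rintro ⟨a, b⟩ _ ⟨a', b'⟩ _ h
    rw [Prod.mk.injEq] at h
    rw [Prod.mk.injEq]
    exact ⟨mul_left_cancel₀ hp0 h.1, mul_left_cancel₀ hp0 h.2⟩
  · rintro ⟨a, b⟩ hab
    rw [Finset.mem_antidiagonal] at hab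
    obtain ⟨ha, hb, hab⟩ := hab
    have hb' : (qExpand R p g).coeff b ≠ 0 := hb
    have hdvd : (p : ℤ) ∣ b := by
      by_contra hnd
      exact hb' (qExpand_coeff_of_not_dvd p g hnd)
    obtain ⟨b', rfl⟩ := hdvd
    have hab' : a + (p : ℤ) * b' = (p : ℤ) * n := hab
    have ha' : a = (p : ℤ) * (n - b') := by rw [mul_sub, ← hab']; ring
    subst ha'
    refine ⟨(n - b', b'), ?_, rfl⟩
    rw [Finset.mem_antidiagonal]
    refine ⟨ha, ?_, sub_add_cancel n b'⟩
    rw [qExpand_coeff_mul] at hb'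
    exact hb'
  · rintro ⟨a, b⟩ _
    show (qContract p y).coeff a * g.coeff b = y.coeff ((p : ℤ) * a) *
      (qExpand R p g).coeff ((p : ℤ) * b)
    rw [qContract_coeff, qExpand_coeff_mul]

/-- the analogue for `p`-th powers, in any commutative ring (`Commute.add_pow`/`add_pow`,
`Nat.Prime.dvd_choose_self`). -/
theorem add_mul_pow_prime {B : Type*} [CommRing B] {p : ℕ} (hp : p.Prime) (ε P Q : B) :
    ∃ W : B, (Q + ε * P) ^ p =
      Q ^ p + ε ^ p * P ^ p + (p : B) * ε * (P * Q ^ (p - 1) + ε * W) := by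
  classical
  have h2 := hp.two_le
  have hmem : p - 1 ∈ Finset.Ioo 0 p := Finset.mem_Ioo.mpr ⟨by omega, by omega⟩
  refine ⟨∑ k ∈ (Finset.Ioo 0 p).erase (p - 1),
    Q ^ k * (ε ^ (p - k - 2) * P ^ (p - k)) * ((p.choose k / p : ℕ) : B), ?_⟩
  rw [add_pow_prime_eq' hp, ← Finset.add_sum_erase _ _ hmem, mul_pow]
  have h1 : p - (p - 1) = 1 := by omega
  have hch : p.choose (p - 1) / p = 1 := by
    rw [← Nat.choose_symm (by omega : p - 1 ≤ p), h1, Nat.choose_one_right, Nat.div_self hp.pos]
  have h3 : ∑ k ∈ (Finset.Ioo 0 p).erase (p - 1),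
      Q ^ k * (ε * P) ^ (p - k) * ((p.choose k / p : ℕ) : B) =
      ε * ε * ∑ k ∈ (Finset.Ioo 0 p).erase (p - 1),
        Q ^ k * (ε ^ (p - k - 2) * P ^ (p - k)) * ((p.choose k / p : ℕ) : B) := by
    rw [Finset.mul_sum]
    refine Finset.sum_congr rfl fun k hk => ?_
    rw [Finset.mem_erase, Finset.mem_Ioo] at hk
    have hk2 : p - k = 2 + (p - k - 2) := by omega
    rw [mul_pow]
    conv_lhs => rw [hk2, pow_add ε]
    rw [← hk2]
    ring
  rw [h3, h1, hch]
  push_cast
  ring

end Fermat.Agent.ORD.P2
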