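import Fermat.Agent.ORD.P2.CorePi

/-!
# ORD / P2-T2 : fixing the constant at the cusp `0`

`ϑ = θ^(p^k)` is an approximate idempotent: very small at `∞`, very close to `1` at `0`.
-/

set_option autoImplicit false
noncomputable section

namespace Fermat.Agent.ORD.P2

open ModularCurve HahnSeries Fermat.Agent.GR

variable {L : Type*} [Field L] {A : ValuationSubring L} {p : ℕ} [NeZero p] {ζ : Lˣ} {π : L}
  {e₁ : ℕ}
variable {𝔽 : Type*} [Field 𝔽] {i₁ i₂ : 𝔽 →+* LaurentSeries L} {U : 𝔽 →* 𝔽}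

/-- `x ↦ x^p` increases the depth (`Dp.pow`: leading term `p • a = 0` in characteristic `p`; `Disc.deepen`). -/
theorem Disc.pow_p_deepen (hp : p.Prime) (hA : A.LiesOverPrime p) {i : 𝔽 →+* LaurentSeries L}
    (D : Disc A π i) {x : 𝔽} {j : ℕ} (hj : 1 ≤ j) {a : LaurentSeries (kk A)}
    (h : Dp A (π ^ j) (i x) a) : ∃ b, Dp A (π ^ (j + 1)) (i (x ^ p)) b := by
  have := GR.charP_residueField hp hA
  have hε : π ^ j ≠ 0 := pow_ne_zero _ D.pi_ne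
  have hm : π ^ j ∈ A.nonunits := DiscLemmas_pow_mem D hj
  have h1 := h.pow hε hm p
  have h0 : p • a = 0 := by
    rw [nsmul_eq_mul, ← map_natCast (HahnSeries.C : kk A →+* LaurentSeries (kk A)) p,
      CharP.cast_eq_zero, map_zero, zero_mul]
  rw [h0, ← map_pow] at h1
  exact D.deepen h1

/-- **approximate idempotents.**  PROOF: `θ` from `CD.theta`; `ϑ = θ^(p^N)`.  At `∞`: `i₁ θ / C π` is integral (`d₁.div_pi`), `p^N ≥ N`, so `i₁ ϑ / C (π^N) = (i₁ θ / C π)^N * (i₁ θ)^(p^N - N)` is integral.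
At `0`: `d₂.dp_of_hasRed_one`, then `pow_p_deepen` `N` times: depth `N + 1`, then `Dp.pi_mono`/`Dp.rescale`. -/
theorem CoreData.exists_idem (hp : p.Prime) (hA : A.LiesOverPrime p)
    (CD : CoreData A p ζ π e₁ i₁ i₂ U) (N : ℕ) :
    ∃ ϑ : 𝔽, (∃ z, HasRed A (i₁ ϑ / HahnSeries.C (π ^ N)) z) ∧
      (∃ z, HasRed A ((i₂ ϑ - 1) / HahnSeries.C (π ^ N)) z) := by
  obtain ⟨θ, hθ1, hθ2⟩ := CD.theta
  refine ⟨θ ^ (p ^ N), ?_, ?_⟩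
  · obtain ⟨z, hz⟩ := CD.d₁.div_pi hθ1
    have hN : N ≤ p ^ N := (Nat.lt_pow_self hp.one_lt).le
    have hC : (HahnSeries.C π : LaurentSeries L) ≠ 0 := C_ne_zero' CD.d₁.pi_ne
    have he : i₁ (θ ^ (p ^ N)) / HahnSeries.C (π ^ N)
        = (i₁ θ / HahnSeries.C π) ^ N * (i₁ θ) ^ (p ^ N - N) := by
      rw [map_pow, map_pow, div_pow, div_mul_eq_mul_div, ← _root_.pow_add, Nat.add_sub_cancel' hN]
    rw [he]
    exact ⟨_, (hz.pow N).mul (hθ1.pow _)⟩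
  · have key : ∀ n : ℕ, ∃ b, Dp A (π ^ (n + 1)) (i₂ (θ ^ (p ^ n))) b := by
      intro n
      induction n with
      | zero =>
        obtain ⟨a, ha⟩ := CD.d₂.dp_of_hasRed_one hθ2
        exact ⟨a, by rwa [zero_add, pow_one, pow_zero, pow_one]⟩
      | succ n ih =>
        obtain ⟨b, hb⟩ := ih
        obtain ⟨b', hb'⟩ := Disc.pow_p_deepen hp hA CD.d₂ (Nat.succ_le_succ (Nat.zero_le n)) hb
        exact ⟨b', by rwa [← pow_mul, ← pow_succ] at hb'⟩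
    obtain ⟨b, hb⟩ := key N
    exact ⟨0, Dp.pi_mono CD.d₂.pi_ne CD.d₂.pi_mem (Nat.lt_succ_self N) hb⟩

/-- **constant fix.**  For every constant `c₁ ≠ 0` of `L` (of bounded size w.r.t. `π`) there is `ϑ : 𝔽` such that `Y = 1 + (c₁ - 1) ϑ` satisfies `Y ≡ 1 mod λ 𝔪` at `∞` and `Y ≡ c₁ (1 mod λ 𝔪)` at `0`.
PROOF: `exists_idem` with `N' = N + e₁ + 1`.  `(Y₁ - 1)/λ = C ((c₁ - 1) π^N'/λ) * (i₁ ϑ / π^N')` and `(c₁ - 1) π^N' / λ = (c₁ π^N - π^N) * u⁻¹ * π ∈ 𝔪`;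
`Y₂ / c₁ - 1 = (1 - c₁⁻¹)(i₂ ϑ - 1)`, the same with `c₁⁻¹`.  (`hasRed_C_mul_zero`, `dp_iff`.) -/
theorem CoreData.const_fix (hp : p.Prime) (hA : A.LiesOverPrime p)
    (CD : CoreData A p ζ π e₁ i₁ i₂ U) {c₁ : L} (hc₁ : c₁ ≠ 0) {N : ℕ} (h1 : c₁ * π ^ N ∈ A)
    (h2 : c₁⁻¹ * π ^ N ∈ A) :
    ∃ ϑ : 𝔽, Dp A (lam ζ) (1 + HahnSeries.C (c₁ - 1) * i₁ ϑ) 0 ∧
      Dp A (lam ζ) ((1 + HahnSeries.C (c₁ - 1) * i₂ ϑ) / HahnSeries.C c₁) 0 := by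
  obtain ⟨u, ub, hu, hub, hlam⟩ := CD.lamPi
  have hu0 : u ≠ 0 := CorePi_ne_zero_of_cRed hu hub
  have hπ0 : π ≠ 0 := CD.d₁.pi_ne
  have hπ : π ∈ A.nonunits := CD.d₁.pi_mem
  have hlam0 : lam ζ ≠ 0 := by rw [hlam]; exact mul_ne_zero hu0 (pow_ne_zero _ hπ0)
  have hπN : π ^ N ∈ A := pow_mem (A.nonunits_subset hπ) N
  obtain ⟨ϑ, ⟨z₁, hz₁⟩, ⟨z₂, hz₂⟩⟩ := CD.exists_idem hp hA (N + e₁ + 1)
  have hCN : (HahnSeries.C (π ^ (N + e₁ + 1)) : LaurentSeries L) ≠ 0 :=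
    C_ne_zero' (pow_ne_zero _ hπ0)
  have hCc : (HahnSeries.C c₁ : LaurentSeries L) ≠ 0 := C_ne_zero' hc₁
  have hsmall : ∀ d : L, d ∈ A → d * u⁻¹ * π ∈ A.nonunits := by
    intro d hd
    exact CorePi_mul_mem_nonunits ((CRed.mk (⟨d, hd⟩ : A)).mul (hu.inv hub)) hπ
  refine ⟨ϑ, ?_, ?_⟩
  · refine (dp_iff hlam0).mpr ⟨HahnSeries.C ((c₁ * π ^ N - π ^ N) * u⁻¹ * π) *
      (i₁ ϑ / HahnSeries.C (π ^ (N + e₁ + 1))), hasRed_C_mul_zero (hsmall _ (A.sub_mem h1 hπN)) hz₁, ?_⟩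
    have hc : lam ζ * ((c₁ * π ^ N - π ^ N) * u⁻¹ * π) = (c₁ - 1) * π ^ (N + e₁ + 1) := by
      rw [hlam]
      field_simp
      ring
    rw [← mul_assoc, ← map_mul, hc, map_mul, mul_assoc, mul_div_cancel₀ _ hCN]
  · refine (dp_iff hlam0).mpr ⟨HahnSeries.C ((π ^ N - c₁⁻¹ * π ^ N) * u⁻¹ * π) *
      ((i₂ ϑ - 1) / HahnSeries.C (π ^ (N + e₁ + 1))), hasRed_C_mul_zero (hsmall _ (A.sub_mem hπN h2)) hz₂, ?_⟩
    have hc : lam ζ * ((π ^ N - c₁⁻¹ * π ^ N) * u⁻¹ * π) = (1 - c₁⁻¹) * π ^ (N + e₁ + 1) := by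
      rw [hlam]
      field_simp
      ring
    rw [← mul_assoc, ← map_mul, hc, map_mul, mul_assoc, mul_div_cancel₀ _ hCN, map_sub, map_sub,
      map_one, map_inv₀]
    field_simp
    ring

end Fermat.Agent.ORD.P2
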