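import Fermat.Agent.ORD.P2.DiscLemmas

/-!
# ORD / P2-G5 : extraction of `p`-th roots in the residue field of `𝔽` by Frobenius lifts

`V = qExpand _ p`, `Fr = coeffMap (frobenius k p)`, `s` a Frobenius element preserving `𝔽` (`FrobOn`).
-/

set_option autoImplicit false
noncomputable section

namespace Fermat.Agent.ORD.P2

open ModularCurve HahnSeries Fermat.Agent.GR

variable {K L : Type*} [Field K] [Field L] [Algebra K L] {A : ValuationSubring L}
variable {p : ℕ} [NeZero p] [ExpChar (kk A) p] {s : L ≃ₐ[K] L}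
variable {𝔽 : Type*} [Field 𝔽] {i : 𝔽 →+* LaurentSeries L}

theorem hasRed_of_iterate_frobenius (hs : A.IsFrobeniusAt s p) (n : ℕ) {x : LaurentSeries L}
    {z : LaurentSeries (kk A)}
    (h : HasRed A ((coeffMap (s : L →+* L))^[n] x) ((coeffMap (frobenius (kk A) p))^[n] z)) :
    HasRed A x z := by
  induction n generalizing x z with
  | zero => exact h
  | succ n ih =>
    rw [Function.iterate_succ_apply, Function.iterate_succ_apply] at h
    exact hasRed_of_map_frobenius hs (ih h)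

/-- **additive version.**  PROOF: `pth_descent`: `Fr^n a = ψ'^p - C (c^(p^n))`, `ψ' = a^(p^(n-1)) - Fr^n e` = reduction of `Ψ' = X^(p^(n-1)) - E'`, `E'` a lift of `s^n E`
(`S.lift_iterate`, `hasRed_iterate_frobenius`).  `Ψ` := lift of `s^(-n) Ψ'` (`S.lift_symm_iterate`), with reduction `ψ`, `Fr^n ψ = ψ'` (`hasRed_iterate_symm_frobenius`).
`Fr^n (a - ψ^p) = - C (c^(p^n))` (`Fr^n` is a ring hom: use `RingHom.iterate_map_sub`, `iterate_map_pow`), so `a - ψ^p` is a constant (`iterate_frob_eq_C`). -/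
theorem exists_pth_root_lift (S : FrobOn A p s i) {n : ℕ} (hn : 1 ≤ n) {X E : 𝔽}
    {a e : LaurentSeries (kk A)} {c : kk A} (hX : HasRed A (i X) a) (hE : HasRed A (i E) e)
    (h : (qExpand (kk A) p)^[n] a - a = e ^ p + HahnSeries.C c) :
    ∃ (Ψ : 𝔽) (ψ : LaurentSeries (kk A)) (c' : kk A), HasRed A (i Ψ) ψ ∧
      a = ψ ^ p + HahnSeries.C c' := by
  obtain ⟨E', hE'⟩ := S.lift_iterate n E
  have hE'red : HasRed A (i E') ((coeffMap (frobenius (kk A) p))^[n] e) := by
    rw [hE']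
    exact hasRed_iterate_frobenius S.frob n hE
  have hΨ' : HasRed A (i (X ^ (p ^ (n - 1)) - E'))
      (a ^ (p ^ (n - 1)) - (coeffMap (frobenius (kk A) p))^[n] e) := by
    rw [map_sub, map_pow]
    exact hasRed_sub' (hX.pow _) hE'red
  obtain ⟨Ψ, hΨ⟩ := S.lift_symm_iterate n (X ^ (p ^ (n - 1)) - E')
  obtain ⟨ψ, hψ, hψ'⟩ := hasRed_iterate_symm_frobenius S.frob n hΨ'
  have hd := pth_descent p hn h
  have key : (coeffMap (frobenius (kk A) p))^[n] (a - ψ ^ p) = HahnSeries.C (-(c ^ (p ^ n))) := by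
    rw [iterate_map_sub, iterate_map_pow, hψ', hd, map_neg]
    ring
  obtain ⟨c', hc'⟩ := iterate_frob_eq_C p key
  refine ⟨Ψ, ψ, c', ?_, ?_⟩
  · rw [hΨ]
    exact hψ
  · rw [← hc']
    ring

/-- **multiplicative version.**  PROOF: `pth_descent_mul`: `C (cb^(p^n)) (Fr^n Gb)^p Fr^n Hb = (Hb^(p^(n-1)))^p`.  `G'`, `H'`, `κ'` lifts of `s^n G`, `s^n H`, `s^n κ`;
`y₀ = H^(p^(n-1)) / G'` has reduction `Hb^(p^(n-1)) / Fr^n Gb ≠ 0`;  `κ' H' / y₀^p` has reduction `1`.  `y` := lift of `s^(-n) y₀`, reduction `yb`, `Fr^n yb ≠ 0`.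
`s^n (i (κ H / y^p)) = i (κ' H' / y₀^p)` (`iterate_symm_iterate` the other way round: `s^n s^(-n) = id`), so `κ H / y^p ≡ 1` (`hasRed_of_iterate_frobenius`, `Fr^n 1 = 1`). -/
theorem exists_pth_root_lift_mul (S : FrobOn A p s i) {n : ℕ} (hn : 1 ≤ n) {H G κ : 𝔽}
    {Hb Gb : LaurentSeries (kk A)} {cb : kk A} (hH : HasRed A (i H) Hb) (hHb : Hb ≠ 0)
    (hG : HasRed A (i G) Gb) (hGb : Gb ≠ 0) (hκ : HasRed A (i κ) (HahnSeries.C cb)) (hcb : cb ≠ 0)
    (h : (qExpand (kk A) p)^[n] Hb = HahnSeries.C cb * Gb ^ p * Hb) :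
    ∃ (y : 𝔽) (yb : LaurentSeries (kk A)), yb ≠ 0 ∧ HasRed A (i y) yb ∧
      HasRed A (i (κ * H / y ^ p)) 1 := by
  obtain ⟨G', hG'⟩ := S.lift_iterate n G
  obtain ⟨H', hH'⟩ := S.lift_iterate n H
  obtain ⟨κ', hκ'⟩ := S.lift_iterate n κ
  have hG'red : HasRed A (i G') ((coeffMap (frobenius (kk A) p))^[n] Gb) := by
    rw [hG']
    exact hasRed_iterate_frobenius S.frob n hG
  have hH'red : HasRed A (i H') ((coeffMap (frobenius (kk A) p))^[n] Hb) := by
    rw [hH']
    exact hasRed_iterate_frobenius S.frob n hH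
  have hκ'red : HasRed A (i κ') (HahnSeries.C (cb ^ (p ^ n))) := by
    rw [hκ', ← iterate_frob_C p n cb]
    exact hasRed_iterate_frobenius S.frob n hκ
  have hFG : (coeffMap (frobenius (kk A) p))^[n] Gb ≠ 0 := by
    intro h0
    apply hGb
    apply iterate_frob_injective p n
    rw [h0, iterate_map_zero]
  have hy₀ne : Hb ^ (p ^ (n - 1)) / (coeffMap (frobenius (kk A) p))^[n] Gb ≠ 0 :=
    div_ne_zero (pow_ne_zero _ hHb) hFG
  have hy₀ : HasRed A (i (H ^ (p ^ (n - 1)) / G'))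
      (Hb ^ (p ^ (n - 1)) / (coeffMap (frobenius (kk A) p))^[n] Gb) := by
    rw [map_div₀, map_pow]
    exact (hH.pow _).div hG'red hFG
  have hd := pth_descent_mul p hn h
  have hone : HasRed A (i (κ' * H' / (H ^ (p ^ (n - 1)) / G') ^ p)) 1 := by
    have h1 : HasRed A (i (κ' * H' / (H ^ (p ^ (n - 1)) / G') ^ p))
        (HahnSeries.C (cb ^ (p ^ n)) * (coeffMap (frobenius (kk A) p))^[n] Hb /
          (Hb ^ (p ^ (n - 1)) / (coeffMap (frobenius (kk A) p))^[n] Gb) ^ p) := by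
      rw [map_div₀, map_mul, map_pow]
      exact (hκ'red.mul hH'red).div (hy₀.pow p) (pow_ne_zero _ hy₀ne)
    have h2 : HahnSeries.C (cb ^ (p ^ n)) * (coeffMap (frobenius (kk A) p))^[n] Hb /
          (Hb ^ (p ^ (n - 1)) / (coeffMap (frobenius (kk A) p))^[n] Gb) ^ p = 1 := by
      rw [div_pow, ← hd]
      have hC : (HahnSeries.C (cb ^ (p ^ n)) : LaurentSeries (kk A)) ≠ 0 := by
        rw [Ne, map_eq_zero]
        exact pow_ne_zero _ hcb
      have hFH : (coeffMap (frobenius (kk A) p))^[n] Hb ≠ 0 := by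
        intro h0
        apply hHb
        apply iterate_frob_injective p n
        rw [h0, iterate_map_zero]
      field_simp
    rwa [h2] at h1
  obtain ⟨y, hy⟩ := S.lift_symm_iterate n (H ^ (p ^ (n - 1)) / G')
  obtain ⟨yb, hyb, hyb'⟩ := hasRed_iterate_symm_frobenius S.frob n hy₀
  refine ⟨y, yb, ?_, ?_, ?_⟩
  · rintro rfl
    rw [iterate_map_zero] at hyb'
    exact hy₀ne hyb'.symm
  · rw [hy]
    exact hyb
  · apply hasRed_of_iterate_frobenius S.frob n
    rw [iterate_map_one]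
    have hinv : ∀ x : LaurentSeries L,
        (coeffMap (s : L →+* L))^[n] ((coeffMap (s.symm : L →+* L))^[n] x) = x := by
      have h4 : Function.LeftInverse (coeffMap (s : L →+* L)) (coeffMap (s.symm : L →+* L)) := by
        intro z
        ext m
        simp
      exact h4.iterate n
    have hT : ∀ x : LaurentSeries L,
        (coeffMap (s : L →+* L))^[n] x = ((coeffMap (s : L →+* L)) ^ n) x := by
      intro x
      rw [RingHom.coe_pow]
    have e : (coeffMap (s : L →+* L))^[n] (i (κ * H / y ^ p))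
        = i (κ' * H' / (H ^ (p ^ (n - 1)) / G') ^ p) := by
      rw [map_div₀ i, map_mul i, map_pow i, hT, map_div₀, map_mul, map_pow, ← hT, ← hT, ← hT,
        hy, hinv, ← hκ', ← hH', map_div₀ i (κ' * H'), map_mul i, map_pow i]
    rw [e]
    exact hone

end Fermat.Agent.ORD.P2
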