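import Fermat.Agent.ORD.P2.CorePi

/-!
# ORD / P2-G2 : root analysis: the leading term of `κ g^p` at a scale `π^j` shallower than `λ^p`
-/

set_option autoImplicit false
noncomputable section

namespace Fermat.Agent.ORD.P2

open ModularCurve HahnSeries Fermat.Agent.GR

variable {L : Type*} [Field L] {A : ValuationSubring L} {p : ℕ} {ζ : Lˣ} {π : L} {e₁ : ℕ}
variable {𝔽 : Type*} [Field 𝔽] {i : 𝔽 →+* LaurentSeries L}

/-- inner induction.  STATE: `g₂ : 𝔽`, `γ : L`, `i (κ g^p) = C γ * (i g₂)^p`, `Dp (π^j₀) (i g₂) e`, `1 ≤ j₀`.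
* `e₁ ≤ j₀`: `Dp.exists_pow_p_pi` + `Dp.pi_mono`/(`j < e₁ p`) ⇒ `Dp (π^j) (g₂^p) 0` ⇒ `Dp (π^j) (C γ) b` (`Dp.div`) ⇒ `b` constant (`Dp.const_inv`).
* `j₀ < e₁`, `j < j₀ p`: `Dp.pow_p_pi_shallow` + `Dp.pi_mono` ⇒ the same.
* `j₀ p = j`: `Dp (π^j) (g₂^p) (e^p)` ⇒ `Dp (π^j) (C γ) (b - e^p)` ⇒ `b = e^p + C cb`, `E = (g₂ - 1)/ϖ^j₀`.
* `j₀ p < j`: `Dp (π^(j₀ p)) (C γ * g₂^p) 0` (`Dp.pi_mono`), so `Dp (π^(j₀ p)) (C γ) (- e^p)`, `e^p` constant, `e = C d` (`pow_p_eq_C`); `D.improve_const`: `κ' g₂` has depth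
  `j₀ + 1`; new state `(κ' g₂, γ / c'^p)`; recursion on `j - j₀ p` (or on `j₀ ≤ j`). -/
theorem root_analysis_aux [NeZero p] (hp : p.Prime) (hp2 : p ≠ 2) (hA : A.LiesOverPrime p)
    (hζ : IsPrimitiveRoot ζ p) (D : Disc A π i) (hl : LamPi A ζ π e₁) {j : ℕ} (hj1 : 1 ≤ j)
    (hj : j < e₁ * p) {b : LaurentSeries (kk A)} (m : ℕ) :
    ∀ (j₀ : ℕ) (g₂ : 𝔽) (γ : L) (e : LaurentSeries (kk A)), 1 ≤ j₀ → j < j₀ + m →
      Dp A (π ^ j) (HahnSeries.C γ * i g₂ ^ p) b → Dp A (π ^ j₀) (i g₂) e →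
      (∃ cb : kk A, b = HahnSeries.C cb) ∨
      (∃ (j₁ : ℕ) (E : 𝔽) (e' : LaurentSeries (kk A)) (cb : kk A), j = j₁ * p ∧ 1 ≤ j₁ ∧
        HasRed A (i E) e' ∧ b = e' ^ p + HahnSeries.C cb) := by
  have := GR.charP_residueField hp hA
  have : ExpChar (kk A) p := ExpChar.prime hp
  have hπ0 := D.pi_ne
  have hπ := D.pi_mem
  have hεj : π ^ j ≠ 0 := pow_ne_zero j hπ0
  have hmj : π ^ j ∈ A.nonunits := DiscLemmas_pow_mem D hj1
  -- if `g₂^p` is trivial at the scale `π^j` then `b` is constant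
  have triv : ∀ (g₂ : 𝔽) (γ : L), Dp A (π ^ j) (HahnSeries.C γ * i g₂ ^ p) b →
      Dp A (π ^ j) (i g₂ ^ p) 0 → ∃ cb : kk A, b = HahnSeries.C cb := by
    intro g₂ γ hb h0
    have hdiv := hb.div hεj hmj h0
    rw [mul_div_cancel_right₀ _ (h0.ne_zero hεj hmj), sub_zero] at hdiv
    obtain ⟨cb, -, hcb⟩ := Dp.const_inv hdiv
    exact ⟨cb, hcb⟩
  induction m with
  | zero =>
    intro j₀ g₂ γ e h1 hlt hb he
    left
    apply triv g₂ γ hb
    rcases le_or_gt e₁ j₀ with h2 | h2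
    · obtain ⟨b', hb'⟩ := he.exists_pow_p_pi hp hp2 hA hζ hπ0 hπ hl h2
      exact hb'.pi_mono hπ0 hπ hj
    · have hpow := he.pow_p_pi_shallow hp hp2 hA hζ hπ0 hπ hl h1 h2
      refine hpow.pi_mono hπ0 hπ ?_
      have := hp.two_le
      nlinarith
  | succ m ih =>
    intro j₀ g₂ γ e h1 hlt hb he
    rcases le_or_gt e₁ j₀ with h2 | h2
    · left
      apply triv g₂ γ hb
      obtain ⟨b', hb'⟩ := he.exists_pow_p_pi hp hp2 hA hζ hπ0 hπ hl h2
      exact hb'.pi_mono hπ0 hπ hj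
    · have hpow := he.pow_p_pi_shallow hp hp2 hA hζ hπ0 hπ hl h1 h2
      rcases lt_trichotomy j (j₀ * p) with h3 | h3 | h3
      · left
        exact triv g₂ γ hb (hpow.pi_mono hπ0 hπ h3)
      · right
        rw [← h3] at hpow
        have hdiv := hb.div hεj hmj hpow
        rw [mul_div_cancel_right₀ _ (hpow.ne_zero hεj hmj)] at hdiv
        obtain ⟨cb, -, hcb⟩ := Dp.const_inv hdiv
        obtain ⟨ϖ, hϖ⟩ := D.exists_pi
        refine ⟨j₀, (g₂ - 1) / ϖ ^ j₀, e, cb, h3, h1, ?_, ?_⟩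
        · rw [map_div₀, map_sub, map_one, map_pow, hϖ, ← map_pow]
          exact he
        · rw [← hcb]
          ring
      · have h1p : 1 ≤ j₀ * p := Nat.mul_pos h1 hp.pos
        have hε' : π ^ (j₀ * p) ≠ 0 := pow_ne_zero _ hπ0
        have hm' : π ^ (j₀ * p) ∈ A.nonunits := DiscLemmas_pow_mem D h1p
        have hb0 : Dp A (π ^ (j₀ * p)) (HahnSeries.C γ * i g₂ ^ p) 0 := hb.pi_mono hπ0 hπ h3
        have hdiv := hb0.div hε' hm' hpow
        rw [mul_div_cancel_right₀ _ (hpow.ne_zero hε' hm')] at hdiv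
        obtain ⟨cb, -, hcb⟩ := Dp.const_inv hdiv
        have hep : e ^ p = HahnSeries.C (-cb) := by
          rw [map_neg, ← hcb]
          ring
        obtain ⟨d, rfl⟩ := pow_p_eq_C p hep
        obtain ⟨κ', a', hκ'0, ⟨c', hc'⟩, ha'⟩ := D.improve_const h1 he
        have hc'0 : (HahnSeries.C c' : LaurentSeries L) ≠ 0 := by
          rw [← hc']
          exact (map_ne_zero i).2 hκ'0
        refine ih (j₀ + 1) (κ' * g₂) (γ / c' ^ p) a' (by omega) (by omega) ?_ ha'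
        have e1 : (HahnSeries.C (γ / c' ^ p) : LaurentSeries L) * i (κ' * g₂) ^ p
            = HahnSeries.C γ * i g₂ ^ p := by
          rw [map_mul, hc', mul_pow, map_div₀, map_pow]
          field_simp
        rw [e1]
        exact hb

/-- **root analysis.**  If `κ g^p = 1 + π^j (b + …)` with `π^j` shallower than `λ^p`, then `b` is a constant, or `p ∣ j` and `b` is a constant plus the `p`-th power of
the reduction of an element of `𝔽`.
PROOF: `Dp.hasRed_one`; `D.normalize_root`: `g₂ = κ₁ g ≡ 1`; `D.dp_of_hasRed_one`: `Dp π (i g₂) e`; `C γ = i (κ/κ₁^p)`; `root_analysis_aux` with `j₀ = 1`, `m = j`. -/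
theorem root_analysis [NeZero p] (hp : p.Prime) (hp2 : p ≠ 2) (hA : A.LiesOverPrime p)
    (hζ : IsPrimitiveRoot ζ p) (D : Disc A π i) (hl : LamPi A ζ π e₁) {j : ℕ} (hj1 : 1 ≤ j)
    (hj : j < e₁ * p) {κ g : 𝔽} (hκ : IsC i κ) {b : LaurentSeries (kk A)}
    (h : Dp A (π ^ j) (i (κ * g ^ p)) b) :
    (∃ cb : kk A, b = HahnSeries.C cb) ∨
      (∃ (j₁ : ℕ) (E : 𝔽) (e' : LaurentSeries (kk A)) (cb : kk A), j = j₁ * p ∧ 1 ≤ j₁ ∧
        HasRed A (i E) e' ∧ b = e' ^ p + HahnSeries.C cb) := by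
  have := GR.charP_residueField hp hA
  have : ExpChar (kk A) p := ExpChar.prime hp
  have h1 := h.hasRed_one (pow_ne_zero j D.pi_ne) (DiscLemmas_pow_mem D hj1)
  obtain ⟨κ₁, hκ₁0, hκ₁c, hred⟩ := D.normalize_root hκ h1
  obtain ⟨e, he⟩ := D.dp_of_hasRed_one hred
  obtain ⟨γ, hγ⟩ := hκ.div (hκ₁c.pow p)
  refine root_analysis_aux hp hp2 hA hζ D hl hj1 hj j 1 (κ₁ * g) γ e le_rfl (by omega) ?_
    (by rwa [pow_one])
  have e1 : (HahnSeries.C γ : LaurentSeries L) * i (κ₁ * g) ^ p = i (κ * g ^ p) := by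
    rw [← hγ, ← map_pow, ← map_mul]
    congr 1
    rw [mul_pow]
    field_simp
  rw [e1]
  exact h

end Fermat.Agent.ORD.P2
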