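import Fermat.Agent.ORD.P2.CorePi

/-!
# ORD / P2-G4 : weak approximation: multipliers `Y` with prescribed behaviour at `0` and `≡ 1` (deeply) at `∞`
-/

set_option autoImplicit false
noncomputable section

namespace Fermat.Agent.ORD.P2

open ModularCurve HahnSeries Fermat.Agent.GR

variable {L : Type*} [Field L] {A : ValuationSubring L} {p : ℕ} [NeZero p] {ζ : Lˣ} {π : L}
  {e₁ : ℕ}
variable {𝔽 : Type*} [Field 𝔽] {i₁ i₂ : 𝔽 →+* LaurentSeries L} {U : 𝔽 →* 𝔽}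

/-- PROOF: `Ψ = 0` trivial.  `θ` from `CD.theta`; `i₁ θ / C π` is integral (`d₁.div_pi`), `d₁.norm`: `i₁ Ψ * C π ^ m` has a reduction.  `Ψ' = θ^N Ψ`, `N = e₁ + 1 + m.toNat`:
`i₂ Ψ' = (i₂ θ)^N * i₂ Ψ` has reduction `1^N * ψ`;  `i₁ Ψ' / C λ = (i₁ θ / C π)^N * (i₁ Ψ * C π^m) * C (u⁻¹ π^(N - m - e₁))`, and `N - m - e₁ ≥ 1`
(`hasRed_C_mul_zero`). -/
theorem CoreData.exists_multiplier (CD : CoreData A p ζ π e₁ i₁ i₂ U) {Ψ : 𝔽}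
    {ψ : LaurentSeries (kk A)} (hΨ : HasRed A (i₂ Ψ) ψ) :
    ∃ Ψ' : 𝔽, HasRed A (i₂ Ψ') ψ ∧ HasRed A (i₁ Ψ' / HahnSeries.C (lam ζ)) 0 := by
  rcases eq_or_ne Ψ 0 with rfl | hΨ0
  · exact ⟨0, hΨ, by rw [map_zero, zero_div]; exact hasRed_zero'⟩
  obtain ⟨θ, hθ1, hθ2⟩ := CD.theta
  obtain ⟨z, hz⟩ := CD.d₁.div_pi hθ1
  obtain ⟨m, z', -, hz'⟩ := CD.d₁.norm Ψ hΨ0
  obtain ⟨u, ub, hu, hub, hlam⟩ := CD.lamPi
  have hπ0 := CD.d₁.pi_ne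
  have hP : (HahnSeries.C π : LaurentSeries L) ≠ 0 := C_ne_zero' hπ0
  have hu0 : u ≠ 0 := by
    rintro rfl
    exact hub (hu.unique CRed.zero)
  have hU : (HahnSeries.C u : LaurentSeries L) ≠ 0 := C_ne_zero' hu0
  obtain ⟨r, hr⟩ : ∃ r : ℕ, (r : ℤ) = 1 + (m.toNat : ℤ) - m := ⟨(1 + (m.toNat : ℤ) - m).toNat, by omega⟩
  have hr1 : 1 ≤ r := by omega
  set N : ℕ := e₁ + 1 + m.toNat with hN
  refine ⟨θ ^ N * Ψ, ?_, ?_⟩
  · have := (hθ2.pow N).mul hΨ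
    rwa [one_pow, one_mul, ← map_pow, ← map_mul] at this
  · have hc : u⁻¹ * π ^ r ∈ A.nonunits := by
      rw [← cRed_zero_iff]
      have := (hu.inv hub).mul (cRed_zero_iff.mpr (DiscLemmas_pow_mem CD.d₁ hr1))
      rwa [mul_zero] at this
    have h1 := hasRed_C_mul_zero hc ((hz.pow N).mul hz')
    have hPN : (HahnSeries.C π : LaurentSeries L) ^ r * (HahnSeries.C π : LaurentSeries L) ^ m *
        (HahnSeries.C π : LaurentSeries L) ^ e₁ = (HahnSeries.C π : LaurentSeries L) ^ N := by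
      rw [← zpow_natCast, ← zpow_natCast _ e₁, ← zpow_natCast _ N, ← zpow_add₀ hP, ← zpow_add₀ hP]
      congr 1
      rw [hr, hN]
      push_cast
      ring
    have e : i₁ (θ ^ N * Ψ) / HahnSeries.C (lam ζ) = HahnSeries.C (u⁻¹ * π ^ r) *
        ((i₁ θ / HahnSeries.C π) ^ N * (i₁ Ψ * HahnSeries.C π ^ m)) := by
      have hPm : (HahnSeries.C π : LaurentSeries L) ^ m ≠ 0 := zpow_ne_zero _ hP
      rw [hlam, map_mul, map_pow, map_mul, map_mul, map_pow, map_pow, map_inv₀, div_pow, ← hPN]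
      field_simp
    rw [e]
    exact h1

/-- **the multiplier.**  `Y = 1 + ϖ^j₀ Ψ'`: `i₂ Y = 1 + π^j₀ (ψ + …)`, and `i₁ Y ≡ 1 mod λ 𝔪`, hence `i₁ Y^p ≡ 1 mod λ^p 𝔪` (`Dp.pow_p_lam_one` with `a = 0`). -/
theorem CoreData.exists_Y (hp : p.Prime) (hp2 : p ≠ 2) (hA : A.LiesOverPrime p)
    (hζ : IsPrimitiveRoot ζ p) (CD : CoreData A p ζ π e₁ i₁ i₂ U) (j₀ : ℕ) {Ψ : 𝔽}
    {ψ : LaurentSeries (kk A)} (hΨ : HasRed A (i₂ Ψ) ψ) :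
    ∃ Y : 𝔽, Y ≠ 0 ∧ Dp A (lam ζ ^ p) (i₁ (Y ^ p)) 0 ∧ Dp A (π ^ j₀) (i₂ Y) ψ := by
  have := charP_residueField hp hA
  have : ExpChar (kk A) p := ExpChar.prime hp
  obtain ⟨Ψ', h2, h1⟩ := CD.exists_multiplier hΨ
  obtain ⟨ϖ, hϖ1⟩ := CD.d₁.exists_pi
  have hϖ2 : i₂ ϖ = HahnSeries.C π := (CD.cst ϖ π).mp hϖ1
  have hl0 := lam_ne_zero hp hζ
  have hlm := lam_mem_nonunits hp hA hζ.pow_eq_one
  have hL : (HahnSeries.C (lam ζ) : LaurentSeries L) ≠ 0 := C_ne_zero' hl0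
  have hd1 : Dp A (lam ζ) (i₁ (1 + ϖ ^ j₀ * Ψ')) 0 := by
    refine (dp_iff hl0).mpr ⟨HahnSeries.C (π ^ j₀) * (i₁ Ψ' / HahnSeries.C (lam ζ)), ?_, ?_⟩
    · have := hasRed_C_mul ((cRed_zero_iff.mpr CD.d₁.pi_mem).pow j₀) h1
      rwa [mul_zero] at this
    · rw [map_add, map_one, map_mul, map_pow, hϖ1, map_pow]
      field_simp
  refine ⟨1 + ϖ ^ j₀ * Ψ', ?_, ?_, ?_⟩
  · intro h0
    have := hd1.ne_zero hl0 hlm
    rw [h0, map_zero] at this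
    exact this rfl
  · have := hd1.pow_p_lam_one hp hp2 hA hζ
    rwa [zero_pow hp.ne_zero, sub_zero, ← map_pow] at this
  · refine (dp_iff (pow_ne_zero _ CD.d₁.pi_ne)).mpr ⟨i₂ Ψ', h2, ?_⟩
    rw [map_add, map_one, map_mul, map_pow, hϖ2, map_pow]

end Fermat.Agent.ORD.P2
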