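import Fermat.Agent.ORD.P2.CoreFE
import Fermat.Agent.ORD.P2.CoreWA
import Fermat.Agent.ORD.P2.CoreLift
import Fermat.Agent.ORD.P2.CoreRoot

/-!
# ORD / P2-G7 : (5)(B), the improvement step `π^j → π^(j+1)` at the cusp `0`, for `π^j` shallower than `λ^p`
-/

set_option autoImplicit false
noncomputable section

namespace Fermat.Agent.ORD.P2

open ModularCurve HahnSeries Fermat.Agent.GR

variable {K L : Type*} [Field K] [Field L] [Algebra K L] {A : ValuationSubring L}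
variable {p : ℕ} [NeZero p] {ζ : Lˣ} {π : L} {e₁ : ℕ} {s : L ≃ₐ[K] L}
variable {𝔽 : Type*} [Field 𝔽] {i₁ i₂ : 𝔽 →+* LaurentSeries L} {U : 𝔽 →* 𝔽}

theorem CoreStep_iterate_qExpand {ε : L} (hε : ε ≠ 0) {x : LaurentSeries L}
    {a : LaurentSeries (kk A)} (h : Dp A ε x a) (n : ℕ) :
    Dp A ε ((qExpand L p)^[n] x) ((qExpand (kk A) p)^[n] a) := by
  induction n with
  | zero => exact h
  | succ n ih =>
    rw [Function.iterate_succ_apply', Function.iterate_succ_apply']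
    exact ih.qExpand p hε

theorem CoreStep_pow_mem {c : L} (hc : c ∈ A.nonunits) {j : ℕ} (hj : 1 ≤ j) :
    c ^ j ∈ A.nonunits := by
  have := (cRed_zero_iff.mpr hc).pow j
  rw [zero_pow (by omega)] at this
  exact cRed_zero_iff.mp this

/-- the leading term of `κ g^p` at `0` is `V^n a - a`.
PROOF: `H = i₂ (κ₀ h)`, `Dp (π^j) H a`; `Dp (π^j) (V^n H) (V^n a)` (iterate `Dp.qExpand`); `Dp.div`; `core_FE` with `ε = λ^p` + `Dp.pi_of_lam_pow`; `core_FE_eq`; `Dp.mul`. -/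
theorem core_leading (hp : p.Prime) (hA : A.LiesOverPrime p) (hζ : IsPrimitiveRoot ζ p)
    (CD : CoreData A p ζ π e₁ i₁ i₂ U) {n j : ℕ} (hj1 : 1 ≤ j) (hj : j < e₁ * p) {h κ g κ₀ : 𝔽}
    (h1 : Dp A (lam ζ ^ p) (i₁ h) 0) (hU : U^[n] h = κ * h * g ^ p) (hκ₀ : κ₀ ≠ 0)
    (hc₀ : IsC i₁ κ₀) {a : LaurentSeries (kk A)} (h2 : Dp A (π ^ j) (i₂ (κ₀ * h)) a) :
    Dp A (π ^ j) (i₂ (κ * g ^ p)) ((qExpand (kk A) p)^[n] a - a) := by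
  have hπ0 := CD.d₂.pi_ne
  have hπ := CD.d₂.pi_mem
  have hε : π ^ j ≠ 0 := pow_ne_zero _ hπ0
  have hm : π ^ j ∈ A.nonunits := CoreStep_pow_mem hπ hj1
  have hl0 : lam ζ ^ p ≠ 0 := pow_ne_zero _ (lam_ne_zero hp hζ)
  have hlm : lam ζ ^ p ∈ A.nonunits :=
    CoreStep_pow_mem (lam_mem_nonunits hp hA hζ.pow_eq_one) hp.one_le
  have h0 : h ≠ 0 := by
    rintro rfl
    exact h1.ne_zero hl0 hlm (map_zero _)
  have hFE := (core_FE hp hA hζ CD hl0 hlm h1 n).pi_of_lam_pow hπ0 hπ CD.lamPi hj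
  have hV := (CoreStep_iterate_qExpand (p := p) hε h2 n).div hε hm h2
  have := hFE.mul hε hm hV
  rwa [zero_add, ← core_FE_eq CD h0 hκ₀ hc₀ hU] at this

/-- **the step.**
PROOF.  `core_leading` + `root_analysis` (for `i₂`, `CD.d₂`, `CD.lamPi`, `(CD.isC_iff κ).mp`):
(α) `V^n a - a = C cb`: `iterate_qExpand_sub_eq_C`: `a = C c'`; `d₂.improve_const`: `κ₁ (κ₀ h)` has depth `j+1`; `h' = h`, `κ' = κ₁ κ₀`.
(β) `j = j₁ p`, `V^n a - a = e'^p + C cb`, `e'` = reduction of `E`.  `X = (κ₀ h - 1)/ϖ^j` has reduction `a`.  `exists_pth_root_lift`: `a = ψ^p + C c'`, `ψ` = reduction of `Ψ`.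
`CD.exists_Y` with `j₀ = j₁` and `-Ψ`: `Y`, `Dp (π^j₁) (i₂ Y) (-ψ)`; `j₁ < e₁`; `Dp.pow_p_pi_shallow`: `Dp (π^j) (i₂ Y^p) ((-ψ)^p)`, `(-ψ)^p = -ψ^p` (`Odd.neg_pow`, `p` odd).
`h₁ = h Y^p`: `Dp (π^j) (i₂ (κ₀ h₁)) (a - ψ^p) = C c'` (`Dp.mul`); `d₂.improve_const`; at `∞`: `Dp.mul`, `0 + 0 = 0`. -/
theorem core_step (hp : p.Prime) (hp2 : p ≠ 2) (hA : A.LiesOverPrime p)
    (hζ : IsPrimitiveRoot ζ p) (CD : CoreData A p ζ π e₁ i₁ i₂ U) (S : FrobOn A p s i₂) {n : ℕ}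
    (hn : 1 ≤ n) {j : ℕ} (hj1 : 1 ≤ j) (hj : j < e₁ * p) {h : 𝔽}
    (h1 : Dp A (lam ζ ^ p) (i₁ h) 0) (hU : UFix p i₁ U n h) {κ₀ : 𝔽} (hκ₀ : κ₀ ≠ 0)
    (hc₀ : IsC i₁ κ₀) {a : LaurentSeries (kk A)} (h2 : Dp A (π ^ j) (i₂ (κ₀ * h)) a) :
    ∃ (h' κ' : 𝔽) (a' : LaurentSeries (kk A)), SameCl p i₁ h h' ∧ Dp A (lam ζ ^ p) (i₁ h') 0 ∧
      κ' ≠ 0 ∧ IsC i₁ κ' ∧ Dp A (π ^ (j + 1)) (i₂ (κ' * h')) a' := by
  haveI : CharP (kk A) p := charP_residueField hp hA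
  haveI : ExpChar (kk A) p := ExpChar.prime hp
  have hπ0 := CD.d₂.pi_ne
  have hπ := CD.d₂.pi_mem
  have hε : π ^ j ≠ 0 := pow_ne_zero _ hπ0
  have hm : π ^ j ∈ A.nonunits := CoreStep_pow_mem hπ hj1
  have hl0 : lam ζ ^ p ≠ 0 := pow_ne_zero _ (lam_ne_zero hp hζ)
  have hlm : lam ζ ^ p ∈ A.nonunits :=
    CoreStep_pow_mem (lam_mem_nonunits hp hA hζ.pow_eq_one) hp.one_le
  obtain ⟨κ, g, hκ, hU'⟩ := hU
  have lead := core_leading hp hA hζ CD hj1 hj h1 hU' hκ₀ hc₀ h2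
  rcases root_analysis hp hp2 hA hζ CD.d₂ CD.lamPi hj1 hj ((CD.isC_iff κ).mp hκ) lead with
    ⟨cb, hcb⟩ | ⟨j₁, E, e', cb, hjj, hj₁, hE, hb⟩
  · obtain ⟨c', rfl⟩ := iterate_qExpand_sub_eq_C p hp.two_le hn hcb
    obtain ⟨κ₁, a', hκ₁, hc₁, ha'⟩ := CD.d₂.improve_const hj1 h2
    refine ⟨h, κ₁ * κ₀, a', SameCl.refl p i₁ h, h1, mul_ne_zero hκ₁ hκ₀,
      ((CD.isC_iff κ₁).mpr hc₁).mul hc₀, ?_⟩
    rwa [mul_assoc]
  · obtain ⟨ϖ, hϖ⟩ := CD.d₂.exists_pi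
    have hX : HasRed A (i₂ ((κ₀ * h - 1) / ϖ ^ j)) a := by
      rw [map_div₀, map_sub, map_one, map_pow, hϖ, ← map_pow]
      exact h2
    obtain ⟨Ψ, ψ, c', hΨ, ha⟩ := exists_pth_root_lift S hn hX hE hb
    have hΨ' : HasRed A (i₂ (-Ψ)) (-ψ) := by
      rw [map_neg]
      exact hasRed_neg' hΨ
    obtain ⟨Y, hY0, hY1, hY2⟩ := CD.exists_Y hp hp2 hA hζ j₁ hΨ'
    have hj₁e : j₁ < e₁ := by
      rw [hjj] at hj
      exact lt_of_mul_lt_mul_right hj (Nat.zero_le p)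
    have hYp := hY2.pow_p_pi_shallow hp hp2 hA hζ hπ0 hπ CD.lamPi hj₁ hj₁e
    rw [← hjj, (hp.odd_of_ne_two hp2).neg_pow] at hYp
    have h3 := h2.mul hε hm hYp
    have e3 : a + -ψ ^ p = HahnSeries.C c' := by
      rw [ha]; ring
    have e4 : i₂ (κ₀ * h) * i₂ Y ^ p = i₂ (κ₀ * (h * Y ^ p)) := by
      rw [← map_pow, ← map_mul, mul_assoc]
    rw [e3, e4] at h3
    obtain ⟨κ₁, a', hκ₁, hc₁, ha'⟩ := CD.d₂.improve_const hj1 h3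
    refine ⟨h * Y ^ p, κ₁ * κ₀, a', SameCl.of_pow i₁ hY0 h, ?_, mul_ne_zero hκ₁ hκ₀,
      ((CD.isC_iff κ₁).mpr hc₁).mul hc₀, ?_⟩
    · have := h1.mul hl0 hlm hY1
      rwa [add_zero, ← map_mul] at this
    · rwa [mul_assoc]

end Fermat.Agent.ORD.P2
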