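import Fermat.Agent.ORD.P2.CoreStage0
import Fermat.Agent.ORD.P2.CoreStep

/-!
# ORD / P2-G : the formal core of (5)(A)(B) of the plan #1179
-/

set_option autoImplicit false
noncomputable section

namespace Fermat.Agent.ORD.P2

open ModularCurve HahnSeries Fermat.Agent.GR

variable {K L : Type*} [Field K] [Field L] [Algebra K L] {A : ValuationSubring L}
variable {p : ℕ} [NeZero p] {ζ : Lˣ} {π : L} {e₁ : ℕ} {s : L ≃ₐ[K] L}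
variable {𝔽 : Type*} [Field 𝔽] {i₁ i₂ : 𝔽 →+* LaurentSeries L} {U : 𝔽 →* 𝔽}

/-- **formal core.**  If `h ≡ 1` at `∞` and `U^n` fixes the class of `h` (`n ≥ 1`), then the class of `h` has a generator `h'` with
`h' ≡ 1 mod λ^p 𝔪` at `∞` and `h' ≡ const * (1 mod λ^p)` at `0`. -/
theorem core_formal (hp : p.Prime) (hp2 : p ≠ 2) (hA : A.LiesOverPrime p)
    (hζ : IsPrimitiveRoot ζ p) (CD : CoreData A p ζ π e₁ i₁ i₂ U) (S : FrobOn A p s i₂) {n : ℕ}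
    (hn : 1 ≤ n) {h : 𝔽} (h1 : HasRed A (i₁ h) 1) (hU : UFix p i₁ U n h) :
    ∃ (h' κ' : 𝔽) (b : LaurentSeries (kk A)), SameCl p i₁ h h' ∧ Dp A (lam ζ ^ p) (i₁ h') 0 ∧
      κ' ≠ 0 ∧ IsC i₁ κ' ∧ Dp A (lam ζ ^ p) (i₂ (κ' * h')) b := by
  obtain ⟨h₁, hs₁, hd₁⟩ := core_A hp hA hζ CD hn h1 hU
  obtain ⟨h₂, κ₂, hs₂, hd₂, hκ₂, hc₂, hr₂⟩ :=
    core_stage0 hp hp2 hA hζ CD S hn hd₁ (hU.sameCl CD hs₁)
  obtain ⟨a₂, ha₂⟩ := CD.d₂.dp_of_hasRed_one hr₂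
  have key : ∀ j : ℕ, 1 ≤ j → j ≤ e₁ * p → ∃ (h' κ' : 𝔽) (a : LaurentSeries (kk A)),
      SameCl p i₁ h h' ∧ Dp A (lam ζ ^ p) (i₁ h') 0 ∧ κ' ≠ 0 ∧ IsC i₁ κ' ∧
        Dp A (π ^ j) (i₂ (κ' * h')) a := by
    intro j hj
    induction j, hj using Nat.le_induction with
    | base => intro _; exact ⟨h₂, κ₂, a₂, hs₁.trans hs₂, hd₂, hκ₂, hc₂, by rwa [pow_one]⟩
    | succ j hj ih =>
      intro hjp
      obtain ⟨h', κ', a, hs, hd, hκ, hc, ha⟩ := ih (by omega)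
      obtain ⟨h'', κ'', a', hs', hd', hκ', hc', ha'⟩ :=
        core_step hp hp2 hA hζ CD S hn hj (by omega) hd (hU.sameCl CD hs) hκ hc ha
      exact ⟨h'', κ'', a', hs.trans hs', hd', hκ', hc', ha'⟩
  have he : 1 ≤ e₁ * p := Nat.mul_pos (CD.lamPi.one_le hp hA hζ) hp.pos
  obtain ⟨h', κ', a, hs, hd, hκ, hc, ha⟩ := key (e₁ * p) he le_rfl
  obtain ⟨b, hb⟩ := ha.lam_pow_of_pi CD.d₂.pi_ne CD.lamPi
  exact ⟨h', κ', b, hs, hd, hκ, hc, hb⟩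

end Fermat.Agent.ORD.P2
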