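import Fermat.Agent.ORD.P2.CorePi

/-!
# ORD / P2-G3 : the functional equation: (A) contraction at `∞`, and `w (U^n h) ≡ V^n (w h)` modulo `λ^p 𝔪`
-/

set_option autoImplicit false
noncomputable section

namespace Fermat.Agent.ORD.P2

open ModularCurve HahnSeries Fermat.Agent.GR

variable {L : Type*} [Field L] {A : ValuationSubring L} {p : ℕ} [NeZero p] {ζ : Lˣ} {π : L}
  {e₁ : ℕ}
variable {𝔽 : Type*} [Field 𝔽] {i₁ i₂ : 𝔽 →+* LaurentSeries L} {U : 𝔽 →* 𝔽}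

theorem map_ne_zero_of_monoidHom (U : 𝔽 →* 𝔽) {x : 𝔽} (hx : x ≠ 0) : U x ≠ 0 := by
  intro h
  have h1 : U x * U x⁻¹ = 1 := by rw [← map_mul, mul_inv_cancel₀ hx, map_one]
  rw [h, zero_mul] at h1
  exact zero_ne_one h1

theorem iterate_ne_zero_of_monoidHom (U : 𝔽 →* 𝔽) (n : ℕ) {x : 𝔽} (hx : x ≠ 0) :
    U^[n] x ≠ 0 := by
  induction n with
  | zero => exact hx
  | succ n ih =>
    rw [Function.iterate_succ_apply']
    exact map_ne_zero_of_monoidHom U ih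

/-- `U` maps constants to constants (`normU_C`). -/
theorem CoreData.isC_U (CD : CoreData A p ζ π e₁ i₁ i₂ U) {κ : 𝔽} (hκ : IsC i₁ κ) (n : ℕ) :
    IsC i₁ (U^[n] κ) := by
  induction n with
  | zero => exact hκ
  | succ n ih =>
    rw [Function.iterate_succ_apply']
    obtain ⟨c, hc⟩ := ih
    exact ⟨c ^ p, by rw [CD.U₁, hc, normU_C]⟩

/-- PROOF: `h' = κ' h y^p`: `U^n h' = U^n κ' * (κ h g^p) * (U^n y)^p = (U^n κ' * κ / κ') * h' * (g * U^n y / y)^p` (`MonoidHom.iterate_map_mul`, `iterate_map_pow`). -/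
theorem UFix.sameCl (CD : CoreData A p ζ π e₁ i₁ i₂ U) {n : ℕ} {h h' : 𝔽}
    (hU : UFix p i₁ U n h) (hs : SameCl p i₁ h h') : UFix p i₁ U n h' := by
  obtain ⟨κ, g, hκ, hg⟩ := hU
  obtain ⟨κ', y, hκ', hy, hc', rfl⟩ := hs
  refine ⟨U^[n] κ' * κ / κ', g * U^[n] y / y, ((CD.isC_U hc' n).mul hκ).div hc', ?_⟩
  rw [iterate_map_mul, iterate_map_mul, iterate_map_pow, hg, div_pow, mul_pow]
  field_simp

/-- all `U^(n k) h` are in the class of `h`. -/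
theorem UFix.sameCl_iterate (CD : CoreData A p ζ π e₁ i₁ i₂ U) {n : ℕ} {h : 𝔽} (h0 : h ≠ 0)
    (hU : UFix p i₁ U n h) (k : ℕ) : SameCl p i₁ h (U^[n * k] h) := by
  induction k with
  | zero => rw [Nat.mul_zero]; exact SameCl.refl p i₁ h
  | succ k ih =>
    have e : U^[n * (k + 1)] h = U^[n] (U^[n * k] h) := by
      rw [← Function.iterate_add_apply]; congr 1; ring
    obtain ⟨κ, g, hκ, hg⟩ := UFix.sameCl CD hU ih
    have h1 : U^[n] (U^[n * k] h) ≠ 0 :=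
      iterate_ne_zero_of_monoidHom U n (iterate_ne_zero_of_monoidHom U (n * k) h0)
    rw [e]
    refine ih.trans ⟨κ, g, ?_, ?_, hκ, hg⟩
    · rintro rfl
      exact h1 (by rw [hg, zero_mul, zero_mul])
    · rintro rfl
      exact h1 (by rw [hg, zero_pow (NeZero.ne p), mul_zero])

/-- `U` strictly increases the depth at `∞` (`Dp.normU_zero` + `Disc.deepen`). -/
theorem CoreData.U_deepen (hp : p.Prime) (hA : A.LiesOverPrime p) (hζ : IsPrimitiveRoot ζ p)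
    (CD : CoreData A p ζ π e₁ i₁ i₂ U) {x : 𝔽} {j : ℕ} (hj : 1 ≤ j) {a : LaurentSeries (kk A)}
    (h : Dp A (π ^ j) (i₁ x) a) : ∃ b, Dp A (π ^ (j + 1)) (i₁ (U x)) b := by
  have h0 : (p : L) ≠ 0 := natCast_ne_zero_of_isPrimitiveRoot hp hζ
  have := GR.charP_residueField hp hA
  have : ExpChar (kk A) p := ExpChar.prime hp
  have h2 := Dp.normU_zero hp hA h0 hζ (pow_ne_zero j CD.d₁.pi_ne) (DiscLemmas_pow_mem CD.d₁ hj) h
  rw [← CD.U₁] at h2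
  exact CD.d₁.deepen h2

/-- **(A)**: the class of `h` has a generator `≡ 1 mod λ^p 𝔪` at `∞`.
PROOF: `d₁.dp_of_hasRed_one`; `U_deepen` iterated: `Dp (π^(1+N)) (i₁ (U^N h)) _`; take `N = n * (e₁ p + 1)`; `Dp.lam_pow_of_pi_lt`; `UFix.sameCl_iterate`. -/
theorem core_A (hp : p.Prime) (hA : A.LiesOverPrime p) (hζ : IsPrimitiveRoot ζ p)
    (CD : CoreData A p ζ π e₁ i₁ i₂ U) {n : ℕ} (hn : 1 ≤ n) {h : 𝔽} (h1 : HasRed A (i₁ h) 1)
    (hU : UFix p i₁ U n h) : ∃ h' : 𝔽, SameCl p i₁ h h' ∧ Dp A (lam ζ ^ p) (i₁ h') 0 := by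
  have h0 : h ≠ 0 := by
    rintro rfl
    rw [map_zero] at h1
    exact h1.ne_zero one_ne_zero rfl
  obtain ⟨a, ha⟩ := CD.d₁.dp_of_hasRed_one h1
  have key : ∀ N : ℕ, ∃ b, Dp A (π ^ (N + 1)) (i₁ (U^[N] h)) b := by
    intro N
    induction N with
    | zero => exact ⟨a, by simpa using ha⟩
    | succ N ih =>
      obtain ⟨b, hb⟩ := ih
      rw [Function.iterate_succ_apply']
      exact CD.U_deepen hp hA hζ (Nat.le_add_left 1 N) hb
  obtain ⟨b, hb⟩ := key (n * (e₁ * p + 1))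
  refine ⟨U^[n * (e₁ * p + 1)] h, UFix.sameCl_iterate CD h0 hU _, ?_⟩
  refine Dp.lam_pow_of_pi_lt CD.d₁.pi_ne CD.d₁.pi_mem CD.lamPi ?_ hb
  have h3 : 1 * (e₁ * p + 1) ≤ n * (e₁ * p + 1) := Nat.mul_le_mul_right _ hn
  omega

/-- `Dp ε (i₁ x) 0 ⇒ Dp ε (i₁ (U^n x)) 0`  (`Dp.normU_zero`). -/
theorem CoreData.U_zero (hp : p.Prime) (hA : A.LiesOverPrime p) (hζ : IsPrimitiveRoot ζ p)
    (CD : CoreData A p ζ π e₁ i₁ i₂ U) {ε : L} (hε : ε ≠ 0) (hm : ε ∈ A.nonunits) {x : 𝔽}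
    (h : Dp A ε (i₁ x) 0) (n : ℕ) : Dp A ε (i₁ (U^[n] x)) 0 := by
  have h0 : (p : L) ≠ 0 := natCast_ne_zero_of_isPrimitiveRoot hp hζ
  have := GR.charP_residueField hp hA
  have : ExpChar (kk A) p := ExpChar.prime hp
  induction n with
  | zero => exact h
  | succ n ih =>
    rw [Function.iterate_succ_apply', CD.U₁]
    exact Dp.normU_zero hp hA h0 hζ hε hm ih

/-- **(FE)**: `w (U^n h) ≡ V^n (w h)`.
PROOF: induction on `n`.  `u = U^n h ≠ 0`, `Dp ε (i₁ u) 0`, `Dp ε (i₁ (U u)) 0` (`U_zero`), `Dp ε (V (i₁ (U u))) 0` (`Dp.qExpand`, `map_zero`).  `ident`: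
`i₂ (U u) / V (i₂ u) = V (i₁ (U u)) / i₁ u`, which is `Dp ε _ 0` (`Dp.div`).  And
`i₂ (U^(n+1) h) / V^(n+1) (i₂ h) = [i₂ (U u) / V (i₂ u)] * V [i₂ u / V^n (i₂ h)]` (`Function.iterate_succ_apply'`, `map_div₀`); `Dp.mul`. -/
theorem core_FE (hp : p.Prime) (hA : A.LiesOverPrime p) (hζ : IsPrimitiveRoot ζ p)
    (CD : CoreData A p ζ π e₁ i₁ i₂ U) {ε : L} (hε : ε ≠ 0) (hm : ε ∈ A.nonunits) {h : 𝔽}
    (h1 : Dp A ε (i₁ h) 0) (n : ℕ) :
    Dp A ε (i₂ (U^[n] h) / (qExpand L p)^[n] (i₂ h)) 0 := by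
  have h0 : h ≠ 0 := by
    rintro rfl
    rw [map_zero] at h1
    exact h1.ne_zero hε hm rfl
  induction n with
  | zero =>
    have h2 : i₂ h ≠ 0 := (map_ne_zero i₂).mpr h0
    rw [Function.iterate_zero_apply, Function.iterate_zero_apply, div_self h2]
    exact Dp.one ε
  | succ n ih =>
    have hu0 : U^[n] h ≠ 0 := iterate_ne_zero_of_monoidHom U n h0
    have hu1 : Dp A ε (i₁ (U^[n] h)) 0 := CD.U_zero hp hA hζ hε hm h1 n
    have hu2 : Dp A ε (i₁ (U (U^[n] h))) 0 := by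
      have := CD.U_zero hp hA hζ hε hm h1 (n + 1)
      rwa [Function.iterate_succ_apply'] at this
    have hu3 : Dp A ε (qExpand L p (i₁ (U (U^[n] h)))) 0 := by
      have := Dp.qExpand p hε hu2
      rwa [map_zero] at this
    have hid := CD.ident _ hu0
    have hi1 : i₁ (U^[n] h) ≠ 0 := (map_ne_zero i₁).mpr hu0
    have hi2 : qExpand L p (i₂ (U^[n] h)) ≠ 0 :=
      (map_ne_zero (qExpand L p)).mpr ((map_ne_zero i₂).mpr hu0)
    have e1 : i₂ (U (U^[n] h)) / qExpand L p (i₂ (U^[n] h)) =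
        qExpand L p (i₁ (U (U^[n] h))) / i₁ (U^[n] h) := by
      rw [div_eq_div_iff hi2 hi1, hid, map_mul]; ring
    have hd1 : Dp A ε (i₂ (U (U^[n] h)) / qExpand L p (i₂ (U^[n] h))) 0 := by
      rw [e1]
      have := hu3.div hε hm hu1
      rwa [sub_zero] at this
    have hd2 : Dp A ε (qExpand L p (i₂ (U^[n] h) / (qExpand L p)^[n] (i₂ h))) 0 := by
      have := Dp.qExpand p hε ih
      rwa [map_zero] at this
    have e2 : i₂ (U^[n + 1] h) / (qExpand L p)^[n + 1] (i₂ h) =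
        (i₂ (U (U^[n] h)) / qExpand L p (i₂ (U^[n] h))) *
          qExpand L p (i₂ (U^[n] h) / (qExpand L p)^[n] (i₂ h)) := by
      rw [Function.iterate_succ_apply', Function.iterate_succ_apply', map_div₀,
        div_mul_div_cancel₀ hi2]
    rw [e2]
    have := hd1.mul hε hm hd2
    rwa [add_zero] at this

/-- consequence used in stage 0 and in the step: with `H = i₂ (κ₀ h)`, `U^n h = κ h g^p`:
`i₂ (κ g^p) = [i₂ (U^n h) / V^n (i₂ h)] * [V^n H / H]`  (constants are fixed by `V`: `iterate_qExpand_C`, `CD.cst`). -/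
theorem core_FE_eq (CD : CoreData A p ζ π e₁ i₁ i₂ U) {n : ℕ} {h κ g κ₀ : 𝔽} (h0 : h ≠ 0)
    (hκ₀ : κ₀ ≠ 0) (hc₀ : IsC i₁ κ₀) (hU : U^[n] h = κ * h * g ^ p) :
    i₂ (κ * g ^ p) = (i₂ (U^[n] h) / (qExpand L p)^[n] (i₂ h)) *
      ((qExpand L p)^[n] (i₂ (κ₀ * h)) / i₂ (κ₀ * h)) := by
  obtain ⟨c, hc⟩ := (CD.isC_iff κ₀).mp hc₀
  have hh : i₂ h ≠ 0 := (map_ne_zero i₂).mpr h0
  have hk : i₂ κ₀ ≠ 0 := (map_ne_zero i₂).mpr hκ₀
  have hV : (qExpand L p)^[n] (i₂ h) ≠ 0 := by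
    rw [← RingHom.coe_pow]
    exact (map_ne_zero _).mpr hh
  have e1 : (qExpand L p)^[n] (i₂ (κ₀ * h)) = i₂ κ₀ * (qExpand L p)^[n] (i₂ h) := by
    rw [map_mul, iterate_map_mul, hc, iterate_qExpand_C]
  rw [e1, hU, map_mul, map_mul, map_mul, map_mul]
  field_simp

end Fermat.Agent.ORD.P2
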