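import Fermat.Agent.ORD.P2.CoreDefs

/-!
# ORD / P2-G1 : depth calculus at the scales `π ^ j`, where `λ = u π ^ e₁`

All are corollaries of `Dp.pow_p_shallow` (DepPow.lean), `cRed_p_div_lam` (Lam.lean), `Dp.rescale`, `Dp.of_deeper`, `Dp.rescale_unit`.
Key constant: `p / π^(j₀ (p-1)) = (p / λ^(p-1)) * u^(p-1) * π^((e₁ - j₀)(p-1))` for `j₀ ≤ e₁`.
-/

set_option autoImplicit false
noncomputable section

namespace Fermat.Agent.ORD.P2

open ModularCurve HahnSeries Fermat.Agent.GR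

variable {L : Type*} [Field L] {A : ValuationSubring L} {p : ℕ} {ζ : Lˣ} {π : L} {e₁ : ℕ}

theorem CorePi_pow_mem_nonunits (hπ : π ∈ A.nonunits) {n : ℕ} (hn : 0 < n) :
    π ^ n ∈ A.nonunits := by
  rw [← cRed_zero_iff] at hπ ⊢
  have := hπ.pow n
  rwa [zero_pow hn.ne'] at this

theorem CorePi_ne_zero_of_cRed {u : L} {ub : kk A} (hu : CRed A u ub) (hub : ub ≠ 0) : u ≠ 0 := by
  rintro rfl
  exact hub (hu.unique CRed.zero)

theorem CorePi_mul_mem_nonunits {c d : L} {cb : kk A} (hc : CRed A c cb) (hd : d ∈ A.nonunits) :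
    c * d ∈ A.nonunits := by
  rw [← cRed_zero_iff] at hd ⊢
  have := hc.mul hd
  rwa [mul_zero] at this

theorem LamPi.one_le (hp : p.Prime) (hA : A.LiesOverPrime p) (hζ : IsPrimitiveRoot ζ p)
    (hl : LamPi A ζ π e₁) : 1 ≤ e₁ := by
  obtain ⟨u, ub, hu, hub, hlam⟩ := hl
  by_contra hcon
  have he : e₁ = 0 := by omega
  rw [he, pow_zero, mul_one] at hlam
  have h1 := cRed_zero_iff.mpr (lam_mem_nonunits hp hA hζ.pow_eq_one)
  rw [hlam] at h1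
  exact hub (hu.unique h1)

/-- `(1 + π^j₀ a)^p = 1 + π^(j₀ p) a^p` for `j₀ < e₁`. -/
theorem Dp.pow_p_pi_shallow (hp : p.Prime) (hp2 : p ≠ 2) (hA : A.LiesOverPrime p)
    (hζ : IsPrimitiveRoot ζ p) (hπ0 : π ≠ 0) (hπ : π ∈ A.nonunits) (hl : LamPi A ζ π e₁) {j₀ : ℕ}
    (h1 : 1 ≤ j₀) (h2 : j₀ < e₁) {x : LaurentSeries L} {a : LaurentSeries (kk A)}
    (h : Dp A (π ^ j₀) x a) : Dp A (π ^ (j₀ * p)) (x ^ p) (a ^ p) := by
  have : NeZero p := ⟨hp.ne_zero⟩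
  have := GR.charP_residueField hp hA
  have : ExpChar (kk A) p := ExpChar.prime hp
  obtain ⟨u, ub, hu, hub, hlam⟩ := hl
  have hu0 := CorePi_ne_zero_of_cRed hu hub
  obtain ⟨d, rfl⟩ : ∃ d, e₁ = j₀ + (d + 1) := ⟨e₁ - j₀ - 1, by omega⟩
  have hp1 : 0 < p - 1 := by have := hp.two_le; omega
  have hc : CRed A ((p : L) / (π ^ j₀) ^ (p - 1)) 0 := by
    have h1 := ((cRed_p_div_lam hp hp2 hA hζ).mul (hu.pow (p - 1))).mul
      (cRed_zero_iff.mpr (CorePi_pow_mem_nonunits hπ (n := (d + 1) * (p - 1))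
        (Nat.mul_pos (Nat.succ_pos d) hp1)))
    rw [mul_zero] at h1
    have h2 : (p : L) / (π ^ j₀) ^ (p - 1) =
        (p : L) / lam ζ ^ (p - 1) * u ^ (p - 1) * π ^ ((d + 1) * (p - 1)) := by
      rw [hlam, mul_pow, _root_.pow_add, mul_pow, pow_mul π (d + 1) (p - 1)]
      field_simp
    rw [h2]
    exact h1
  have h3 := h.pow_p_shallow hp hA (pow_ne_zero _ hπ0)
    (CorePi_pow_mem_nonunits hπ (by omega)) hc
  rwa [map_zero, zero_mul, add_zero, ← pow_mul] at h3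

/-- `x ≡ 1 mod π^e₁` (i.e. mod `λ`) implies `x^p ≡ 1 mod π^(e₁ p)` (i.e. mod `λ^p`). -/
theorem Dp.exists_pow_p_pi (hp : p.Prime) (hp2 : p ≠ 2) (hA : A.LiesOverPrime p)
    (hζ : IsPrimitiveRoot ζ p) (hπ0 : π ≠ 0) (hπ : π ∈ A.nonunits) (hl : LamPi A ζ π e₁) {j₀ : ℕ}
    (h2 : e₁ ≤ j₀) {x : LaurentSeries L} {a : LaurentSeries (kk A)}
    (h : Dp A (π ^ j₀) x a) : ∃ b, Dp A (π ^ (e₁ * p)) (x ^ p) b := by
  have : NeZero p := ⟨hp.ne_zero⟩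
  have := GR.charP_residueField hp hA
  have : ExpChar (kk A) p := ExpChar.prime hp
  have he1 := hl.one_le hp hA hζ
  obtain ⟨u, ub, hu, hub, hlam⟩ := hl
  have hu0 := CorePi_ne_zero_of_cRed hu hub
  obtain ⟨d, rfl⟩ := Nat.exists_eq_add_of_le h2
  have h1 : Dp A (π ^ e₁) x (HahnSeries.C ((0 : kk A) ^ d) * a) :=
    h.rescale (pow_ne_zero _ hπ0) ((cRed_zero_iff.mpr hπ).pow d) (by rw [_root_.pow_add, mul_comm])
  have hc : CRed A ((p : L) / (π ^ e₁) ^ (p - 1)) (-1 * ub ^ (p - 1)) := by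
    have h3 := (cRed_p_div_lam hp hp2 hA hζ).mul (hu.pow (p - 1))
    have h4 : (p : L) / (π ^ e₁) ^ (p - 1) = (p : L) / lam ζ ^ (p - 1) * u ^ (p - 1) := by
      rw [hlam, mul_pow]
      field_simp
    rw [h4]
    exact h3
  have h5 := h1.pow_p_shallow hp hA (pow_ne_zero _ hπ0)
    (CorePi_pow_mem_nonunits hπ (by omega)) hc
  rw [← pow_mul] at h5
  exact ⟨_, h5⟩

/-- `λ^p` is deeper than `π^j` for `j < e₁ p`. -/
theorem Dp.pi_of_lam_pow (hπ0 : π ≠ 0) (hπ : π ∈ A.nonunits) (hl : LamPi A ζ π e₁) {j : ℕ}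
    (hj : j < e₁ * p) {x : LaurentSeries L} {a : LaurentSeries (kk A)}
    (h : Dp A (lam ζ ^ p) x a) : Dp A (π ^ j) x 0 := by
  obtain ⟨u, ub, hu, hub, hlam⟩ := hl
  have hu0 := CorePi_ne_zero_of_cRed hu hub
  obtain ⟨d, hd⟩ : ∃ d, e₁ * p = (d + 1) + j := ⟨e₁ * p - j - 1, by omega⟩
  refine h.of_deeper (c := u ^ p * π ^ (d + 1)) ?_
    (CorePi_mul_mem_nonunits (hu.pow p) (CorePi_pow_mem_nonunits hπ (Nat.succ_pos d))) ?_
  · rw [hlam]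
    exact pow_ne_zero _ (mul_ne_zero hu0 (pow_ne_zero _ hπ0))
  · rw [hlam, mul_pow, ← pow_mul, hd, _root_.pow_add, mul_assoc]

theorem Dp.lam_pow_of_pi (hπ0 : π ≠ 0) (hl : LamPi A ζ π e₁) {x : LaurentSeries L}
    {a : LaurentSeries (kk A)} (h : Dp A (π ^ (e₁ * p)) x a) : ∃ b, Dp A (lam ζ ^ p) x b := by
  obtain ⟨u, ub, hu, hub, hlam⟩ := hl
  exact ⟨_, h.rescale_unit (pow_ne_zero _ hπ0) (hu.pow p) (pow_ne_zero _ hub)
    (by rw [hlam, mul_pow, ← pow_mul])⟩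

theorem Dp.lam_pow_of_pi_lt (hπ0 : π ≠ 0) (hπ : π ∈ A.nonunits) (hl : LamPi A ζ π e₁) {j : ℕ}
    (hj : e₁ * p < j) {x : LaurentSeries L} {a : LaurentSeries (kk A)}
    (h : Dp A (π ^ j) x a) : Dp A (lam ζ ^ p) x 0 := by
  obtain ⟨u, ub, hu, hub, hlam⟩ := hl
  have hu0 := CorePi_ne_zero_of_cRed hu hub
  obtain ⟨d, hd⟩ : ∃ d, j = (d + 1) + e₁ * p := ⟨j - e₁ * p - 1, by omega⟩
  refine h.of_deeper (c := (u ^ p)⁻¹ * π ^ (d + 1)) (pow_ne_zero _ hπ0)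
    (CorePi_mul_mem_nonunits ((hu.pow p).inv (pow_ne_zero _ hub))
      (CorePi_pow_mem_nonunits hπ (Nat.succ_pos d))) ?_
  rw [hlam, mul_pow, ← pow_mul, hd, _root_.pow_add]
  field_simp

/-- shallower scale: `j ≤ j'`. -/
theorem Dp.pi_mono (hπ0 : π ≠ 0) (hπ : π ∈ A.nonunits) {j j' : ℕ} (hj : j < j')
    {x : LaurentSeries L} {a : LaurentSeries (kk A)} (h : Dp A (π ^ j') x a) :
    Dp A (π ^ j) x 0 := by
  obtain ⟨d, hd⟩ : ∃ d, j' = (d + 1) + j := ⟨j' - j - 1, by omega⟩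
  exact h.of_deeper (pow_ne_zero _ hπ0) (CorePi_pow_mem_nonunits hπ (Nat.succ_pos d))
    (by rw [hd, _root_.pow_add])

end Fermat.Agent.ORD.P2
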