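import Fermat.Agent.ORD.P2.CoreFE
import Fermat.Agent.ORD.P2.CoreWA
import Fermat.Agent.ORD.P2.CoreLift

/-!
# ORD / P2-G6 : (5)(B), stage 0: a generator which is `≡ 1 mod λ^p 𝔪` at `∞` and `≡ const` at `0`
-/

set_option autoImplicit false
noncomputable section

namespace Fermat.Agent.ORD.P2

open ModularCurve HahnSeries Fermat.Agent.GR

variable {K L : Type*} [Field K] [Field L] [Algebra K L] {A : ValuationSubring L}
variable {p : ℕ} [NeZero p] {ζ : Lˣ} {π : L} {e₁ : ℕ} {s : L ≃ₐ[K] L}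
variable {𝔽 : Type*} [Field 𝔽] {i₁ i₂ : 𝔽 →+* LaurentSeries L} {U : 𝔽 →* 𝔽}

theorem CoreStage0_hasRed_qExpand {x : LaurentSeries L} {z : LaurentSeries (kk A)}
    (h : HasRed A x z) : HasRed A (qExpand L p x) (qExpand (kk A) p z) :=
  h.map (qExpand A p) (qExpand L p) (qExpand (kk A) p) (map_mul _) (map_mul _)
    (fun y => GR.coeffMap_qExpand _ p y) (fun y => GR.coeffMap_qExpand _ p y)
    (fun w hw e => hw (qExpand_injective p (by rw [e, map_zero])))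

theorem CoreStage0_hasRed_iterate_qExpand (n : ℕ) {x : LaurentSeries L}
    {z : LaurentSeries (kk A)} (h : HasRed A x z) :
    HasRed A ((qExpand L p)^[n] x) ((qExpand (kk A) p)^[n] z) := by
  induction n with
  | zero => exact h
  | succ n ih =>
    rw [Function.iterate_succ_apply', Function.iterate_succ_apply']
    exact CoreStage0_hasRed_qExpand ih

theorem CoreStage0_iterate_qExpand_ne_zero {k : Type*} [Field k] (n : ℕ) {w : LaurentSeries k}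
    (hw : w ≠ 0) : (qExpand k p)^[n] w ≠ 0 := by
  induction n with
  | zero => exact hw
  | succ n ih =>
    rw [Function.iterate_succ_apply']
    exact fun e => ih (qExpand_injective p (by rw [e, map_zero]))

/-- **stage 0.**
PROOF.  `h ≠ 0` (`Dp.ne_zero`).  `U^n h = κ h g^p`.  (1) `d₂.normalize`: `H = κ₀ h`, `i₂ H` has reduction `Hb ≠ 0`.  (2) `core_FE` (`ε = λ^p`) + `Dp.hasRed_one`: `i₂ (U^n h) / V^n (i₂ h) ≡ 1`;
`V^n (i₂ H) / i₂ H` has reduction `V^n Hb / Hb` (iterate `HasRed.map` for `qExpand`, or `TOR.GBB.hasRed_qExpand`-like lemma: prove it here); `core_FE_eq`: `i₂ (κ g^p)` has reduction `z = V^n Hb / Hb ≠ 0`.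
(3) `d₂.normalize_root'`: `G = κ₁ g`, reduction `Gb ≠ 0`, `κ₂ = κ/κ₁^p` has reduction `C cb`, `z = C cb * Gb^p`, i.e. `V^n Hb = C cb * Gb^p * Hb`.
(4) `exists_pth_root_lift_mul` (for `i₂`): `y`, `yb ≠ 0`, `κ₂ H / y^p ≡ 1` at `0`.  (5) `CD.exists_Y` with `j₀ = 0`, `Ψ = y⁻¹ - 1` (reduction `yb⁻¹ - 1`): `Y`, `i₂ Y` has reduction `yb⁻¹` (`Dp A (π^0)` unfolds
to `HasRed A ((i₂ Y - 1)/C 1) _`), so `i₂ (Y y) ≡ 1`.  (6) `h' = h Y^p`, `κ' = κ₂ κ₀`: `i₂ (κ' h') = i₂ (κ₂ H / y^p) * i₂ (Y y)^p ≡ 1`;  `i₁ h' = i₁ h * i₁ (Y^p)`: `Dp.mul`. -/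
theorem core_stage0 (hp : p.Prime) (hp2 : p ≠ 2) (hA : A.LiesOverPrime p)
    (hζ : IsPrimitiveRoot ζ p) (CD : CoreData A p ζ π e₁ i₁ i₂ U) (S : FrobOn A p s i₂) {n : ℕ}
    (hn : 1 ≤ n) {h : 𝔽} (h1 : Dp A (lam ζ ^ p) (i₁ h) 0) (hU : UFix p i₁ U n h) :
    ∃ h' κ' : 𝔽, SameCl p i₁ h h' ∧ Dp A (lam ζ ^ p) (i₁ h') 0 ∧ κ' ≠ 0 ∧ IsC i₁ κ' ∧
      HasRed A (i₂ (κ' * h')) 1 := by
  have := GR.charP_residueField hp hA
  have : ExpChar (kk A) p := ExpChar.prime hp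
  have hl0 : lam ζ ≠ 0 := lam_ne_zero hp hζ
  have hlm : lam ζ ∈ A.nonunits := lam_mem_nonunits hp hA hζ.pow_eq_one
  have hε : lam ζ ^ p ≠ 0 := pow_ne_zero _ hl0
  have hm : lam ζ ^ p ∈ A.nonunits := LamDp_pow_mem_nonunits hlm hp.ne_zero
  have hh0 : h ≠ 0 := by
    rintro rfl
    exact (h1.ne_zero hε hm) (map_zero _)
  obtain ⟨κ, g, hκ, hUeq⟩ := hU
  -- (1)
  obtain ⟨κ₀, Hb, hκ₀, hcκ₀, hHb, hH⟩ := CD.d₂.normalize hh0
  have hcκ₀' : IsC i₁ κ₀ := (CD.isC_iff κ₀).mpr hcκ₀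
  -- (2)
  have hFE := (core_FE hp hA hζ CD hε hm h1 n).hasRed_one hε hm
  have hV := CoreStage0_hasRed_iterate_qExpand (p := p) n hH
  have hVdiv := hV.div hH hHb
  have heq := core_FE_eq CD hh0 hκ₀ hcκ₀' hUeq
  have hz : HasRed A (i₂ (κ * g ^ p)) ((qExpand (kk A) p)^[n] Hb / Hb) := by
    rw [heq]
    have := hFE.mul hVdiv
    rwa [one_mul] at this
  have hz0 : (qExpand (kk A) p)^[n] Hb / Hb ≠ 0 :=
    div_ne_zero (CoreStage0_iterate_qExpand_ne_zero n hHb) hHb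
  -- (3)
  obtain ⟨κ₁, Gb, cb, hκ₁, hcκ₁, hGb, hcb, hG, hκ₂, hzeq⟩ :=
    CD.d₂.normalize_root' ((CD.isC_iff κ).mp hκ) hz0 hz
  have hrel : (qExpand (kk A) p)^[n] Hb = HahnSeries.C cb * Gb ^ p * Hb := (div_eq_iff hHb).mp hzeq
  -- (4)
  obtain ⟨y, yb, hyb, hy, hy1⟩ := exists_pth_root_lift_mul S hn hH hHb hG hGb hκ₂ hcb hrel
  have hy0 : y ≠ 0 := by
    rintro rfl
    exact (hy.ne_zero hyb) (map_zero _)
  -- (5)
  have hΨ : HasRed A (i₂ (y⁻¹ - 1)) (yb⁻¹ - 1) := by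
    rw [map_sub, map_inv₀, map_one]
    exact hasRed_sub' (hy.inv hyb) HasRed.one
  obtain ⟨Y, hY0, hY1, hY2⟩ := CD.exists_Y hp hp2 hA hζ 0 hΨ
  have hY : HasRed A (i₂ Y) yb⁻¹ := by
    unfold Dp at hY2
    rw [pow_zero, map_one, div_one] at hY2
    have := hY2.add HasRed.one
    rwa [sub_add_cancel, sub_add_cancel] at this
  have hYy : HasRed A (i₂ (Y * y)) 1 := by
    rw [map_mul]
    have := hY.mul hy
    rwa [inv_mul_cancel₀ hyb] at this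
  -- (6)
  have hκ₂0 : κ / κ₁ ^ p ≠ 0 := by
    intro h0
    have hC : (HahnSeries.C cb : LaurentSeries (kk A)) ≠ 0 := C_ne_zero' hcb
    apply hκ₂.ne_zero hC
    rw [h0, map_zero]
  refine ⟨h * Y ^ p, κ / κ₁ ^ p * κ₀, SameCl.of_pow i₁ hY0 h, ?_, mul_ne_zero hκ₂0 hκ₀,
    (hκ.div (((CD.isC_iff κ₁).mpr hcκ₁).pow p)).mul hcκ₀', ?_⟩
  · rw [map_mul]
    have := h1.mul hε hm hY1
    rwa [add_zero] at this
  · have e : κ / κ₁ ^ p * κ₀ * (h * Y ^ p) = (κ / κ₁ ^ p * (κ₀ * h) / y ^ p) * (Y * y) ^ p := by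
      rw [mul_pow]
      field_simp
    rw [e, map_mul, map_pow]
    have := hy1.mul (hYy.pow p)
    rwa [one_pow, mul_one] at this

end Fermat.Agent.ORD.P2
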