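import Fermat.Agent.ORD.P2.FFDefs

/-!
# ORD / P2-E2 : small formal lemmas: characteristic `p` identities for Laurent series

Notation in the comments: `V = qExpand _ p` (`q ↦ q^p`), `Fr = coeffMap (frobenius k p)` (Frobenius on the coefficients).
Basic identity (`GR.pow_char_eq_qExpand`): `z ^ p = V (Fr z)`; `V` and `Fr` commute (`GR.coeffMap_qExpand`).
-/

set_option autoImplicit false
noncomputable section

namespace Fermat.Agent.ORD.P2

open ModularCurve HahnSeries Fermat.Agent.GR

/-! ### characteristic `p` -/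

section CharP

variable {k : Type*} [Field k] (p : ℕ) [NeZero p] [ExpChar k p]

/-- `Fr (V a) = a ^ p`. -/
theorem frob_qExpand (a : LaurentSeries k) :
    coeffMap (frobenius k p) (qExpand k p a) = a ^ p := by
  rw [GR.coeffMap_qExpand, ← pow_char_eq_qExpand]

/-- `Fr^n (V^n a) = a ^ (p ^ n)`. -/
theorem iterate_frob_iterate_qExpand (n : ℕ) (a : LaurentSeries k) :
    (coeffMap (frobenius k p))^[n] ((qExpand k p)^[n] a) = a ^ (p ^ n) := by
  induction n with
  | zero => simp
  | succ n ih =>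
    rw [Function.iterate_succ_apply, Function.iterate_succ_apply', frob_qExpand,
      iterate_map_pow, ih, ← pow_mul, pow_succ]

theorem smallP_frob_C (c : k) :
    coeffMap (frobenius k p) (HahnSeries.C c) = HahnSeries.C (c ^ p) := by
  show coeffMap (frobenius k p) (HahnSeries.single 0 c) = HahnSeries.single 0 (c ^ p)
  rw [coeffMap_single, frobenius_def]

theorem iterate_frob_C (n : ℕ) (c : k) :
    (coeffMap (frobenius k p))^[n] (HahnSeries.C c) = HahnSeries.C (c ^ (p ^ n)) := by
  induction n with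
  | zero => simp
  | succ n ih =>
    rw [Function.iterate_succ_apply', ih, smallP_frob_C, ← pow_mul, pow_succ]

theorem iterate_frob_injective (n : ℕ) :
    Function.Injective ((coeffMap (frobenius k p))^[n] : LaurentSeries k → LaurentSeries k) :=
  (coeffMap_injective (frobenius_inj k p)).iterate n

theorem smallP_iterate_frob_coeff (n : ℕ) (a : LaurentSeries k) (m : ℤ) :
    ((coeffMap (frobenius k p))^[n] a).coeff m = a.coeff m ^ (p ^ n) := by
  induction n with
  | zero => simp
  | succ n ih =>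
    rw [Function.iterate_succ_apply', coeffMap_coeff, ih, frobenius_def, ← pow_mul, pow_succ]

omit [NeZero p] [ExpChar k p] in
theorem smallP_eq_C_of_coeff {a : LaurentSeries k} (h : ∀ m : ℤ, m ≠ 0 → a.coeff m = 0) :
    ∃ c' : k, a = HahnSeries.C c' := by
  refine ⟨a.coeff 0, ?_⟩
  ext m
  by_cases hm : m = 0
  · subst hm
    exact (HahnSeries.coeff_single_same (0 : ℤ) (a.coeff 0)).symm
  · rw [h m hm]
    exact (HahnSeries.coeff_single_of_ne hm).symm

omit [NeZero p] [ExpChar k p] in
theorem smallP_coeff_C_of_ne (c : k) {m : ℤ} (hm : m ≠ 0) :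
    (HahnSeries.C c : LaurentSeries k).coeff m = 0 :=
  HahnSeries.coeff_single_of_ne hm

/-- coefficientwise: `a_m ^ (p^n) = 0` for `m ≠ 0`. -/
theorem iterate_frob_eq_C {n : ℕ} {a : LaurentSeries k} {c : k}
    (h : (coeffMap (frobenius k p))^[n] a = HahnSeries.C c) : ∃ c' : k, a = HahnSeries.C c' := by
  refine smallP_eq_C_of_coeff fun m hm => ?_
  have h1 : ((coeffMap (frobenius k p))^[n] a).coeff m = (HahnSeries.C c : LaurentSeries k).coeff m := by
    rw [h]
  rw [smallP_iterate_frob_coeff, smallP_coeff_C_of_ne c hm] at h1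
  exact pow_eq_zero_iff (pow_ne_zero _ (NeZero.ne p)) |>.mp h1

/-- `a ^ p = V (Fr a)` constant ⇒ `a` constant. -/
theorem pow_p_eq_C {a : LaurentSeries k} {c : k} (h : a ^ p = HahnSeries.C c) :
    ∃ c' : k, a = HahnSeries.C c' := by
  refine smallP_eq_C_of_coeff fun m hm => ?_
  rw [pow_char_eq_qExpand] at h
  have h1 : (qExpand k p (coeffMap (frobenius k p) a)).coeff ((p : ℤ) * m)
      = (HahnSeries.C c : LaurentSeries k).coeff ((p : ℤ) * m) := by
    rw [h]
  have hpm : (p : ℤ) * m ≠ 0 := mul_ne_zero (by exact_mod_cast NeZero.ne p) hm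
  rw [qExpand_coeff_mul, coeffMap_coeff, frobenius_def, smallP_coeff_C_of_ne c hpm] at h1
  exact pow_eq_zero_iff (NeZero.ne p) |>.mp h1

omit [ExpChar k p] in
theorem smallP_qExpand_injective : Function.Injective (qExpand k p) := by
  intro a b h
  ext m
  rw [← qExpand_coeff_mul p a m, h, qExpand_coeff_mul]

/-- `a ^ (p^n) = 1 ⇒ a = 1`. -/
theorem eq_one_of_pow_p_pow {n : ℕ} {a : LaurentSeries k} (h : a ^ (p ^ n) = 1) : a = 1 := by
  have h1 : (coeffMap (frobenius k p))^[n] ((qExpand k p)^[n] a)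
      = (coeffMap (frobenius k p))^[n] ((qExpand k p)^[n] 1) := by
    rw [iterate_frob_iterate_qExpand, iterate_frob_iterate_qExpand, h, one_pow]
  exact (smallP_qExpand_injective p).iterate n (iterate_frob_injective p n h1)

omit [NeZero p] [ExpChar k p] in
theorem smallP_qExpand_congr {M N : ℕ} [NeZero M] [NeZero N] (h : M = N) (a : LaurentSeries k) :
    qExpand k M a = qExpand k N a := by
  subst h
  rfl

omit [ExpChar k p] in
theorem smallP_iterate_qExpand (n : ℕ) (a : LaurentSeries k) :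
    (qExpand k p)^[n] a = qExpand k (p ^ n) a := by
  induction n with
  | zero =>
    ext m
    have := qExpand_coeff_mul (p ^ 0) a m
    have h1 : ((p ^ 0 : ℕ) : ℤ) * m = m := by simp
    rw [h1] at this
    rw [Function.iterate_zero, id]
    exact this.symm
  | succ n ih =>
    rw [Function.iterate_succ_apply', ih, qExpand_qExpand]
    exact smallP_qExpand_congr (by rw [pow_succ, mul_comm]) a

omit [NeZero p] [ExpChar k p] in
/-- the coefficient lemma for `q ↦ q ^ N`, `N ≥ 2`. -/
theorem smallP_qExpand_sub_eq_C {N : ℕ} [NeZero N] (hN : 2 ≤ N) {a : LaurentSeries k} {c : k}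
    (h : qExpand k N a - a = HahnSeries.C c) : ∃ c' : k, a = HahnSeries.C c' := by
  have hrel : ∀ j : ℤ, j ≠ 0 → (qExpand k N a).coeff j = a.coeff j := by
    intro j hj
    have h1 : (qExpand k N a - a).coeff j = (HahnSeries.C c : LaurentSeries k).coeff j := by
      rw [h]
    rw [HahnSeries.coeff_sub, smallP_coeff_C_of_ne c hj] at h1
    exact sub_eq_zero.mp h1
  have hN0 : (N : ℤ) ≠ 0 := by exact_mod_cast NeZero.ne N
  have hN2 : (2 : ℤ) ≤ N := by exact_mod_cast hN
  have R1 : ∀ m : ℤ, m ≠ 0 → a.coeff ((N : ℤ) * m) = a.coeff m := by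
    intro m hm
    rw [← hrel _ (mul_ne_zero hN0 hm), qExpand_coeff_mul]
  have R2 : ∀ j : ℤ, ¬ (N : ℤ) ∣ j → a.coeff j = 0 := by
    intro j hj
    have hj0 : j ≠ 0 := by
      rintro rfl
      exact hj (dvd_zero _)
    rw [← hrel j hj0, qExpand_coeff_of_not_dvd N a hj]
  by_cases ha : a = 0
  · exact ⟨0, by rw [ha, map_zero]⟩
  -- the order is nonnegative
  have ho : 0 ≤ a.order := by
    by_contra hneg
    rw [not_le] at hneg
    have h1 : a.coeff a.order ≠ 0 := fun h0 => ha (HahnSeries.coeff_order_eq_zero.mp h0)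
    have h2 : (N : ℤ) * a.order < a.order := by nlinarith
    exact h1 (by rw [← R1 _ hneg.ne, HahnSeries.coeff_eq_zero_of_lt_order h2])
  -- positive indices
  have hpos : ∀ m : ℕ, 0 < m → a.coeff (m : ℤ) = 0 := by
    intro m
    induction m using Nat.strong_induction_on with
    | _ m ih =>
      intro hm
      by_cases hd : N ∣ m
      · obtain ⟨m', rfl⟩ := hd
        have hm' : 0 < m' := Nat.pos_of_ne_zero (by rintro rfl; simp at hm)
        have hlt : m' < N * m' := by nlinarith
        rw [Nat.cast_mul, R1 _ (by exact_mod_cast hm'.ne'), ih m' hlt hm']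
      · exact R2 _ (by exact_mod_cast hd)
  refine smallP_eq_C_of_coeff fun m hm => ?_
  rcases lt_or_gt_of_ne hm with h1 | h1
  · exact HahnSeries.coeff_eq_zero_of_lt_order (lt_of_lt_of_le h1 ho)
  · obtain ⟨m', rfl⟩ := Int.eq_ofNat_of_zero_le h1.le
    exact hpos m' (by exact_mod_cast h1)

/-- **coefficient lemma**: `a(q^(p^n)) - a(q)` constant, `n ≥ 1`, `p ≥ 2` ⇒ `a` constant.
PROOF: `N = p^n ≥ 2`, `V^n = qExpand k N` (`qExpand_qExpand`).  If `a` has a nonzero coefficient of negative index, let `m = a.order < 0`: the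
coefficient of index `N m < m` of `V^n a - a` is `a_m ≠ 0`, and `N m ≠ 0`.  Otherwise let `m > 0` be minimal with `a_m ≠ 0`: the coefficient of
index `m` of `V^n a - a` is `a_{m/N} - a_m = - a_m ≠ 0` (`0 < m/N < m`) resp. `- a_m` if `N ∤ m`. -/
theorem iterate_qExpand_sub_eq_C (hp : 2 ≤ p) {n : ℕ} (hn : 1 ≤ n) {a : LaurentSeries k} {c : k}
    (h : (qExpand k p)^[n] a - a = HahnSeries.C c) : ∃ c' : k, a = HahnSeries.C c' := by
  rw [smallP_iterate_qExpand] at h
  refine smallP_qExpand_sub_eq_C (N := p ^ n) ?_ h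
  calc 2 ≤ p := hp
    _ = p ^ 1 := (pow_one p).symm
    _ ≤ p ^ n := Nat.pow_le_pow_right (by omega) hn

theorem smallP_sub_pow (x y : LaurentSeries k) : (x - y) ^ p = x ^ p - y ^ p := by
  rw [pow_char_eq_qExpand, pow_char_eq_qExpand p x, pow_char_eq_qExpand p y, map_sub, map_sub]

/-- **Artin–Schreier descent without inverse Frobenius**: `V a = c + e^p - e ⇒ a = c^p + ψ^p - ψ`, `ψ = Fr e - a`.
PROOF: apply `Fr`: `a^p - (Fr e)^p + Fr e = c^p`; `ψ^p = (Fr e)^p - a^p` (`sub_pow_expChar`/`sub_pow_char`). -/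
theorem as_descent {a e : LaurentSeries k} {c : k}
    (h : qExpand k p a - (e ^ p - e) = HahnSeries.C c) :
    a = HahnSeries.C (c ^ p) +
      ((coeffMap (frobenius k p) e - a) ^ p - (coeffMap (frobenius k p) e - a)) := by
  have h1 := congrArg (coeffMap (frobenius k p)) h
  rw [map_sub, map_sub, map_pow, frob_qExpand, smallP_frob_C] at h1
  rw [smallP_sub_pow, ← h1]
  ring

/-- `V^n a - a = e^p + c ⇒ Fr^n a = (a^(p^(n-1)) - Fr^n e)^p - c^(p^n)`.  PROOF: apply `Fr^n`. -/
theorem pth_descent {n : ℕ} (hn : 1 ≤ n) {a e : LaurentSeries k} {c : k}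
    (h : (qExpand k p)^[n] a - a = e ^ p + HahnSeries.C c) :
    (coeffMap (frobenius k p))^[n] a =
      (a ^ (p ^ (n - 1)) - (coeffMap (frobenius k p))^[n] e) ^ p - HahnSeries.C (c ^ (p ^ n)) := by
  have h1 := congrArg ((coeffMap (frobenius k p))^[n]) h
  rw [iterate_map_sub, iterate_map_add, iterate_map_pow,
    iterate_frob_iterate_qExpand, iterate_frob_C] at h1
  have h2 : (a ^ (p ^ (n - 1))) ^ p = a ^ (p ^ n) := by
    rw [← pow_mul, ← pow_succ, Nat.sub_add_cancel hn]
  rw [smallP_sub_pow, h2]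
  linear_combination -h1

/-- multiplicative version: `V^n H = c G^p H ⇒ c^(p^n) (Fr^n G)^p Fr^n H = (H^(p^(n-1)))^p`. -/
theorem pth_descent_mul {n : ℕ} (hn : 1 ≤ n) {H G : LaurentSeries k} {c : k}
    (h : (qExpand k p)^[n] H = HahnSeries.C c * G ^ p * H) :
    HahnSeries.C (c ^ (p ^ n)) * ((coeffMap (frobenius k p))^[n] G) ^ p *
      (coeffMap (frobenius k p))^[n] H = (H ^ (p ^ (n - 1))) ^ p := by
  have h1 := congrArg ((coeffMap (frobenius k p))^[n]) h
  rw [iterate_map_mul, iterate_map_mul, iterate_map_pow,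
    iterate_frob_iterate_qExpand, iterate_frob_C] at h1
  rw [← h1, ← pow_mul, ← pow_succ, Nat.sub_add_cancel hn]

/-- `V H * Fr H = c G^p ⇒ H^p * Fr² H = c^p (Fr G)^p`. -/
theorem es_descent {H G : LaurentSeries k} {c : k}
    (h : qExpand k p H * coeffMap (frobenius k p) H = HahnSeries.C c * G ^ p) :
    H ^ p * coeffMap (frobenius k p) (coeffMap (frobenius k p) H) =
      HahnSeries.C (c ^ p) * (coeffMap (frobenius k p) G) ^ p := by
  have h1 := congrArg (coeffMap (frobenius k p)) h
  rw [map_mul, map_mul, map_pow, frob_qExpand, smallP_frob_C] at h1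
  exact h1

end CharP

end Fermat.Agent.ORD.P2
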