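import Fermat.Agent.ORD.P2.Small
import Fermat.Agent.ORD.P2.SmallP

/-!
# ORD / P2-E3 : consequences of discreteness (`Disc A π i`)

All proofs: work with elements of `𝔽` (`ϖ` with `i ϖ = C π`), push `i` through (`map_mul`, `map_div₀`, `map_pow`, `map_sub`, …) and use the `HasRed`/`Dp` API.
-/

set_option autoImplicit false
noncomputable section

namespace Fermat.Agent.ORD.P2

open ModularCurve HahnSeries Fermat.Agent.GR

variable {L : Type*} [Field L] {A : ValuationSubring L}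
variable {𝔽 : Type*} [Field 𝔽] {π : L} {i : 𝔽 →+* LaurentSeries L}

theorem DiscLemmas_pi_ne (D : Disc A π i) {ϖ : 𝔽} (hϖ : i ϖ = HahnSeries.C π) : ϖ ≠ 0 := by
  rintro rfl
  rw [map_zero] at hϖ
  exact C_ne_zero' D.pi_ne hϖ.symm

theorem DiscLemmas_pow_mem (D : Disc A π i) {j : ℕ} (hj : 1 ≤ j) : π ^ j ∈ A.nonunits := by
  have := (cRed_zero_iff.mpr D.pi_mem).pow j
  rw [zero_pow (by omega)] at this
  exact cRed_zero_iff.mp this

/-- normalisation by a constant. (`κ = ϖ ^ n`.) -/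
theorem Disc.normalize (D : Disc A π i) {x : 𝔽} (hx : x ≠ 0) :
    ∃ (κ : 𝔽) (z : LaurentSeries (kk A)), κ ≠ 0 ∧ IsC i κ ∧ z ≠ 0 ∧ HasRed A (i (κ * x)) z := by
  obtain ⟨ϖ, hϖ⟩ := D.exists_pi
  obtain ⟨n, z, hz, hred⟩ := D.norm x hx
  refine ⟨ϖ ^ n, z, zpow_ne_zero _ (DiscLemmas_pi_ne D hϖ), IsC.zpow ⟨π, hϖ⟩ n, hz, ?_⟩
  rw [map_mul, map_zpow₀, hϖ, mul_comm]
  exact hred

/-- PROOF: `x = 0` trivial.  Otherwise `i x * C π ^ n` has reduction `z ≠ 0`.  If `n ≥ 0` then `i x * C π ^ n` has reduction `0 * _ = 0` (`HasRed.mul`,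
`CRed`), contradiction with `HasRed.unique`.  So `n = -(m+1)` and `i x / C π = (i x * C π ^ n) * C π ^ m`. -/
theorem Disc.div_pi (D : Disc A π i) {x : 𝔽} (h : HasRed A (i x) 0) :
    ∃ z : LaurentSeries (kk A), HasRed A (i x / HahnSeries.C π) z := by
  rcases eq_or_ne x 0 with rfl | hx
  · exact ⟨0, by rw [map_zero, zero_div]; exact hasRed_zero'⟩
  obtain ⟨n, z, hz, hred⟩ := D.norm x hx
  have hC : (HahnSeries.C π : LaurentSeries L) ≠ 0 := C_ne_zero' D.pi_ne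
  have hpow : ∀ m : ℕ, HasRed A ((HahnSeries.C π : LaurentSeries L) ^ m)
      ((HahnSeries.C (0 : kk A) : LaurentSeries (kk A)) ^ m) :=
    fun m => (cRed_zero_iff.mpr D.pi_mem).hasRed.pow m
  rcases le_or_gt 0 n with hn | hn
  · exfalso
    obtain ⟨m, rfl⟩ := Int.eq_ofNat_of_zero_le hn
    rw [zpow_natCast] at hred
    have h2 := h.mul (hpow m)
    rw [zero_mul] at h2
    exact hz (hred.unique h2)
  · obtain ⟨m, rfl⟩ : ∃ m : ℕ, n = -((m : ℤ) + 1) := ⟨(-n - 1).toNat, by omega⟩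
    have h2 := hred.mul (hpow m)
    have e : i x * (HahnSeries.C π : LaurentSeries L) ^ (-((m : ℤ) + 1)) *
        (HahnSeries.C π : LaurentSeries L) ^ m = i x / HahnSeries.C π := by
      rw [zpow_neg, ← Nat.cast_succ, zpow_natCast, pow_succ]
      field_simp
    rw [e] at h2
    exact ⟨_, h2⟩

theorem Disc.dp_of_hasRed_one (D : Disc A π i) {x : 𝔽} (h : HasRed A (i x) 1) :
    ∃ a : LaurentSeries (kk A), Dp A π (i x) a := by
  have h1 : HasRed A (i (x - 1)) 0 := by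
    have := hasRed_sub' h HasRed.one
    rwa [sub_self, ← map_one i, ← map_sub] at this
  obtain ⟨z, hz⟩ := D.div_pi h1
  refine ⟨z, ?_⟩
  unfold Dp
  rwa [map_sub, map_one] at hz

/-- (apply `div_pi` to `(x - 1) / ϖ ^ j`.) -/
theorem Disc.deepen (D : Disc A π i) {x : 𝔽} {j : ℕ} (h : Dp A (π ^ j) (i x) 0) :
    ∃ a : LaurentSeries (kk A), Dp A (π ^ (j + 1)) (i x) a := by
  obtain ⟨ϖ, hϖ⟩ := D.exists_pi
  have h1 : HasRed A (i ((x - 1) / ϖ ^ j)) 0 := by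
    rw [map_div₀, map_sub, map_one, map_pow, hϖ, ← map_pow]
    exact h
  obtain ⟨z, hz⟩ := D.div_pi h1
  refine ⟨z, ?_⟩
  unfold Dp
  rw [map_div₀, map_sub, map_one, map_pow, hϖ, div_div, ← pow_succ, ← map_pow] at hz
  exact hz

/-- a constant leading term can be absorbed: `X = (x-1)/ϖ^j` reduces to `C cb`; `D.const` gives a constant `κ₀` of `𝔽` lifting `cb`;
`κ = (1 + ϖ^j κ₀)⁻¹`; `Dp.const`, `Dp.div`, `deepen`. -/
theorem Disc.improve_const (D : Disc A π i) {x : 𝔽} {j : ℕ} (hj : 1 ≤ j) {cb : kk A}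
    (h : Dp A (π ^ j) (i x) (HahnSeries.C cb)) :
    ∃ (κ : 𝔽) (a : LaurentSeries (kk A)), κ ≠ 0 ∧ IsC i κ ∧ Dp A (π ^ (j + 1)) (i (κ * x)) a := by
  obtain ⟨ϖ, hϖ⟩ := D.exists_pi
  have hε : π ^ j ≠ 0 := pow_ne_zero _ D.pi_ne
  have hm : π ^ j ∈ A.nonunits := DiscLemmas_pow_mem D hj
  have h1 : HasRed A (i ((x - 1) / ϖ ^ j)) (HahnSeries.C cb) := by
    rw [map_div₀, map_sub, map_one, map_pow, hϖ, ← map_pow]
    exact h
  obtain ⟨κ₀, c, hκ₀, hc⟩ := D.const _ cb h1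
  have hy : i (1 + ϖ ^ j * κ₀) = HahnSeries.C (1 + π ^ j * c) := by
    rw [map_add, map_one, map_mul, map_pow, hϖ, hκ₀, map_add, map_one, map_mul, map_pow]
  have hdy : Dp A (π ^ j) (i (1 + ϖ ^ j * κ₀)) (HahnSeries.C cb) := by
    rw [hy]
    exact Dp.const hε hc
  have hy0 : (1 + ϖ ^ j * κ₀) ≠ 0 := by
    intro h0
    have := hdy.ne_zero hε hm
    rw [h0, map_zero] at this
    exact this rfl
  have hdiv := h.div hε hm hdy
  rw [sub_self] at hdiv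
  have e : i ((1 + ϖ ^ j * κ₀)⁻¹ * x) = i x / i (1 + ϖ ^ j * κ₀) := by
    rw [map_mul, map_inv₀, div_eq_mul_inv, mul_comm]
  rw [← e] at hdiv
  obtain ⟨a, ha⟩ := D.deepen hdiv
  exact ⟨(1 + ϖ ^ j * κ₀)⁻¹, a, inv_ne_zero hy0, IsC.inv ⟨_, hy⟩, ha⟩

/-- variant with nonzero reductions: if `κ g^p` has a nonzero reduction `z`, then for some constants: `g₁ = κ₁ g` has reduction `gb ≠ 0` and `z = C cb * gb ^ p`,
where `cb` is the reduction of the constant `κ / κ₁ ^ p`.  (`[NeZero p]` is needed: `p = 0`, `g = 0` is a counterexample.) -/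
theorem Disc.normalize_root' {p : ℕ} [NeZero p] (D : Disc A π i) {κ g : 𝔽}
    (hκ : IsC i κ) {z : LaurentSeries (kk A)} (hz : z ≠ 0) (h : HasRed A (i (κ * g ^ p)) z) :
    ∃ (κ₁ : 𝔽) (gb : LaurentSeries (kk A)) (cb : kk A), κ₁ ≠ 0 ∧ IsC i κ₁ ∧ gb ≠ 0 ∧ cb ≠ 0 ∧
      HasRed A (i (κ₁ * g)) gb ∧ HasRed A (i (κ / κ₁ ^ p)) (HahnSeries.C cb) ∧
      z = HahnSeries.C cb * gb ^ p := by
  have hg : g ≠ 0 := by
    rintro rfl
    have := h.ne_zero hz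
    rw [zero_pow (NeZero.ne p), mul_zero, map_zero] at this
    exact this rfl
  obtain ⟨κ₁, gb, hκ₁, hcκ₁, hgb, hred⟩ := D.normalize hg
  have hgbp : gb ^ p ≠ 0 := pow_ne_zero _ hgb
  have hq : HasRed A (i (κ / κ₁ ^ p)) (z / gb ^ p) := by
    have h2 := h.div (hred.pow p) hgbp
    have e : i (κ * g ^ p) / i (κ₁ * g) ^ p = i (κ / κ₁ ^ p) := by
      rw [← map_pow, ← map_div₀]
      congr 1
      rw [mul_pow]
      field_simp
    rwa [e] at h2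
  obtain ⟨c, hc⟩ := hκ.div (hcκ₁.pow p)
  rw [hc] at hq
  obtain ⟨cb, hcb, hzc⟩ := hasRed_C_inv hq
  have hz' : z = HahnSeries.C cb * gb ^ p := by
    rw [← hzc, div_mul_cancel₀ _ hgbp]
  have hcb0 : cb ≠ 0 := by
    rintro rfl
    rw [map_zero, zero_mul] at hz'
    exact hz hz'
  refine ⟨κ₁, gb, cb, hκ₁, hcκ₁, hgb, hcb0, hred, ?_, hz'⟩
  rw [hc]
  exact hcb.hasRed

/-- **normalisation of a `p`-th root**: if `κ g^p ≡ 1` then `κ₁ g ≡ 1` for a constant `κ₁`.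
PROOF: `g ≠ 0`; `normalize`: `g₁ = κ₀ g` has reduction `gb ≠ 0`; the constant `κ / κ₀^p = (κ g^p) / g₁^p` has reduction `1 / gb^p`, which is a constant
(`hasRed_C_inv`); so `gb^p` is a constant, `gb = C d` (`pow_p_eq_C`), `d ≠ 0`; `D.const` (applied to `g₁`) lifts `d` to a constant `κ₂`; `κ₁ = κ₀ / κ₂`. -/
theorem Disc.normalize_root {p : ℕ} [NeZero p] [ExpChar (kk A) p] (D : Disc A π i) {κ g : 𝔽}
    (hκ : IsC i κ) (h : HasRed A (i (κ * g ^ p)) 1) :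
    ∃ κ₁ : 𝔽, κ₁ ≠ 0 ∧ IsC i κ₁ ∧ HasRed A (i (κ₁ * g)) 1 := by
  obtain ⟨κ₀, gb, cb, hκ₀, hcκ₀, hgb, hcb, hred, -, hz⟩ := D.normalize_root' hκ one_ne_zero h
  have hCcb : (HahnSeries.C cb : LaurentSeries (kk A)) ≠ 0 := by
    intro h0
    rw [h0, zero_mul] at hz
    exact one_ne_zero hz
  have hgbp : gb ^ p = HahnSeries.C cb⁻¹ := by
    rw [map_inv₀]
    exact eq_inv_of_mul_eq_one_right hz.symm
  obtain ⟨d, rfl⟩ := pow_p_eq_C p hgbp
  obtain ⟨κ₂, c, hκ₂, hc⟩ := D.const _ d hred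
  have hκ₂0 : κ₂ ≠ 0 := by
    rintro rfl
    rw [map_zero] at hκ₂
    have hc0 : c = 0 := by
      by_contra hne
      exact C_ne_zero' hne hκ₂.symm
    rw [hc0] at hc
    have := hc.unique CRed.zero
    rw [this, map_zero] at hgb
    exact hgb rfl
  refine ⟨κ₀ / κ₂, div_ne_zero hκ₀ hκ₂0, hcκ₀.div ⟨c, hκ₂⟩, ?_⟩
  have h2 := hred.div hc.hasRed hgb
  rw [div_self hgb, ← hκ₂, ← map_div₀] at h2
  have e : κ₀ * g / κ₂ = κ₀ / κ₂ * g := by ring
  rwa [e] at h2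

end Fermat.Agent.ORD.P2
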