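import Fermat.Agent.ORD.P2.Defs

/-!
# ORD / P2-E0 : abstract "function fields with expansions".  Definitions (no sorry).

`𝔽` is a field with a ring homomorphism `i : 𝔽 →+* L((q))` (the `q`-expansion).  `A` is a valuation subring of `L`.
* `IsC i κ`    : `κ` is a constant (its expansion is a constant series).
* `Disc A π i` : the Gauss valuation is discrete on `𝔽`, with uniformiser the constant `π`, and constants which are reductions of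
  elements of `𝔽` lift to constants of `𝔽`.
* `FrobOn A p s i` : `s` is a Frobenius element at `A`, and `s`, `s⁻¹` (acting on coefficients) preserve `𝔽`.
* `SameCl p i h h'` : `h' = κ h y ^ p` (same Kummer class).
-/

set_option autoImplicit false
noncomputable section

namespace Fermat.Agent.ORD.P2

open ModularCurve HahnSeries Fermat.Agent.GR

variable {K L : Type*} [Field K] [Field L] [Algebra K L] (A : ValuationSubring L)
variable {𝔽 : Type*} [Field 𝔽]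

/-- `κ` is a constant. -/
def IsC (i : 𝔽 →+* LaurentSeries L) (κ : 𝔽) : Prop := ∃ c : L, i κ = HahnSeries.C c

/-- the Gauss valuation on `𝔽` is discrete with uniformiser `π`. -/
structure Disc (π : L) (i : 𝔽 →+* LaurentSeries L) : Prop where
  pi_ne : π ≠ 0
  pi_mem : π ∈ A.nonunits
  exists_pi : ∃ ϖ : 𝔽, i ϖ = HahnSeries.C π
  norm : ∀ x : 𝔽, x ≠ 0 → ∃ (n : ℤ) (z : LaurentSeries (kk A)), z ≠ 0 ∧
    HasRed A (i x * HahnSeries.C π ^ n) z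
  const : ∀ (x : 𝔽) (cb : kk A), HasRed A (i x) (HahnSeries.C cb) →
    ∃ (κ : 𝔽) (c : L), i κ = HahnSeries.C c ∧ CRed A c cb

/-- `s` is a Frobenius element at `A` and `𝔽` is stable under `s`, `s⁻¹`. -/
structure FrobOn (p : ℕ) (s : L ≃ₐ[K] L) (i : 𝔽 →+* LaurentSeries L) : Prop where
  frob : A.IsFrobeniusAt s p
  lift : ∀ x : 𝔽, ∃ x' : 𝔽, i x' = coeffMap (s : L →+* L) (i x)
  lift_symm : ∀ x : 𝔽, ∃ x' : 𝔽, i x' = coeffMap (s.symm : L →+* L) (i x)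

/-- `h'` and `h` generate the same class: `h' = κ h y ^ p`. -/
def SameCl (p : ℕ) (i : 𝔽 →+* LaurentSeries L) (h h' : 𝔽) : Prop :=
  ∃ κ y : 𝔽, κ ≠ 0 ∧ y ≠ 0 ∧ IsC i κ ∧ h' = κ * h * y ^ p

variable {A}

theorem IsC.one (i : 𝔽 →+* LaurentSeries L) : IsC i 1 := ⟨1, by rw [map_one, map_one]⟩

theorem IsC.mul {i : 𝔽 →+* LaurentSeries L} {κ κ' : 𝔽} (h : IsC i κ) (h' : IsC i κ') :
    IsC i (κ * κ') := by
  obtain ⟨c, hc⟩ := h
  obtain ⟨c', hc'⟩ := h'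
  exact ⟨c * c', by rw [map_mul, map_mul, hc, hc']⟩

theorem IsC.add {i : 𝔽 →+* LaurentSeries L} {κ κ' : 𝔽} (h : IsC i κ) (h' : IsC i κ') :
    IsC i (κ + κ') := by
  obtain ⟨c, hc⟩ := h
  obtain ⟨c', hc'⟩ := h'
  exact ⟨c + c', by rw [map_add, map_add, hc, hc']⟩

theorem IsC.pow {i : 𝔽 →+* LaurentSeries L} {κ : 𝔽} (h : IsC i κ) (n : ℕ) : IsC i (κ ^ n) := by
  obtain ⟨c, hc⟩ := h
  exact ⟨c ^ n, by rw [map_pow, map_pow, hc]⟩

theorem IsC.inv {i : 𝔽 →+* LaurentSeries L} {κ : 𝔽} (h : IsC i κ) : IsC i κ⁻¹ := by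
  obtain ⟨c, hc⟩ := h
  exact ⟨c⁻¹, by rw [map_inv₀, map_inv₀, hc]⟩

theorem IsC.div {i : 𝔽 →+* LaurentSeries L} {κ κ' : 𝔽} (h : IsC i κ) (h' : IsC i κ') :
    IsC i (κ / κ') := by
  rw [div_eq_mul_inv]; exact h.mul h'.inv

theorem IsC.zpow {i : 𝔽 →+* LaurentSeries L} {κ : 𝔽} (h : IsC i κ) (n : ℤ) : IsC i (κ ^ n) := by
  obtain ⟨c, hc⟩ := h
  exact ⟨c ^ n, by rw [map_zpow₀, map_zpow₀, hc]⟩

theorem SameCl.refl (p : ℕ) (i : 𝔽 →+* LaurentSeries L) (h : 𝔽) : SameCl p i h h :=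
  ⟨1, 1, one_ne_zero, one_ne_zero, IsC.one i, by rw [one_pow, one_mul, mul_one]⟩

theorem SameCl.trans {p : ℕ} {i : 𝔽 →+* LaurentSeries L} {h h' h'' : 𝔽} (h1 : SameCl p i h h')
    (h2 : SameCl p i h' h'') : SameCl p i h h'' := by
  obtain ⟨κ, y, hκ, hy, hc, rfl⟩ := h1
  obtain ⟨κ', y', hκ', hy', hc', rfl⟩ := h2
  exact ⟨κ' * κ, y * y', mul_ne_zero hκ' hκ, mul_ne_zero hy hy', hc'.mul hc, by rw [mul_pow]; ring⟩

theorem SameCl.of_const {p : ℕ} {i : 𝔽 →+* LaurentSeries L} {κ : 𝔽} (hκ : κ ≠ 0) (hc : IsC i κ)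
    (h : 𝔽) : SameCl p i h (κ * h) :=
  ⟨κ, 1, hκ, one_ne_zero, hc, by rw [one_pow, mul_one]⟩

theorem SameCl.of_pow {p : ℕ} (i : 𝔽 →+* LaurentSeries L) {y : 𝔽} (hy : y ≠ 0) (h : 𝔽) :
    SameCl p i h (h * y ^ p) :=
  ⟨1, y, one_ne_zero, hy, IsC.one i, by rw [one_mul]⟩

theorem SameCl.ne_zero {p : ℕ} {i : 𝔽 →+* LaurentSeries L} {h h' : 𝔽} (h1 : SameCl p i h h')
    (h0 : h ≠ 0) : h' ≠ 0 := by
  obtain ⟨κ, y, hκ, hy, -, rfl⟩ := h1
  exact mul_ne_zero (mul_ne_zero hκ h0) (pow_ne_zero _ hy)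

end Fermat.Agent.ORD.P2
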