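import Fermat.Agent.ORD.P2.Comb

/-!
# ORD / P2-A2 : expansion of the multiplicative `U_p` operator `normU p ζ` on `Q + ε P`

Pure algebra: `R` is ANY commutative ring, `ζ : Rˣ` with `ζ ^ p = 1`.

`∏_b (Q_b + ε P_b) = ∑_S ε^{|S|} m_S`, `m_S = ∏_{b ∈ S} P_b ∏_{b ∉ S} Q_b` (`Finset.prod_add`), where `Y_b = Y(ζ^b q)`.
The shift `S ↦ S + 1` on subsets of `ℤ/p` corresponds to `qScale ζ`, and `qContract p ∘ qScale ζ = qContract p`.  So
`S ↦ qContract p m_S` is shift invariant and its sum over the subsets of cardinality `0 < i < p` is a multiple of `p`.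
-/

set_option autoImplicit false
noncomputable section

namespace Fermat.Agent.ORD.P2

open ModularCurve HahnSeries Fermat.Agent.GR

theorem NormU_prod_zmod {M : Type*} [CommMonoid M] (p : ℕ) [NeZero p] (f : ℕ → M) :
    ∏ b : ZMod p, f b.val = ∏ b ∈ Finset.range p, f b := by
  refine Finset.prod_nbij' (fun b => b.val) (fun n => (n : ZMod p)) ?_ ?_ ?_ ?_ ?_
  · intro b _; exact Finset.mem_range.mpr (ZMod.val_lt b)
  · intro n _; exact Finset.mem_univ _
  · intro b _; exact ZMod.natCast_zmod_val b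
  · intro n hn; exact ZMod.val_cast_of_lt (Finset.mem_range.mp hn)
  · intro b _; rfl

theorem NormU_prod_zmod_ne {M : Type*} [CommMonoid M] (p : ℕ) [NeZero p] (f : ℕ → M) :
    ∏ b ∈ (Finset.univ \ {0} : Finset (ZMod p)), f b.val = ∏ b ∈ Finset.Ico 1 p, f b := by
  refine Finset.prod_nbij' (fun b => b.val) (fun n => (n : ZMod p)) ?_ ?_ ?_ ?_ ?_
  · intro b hb
    have hb0 : b ≠ 0 := by simpa using hb
    have : b.val ≠ 0 := fun h => hb0 ((ZMod.val_eq_zero b).mp h)
    exact Finset.mem_Ico.mpr ⟨Nat.one_le_iff_ne_zero.mpr this, ZMod.val_lt b⟩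
  · intro n hn
    obtain ⟨h1, h2⟩ := Finset.mem_Ico.mp hn
    have : (n : ZMod p) ≠ 0 := by
      rw [Ne, ZMod.natCast_eq_zero_iff]
      exact Nat.not_dvd_of_pos_of_lt h1 h2
    simpa using this
  · intro b _; exact ZMod.natCast_zmod_val b
  · intro n hn; exact ZMod.val_cast_of_lt (Finset.mem_Ico.mp hn).2
  · intro b _; rfl

theorem NormU_qScale_C {R : Type*} [CommRing R] (c : Rˣ) (ε : R) :
    qScale c (HahnSeries.C ε : LaurentSeries R) = HahnSeries.C ε := by
  have h := qScale_single c 0 ε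
  simpa using h

theorem NormU_pow_val_add_one {R : Type*} [CommRing R] (p : ℕ) [NeZero p] {ζ : Rˣ}
    (hζ : ζ ^ p = 1) (b : ZMod p) : ζ ^ (b + 1).val = ζ * ζ ^ b.val := by
  rw [ZMod.val_add, ZMod.val_one_eq_one_mod, ← pow_eq_pow_mod _ hζ, _root_.pow_add,
    ← pow_eq_pow_mod _ hζ, pow_one, mul_comm]

/-- **expansion of `U_p (Q + ε P)`.** -/
theorem normU_add_C_mul {R : Type*} [CommRing R] (p : ℕ) [NeZero p] (hp : p.Prime) {ζ : Rˣ}
    (hζ : ζ ^ p = 1) (ε : R) (P Q : LaurentSeries R) :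
    ∃ W : LaurentSeries R, normU p ζ (Q + HahnSeries.C ε * P) =
      normU p ζ Q + HahnSeries.C (ε ^ p) * normU p ζ P +
        HahnSeries.C ((p : R) * ε) *
          (qContract p (P * ∏ b ∈ Finset.Ico 1 p, qScale (ζ ^ b) Q) + HahnSeries.C ε * W) := by
  classical
  have : Fact p.Prime := ⟨hp⟩
  obtain ⟨Pb, hPb⟩ : ∃ Pb : ZMod p → LaurentSeries R, ∀ b, Pb b = qScale (ζ ^ b.val) P :=
    ⟨_, fun _ => rfl⟩
  obtain ⟨Qb, hQb⟩ : ∃ Qb : ZMod p → LaurentSeries R, ∀ b, Qb b = qScale (ζ ^ b.val) Q :=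
    ⟨_, fun _ => rfl⟩
  obtain ⟨m, hm⟩ : ∃ m : Finset (ZMod p) → LaurentSeries R,
      ∀ S, m S = (∏ b ∈ S, Pb b) * ∏ b ∈ Finset.univ \ S, Qb b := ⟨_, fun _ => rfl⟩
  obtain ⟨F, hFdef⟩ : ∃ F : Finset (ZMod p) → LaurentSeries R, ∀ S, F S = qContract p (m S) :=
    ⟨_, fun _ => rfl⟩
  have hinj : Function.Injective (fun b : ZMod p => b + 1) := add_left_injective 1
  have hF : ∀ S, F (S.image (· + 1)) = F S := by
    intro S
    have h1 : m (S.image (· + 1)) = qScale ζ (m S) := by
      have hc : Finset.univ \ S.image (· + 1) = (Finset.univ \ S).image (· + 1) := by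
        rw [Finset.image_sdiff _ _ hinj, Finset.image_univ_of_surjective (add_right_surjective 1)]
      rw [hm, hm, hc, Finset.prod_image (fun a _ b _ h => hinj h),
        Finset.prod_image (fun a _ b _ h => hinj h), map_mul, map_prod, map_prod]
      congr 1
      · refine Finset.prod_congr rfl fun b _ => ?_
        rw [hPb, hPb, qScale_qScale, NormU_pow_val_add_one p hζ]
      · refine Finset.prod_congr rfl fun b _ => ?_
        rw [hQb, hQb, qScale_qScale, NormU_pow_val_add_one p hζ]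
    rw [hFdef, hFdef, h1, qContract_qScale p hζ]
  have hexp : conjProd p ζ (Q + HahnSeries.C ε * P) =
      ∑ j ∈ Finset.range (p + 1), ∑ t ∈ Finset.powersetCard j Finset.univ,
        HahnSeries.C (ε ^ j) * m t := by
    rw [conjProd, ← NormU_prod_zmod p (fun b => qScale (ζ ^ b) (Q + HahnSeries.C ε * P))]
    have h1 : ∀ b : ZMod p, qScale (ζ ^ b.val) (Q + HahnSeries.C ε * P) =
        HahnSeries.C ε * Pb b + Qb b := by
      intro b
      rw [map_add, map_mul, NormU_qScale_C, hPb, hQb, add_comm]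
    rw [Finset.prod_congr rfl (fun b _ => h1 b), Finset.prod_add, Finset.sum_powerset,
      Finset.card_univ, ZMod.card]
    refine Finset.sum_congr rfl fun j _ => Finset.sum_congr rfl fun t ht => ?_
    rw [Finset.prod_mul_distrib, Finset.prod_const, (Finset.mem_powersetCard.mp ht).2, ← map_pow,
      mul_assoc, hm]
  obtain ⟨G, hG⟩ : ∃ G : ℕ → LaurentSeries R,
      ∀ j, G j = ∑ t ∈ Finset.powersetCard j Finset.univ, F t := ⟨_, fun _ => rfl⟩
  have hN : normU p ζ (Q + HahnSeries.C ε * P) =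
      ∑ j ∈ Finset.range (p + 1), HahnSeries.C (ε ^ j) * G j := by
    rw [normU, hexp, map_sum]
    refine Finset.sum_congr rfl fun j _ => ?_
    rw [map_sum, hG, Finset.mul_sum]
    refine Finset.sum_congr rfl fun t _ => ?_
    rw [qContract_C_mul, hFdef]
  have hG0 : G 0 = normU p ζ Q := by
    rw [hG, Finset.powersetCard_zero, Finset.sum_singleton, hFdef, hm, Finset.prod_empty, one_mul,
      Finset.sdiff_empty, normU, conjProd, ← NormU_prod_zmod p (fun b => qScale (ζ ^ b) Q)]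
    congr 1
    exact Finset.prod_congr rfl fun b _ => hQb b
  have hGp : G p = normU p ζ P := by
    have h := Finset.powersetCard_self (Finset.univ : Finset (ZMod p))
    rw [Finset.card_univ, ZMod.card] at h
    rw [hG, h, Finset.sum_singleton, hFdef, hm, Finset.sdiff_self, Finset.prod_empty, mul_one,
      normU, conjProd, ← NormU_prod_zmod p (fun b => qScale (ζ ^ b) P)]
    congr 1
    exact Finset.prod_congr rfl fun b _ => hPb b
  have hsing : ∀ n : ℕ, F {(n : ZMod p)} = F {0} := by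
    intro n
    induction n with
    | zero => simp
    | succ n ih =>
      have := hF {(n : ZMod p)}
      rw [Finset.image_singleton] at this
      rw [Nat.cast_succ, this, ih]
  have hG1 : G 1 = p • qContract p (P * ∏ b ∈ Finset.Ico 1 p, qScale (ζ ^ b) Q) := by
    rw [hG, Finset.powersetCard_one, Finset.sum_map]
    have h1 : ∀ b : ZMod p, F {b} = F {0} := by
      intro b
      rw [← ZMod.natCast_zmod_val b]
      exact hsing _
    have h2 : F {0} = qContract p (P * ∏ b ∈ Finset.Ico 1 p, qScale (ζ ^ b) Q) := by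
      rw [hFdef, hm, Finset.prod_singleton, hPb, ZMod.val_zero, pow_zero, qScale_one,
        ← NormU_prod_zmod_ne p (fun b => qScale (ζ ^ b) Q)]
      congr 2
      exact Finset.prod_congr rfl fun b _ => hQb b
    have h3 : ∀ b ∈ (Finset.univ : Finset (ZMod p)),
        F ((⟨singleton, Finset.singleton_injective⟩ : ZMod p ↪ Finset (ZMod p)) b) = F {0} :=
      fun b _ => h1 b
    rw [Finset.sum_congr rfl h3, Finset.sum_const, Finset.card_univ, ZMod.card, h2]
  have hR : ∀ j : ℕ, ∃ Rj : LaurentSeries R, 0 < j → j < p → G j = p • Rj := by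
    intro j
    by_cases h : 0 < j ∧ j < p
    · obtain ⟨Rj, hRj⟩ := sum_powersetCard_shift F hF h.1 h.2
      exact ⟨Rj, fun _ _ => by rw [hG, hRj]⟩
    · exact ⟨0, fun h1 h2 => absurd ⟨h1, h2⟩ h⟩
  choose Rf hRf using hR
  refine ⟨∑ j ∈ Finset.Ico 2 p, HahnSeries.C (ε ^ (j - 2)) * Rf j, ?_⟩
  have hrest : ∑ j ∈ Finset.Ico 2 p, HahnSeries.C (ε ^ j) * G j =
      HahnSeries.C ((p : R) * ε) *
        (HahnSeries.C ε * ∑ j ∈ Finset.Ico 2 p, HahnSeries.C (ε ^ (j - 2)) * Rf j) := by
    rw [Finset.mul_sum, Finset.mul_sum]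
    refine Finset.sum_congr rfl fun j hj => ?_
    obtain ⟨h2, hjp⟩ := Finset.mem_Ico.mp hj
    have he : ε ^ j = ε ^ 2 * ε ^ (j - 2) := by
      rw [← _root_.pow_add]; congr 1; omega
    rw [hRf j (by omega) hjp, nsmul_eq_mul, he, ← map_natCast (HahnSeries.C : R →+* LaurentSeries R)]
    simp only [map_mul, map_pow]
    ring
  rw [hN, Finset.sum_range_succ, Finset.range_eq_Ico, Finset.sum_eq_sum_Ico_succ_bot hp.pos,
    Finset.sum_eq_sum_Ico_succ_bot hp.one_lt, hrest, hG0, hG1, hGp, nsmul_eq_mul,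
    ← map_natCast (HahnSeries.C : R →+* LaurentSeries R)]
  simp only [map_mul, map_pow, pow_zero, pow_one, map_one, one_mul]
  ring

end Fermat.Agent.ORD.P2
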