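import Fermat.Agent.ORD.P2.Core
import Fermat.Agent.ORD.P2.ConstFix
import Fermat.Agent.ORD.P2.Inertia
import Fermat.Agent.ORD.P5.Conc
import Fermat.Agent.GAL.Mod.Kum

/-!
# ORD / P2-T3 : the contract (CORE) of ORD DECISIONS v2 (#1611 D1), from `core_formal` + `KL2_p` (`P5.kl2p`) + a field package (`CoreData`, P3)

Level `M = M₁ p`.  `wq = TOR.GB.wq M₁ p`, `galF`, `U = NmL Qb p`.
-/

set_option autoImplicit false
noncomputable section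

namespace Fermat.Agent.ORD.P2

open ModularCurve AlgebraicCurve HahnSeries Fermat.Agent.GR Fermat.Agent.GAL Fermat.Agent.GAL.KLC
open Fermat.Agent.S24 Fermat.Agent.TOR.GB

variable {A : ValuationSubring Qb} {M₁ p : ℕ}

/-- Bezout with integer exponents (`Nat.Coprime`, `Int.gcd_eq_gcd_ab` / `Nat.exists_mul_emod_eq_one_of_coprime`; `zpow_mem`). -/
theorem mem_FL_of_pow_coprime {M m n : ℕ} (hmn : Nat.Coprime m n) {v : LaurentSeries Qb}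
    (hv : v ≠ 0) (h1 : v ^ m ∈ FL Qb M) (h2 : v ^ n ∈ FL Qb M) : v ∈ FL Qb M := by
  have h := Int.gcd_eq_gcd_ab (m : ℤ) (n : ℤ)
  have hg : Int.gcd (m : ℤ) (n : ℤ) = 1 := by rwa [Int.gcd_natCast_natCast]
  have e : v = (v ^ m) ^ (Int.gcdA m n) * (v ^ n) ^ (Int.gcdB m n) := by
    rw [← zpow_natCast, ← zpow_natCast, ← zpow_mul, ← zpow_mul, ← zpow_add₀ hv, ← h, hg]
    simp
  rw [e]
  exact mul_mem (zpow_mem h1 _) (zpow_mem h2 _)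

/-- if `x^p = y^p` with `y ∈ FL`, `y ≠ 0`, then `x ∈ FL` (`mem_FL_of_pow_eq_C` applied to `x / y`). -/
theorem mem_FL_of_pow_eq_pow {M n : ℕ} (hn : n ≠ 0) {x y : LaurentSeries Qb} (hy : y ∈ FL Qb M)
    (h : x ^ n = y ^ n) : x ∈ FL Qb M := by
  by_cases hy0 : y = 0
  · rw [hy0, zero_pow hn] at h
    rw [pow_eq_zero_iff hn |>.mp h]
    exact zero_mem _
  · have h1 : (x / y) ^ n = HahnSeries.C (1 : Qb) := by
      rw [div_pow, h, div_self (pow_ne_zero _ hy0), map_one]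
    have h2 := mem_FL_of_pow_eq_C M hn h1
    have e : x = x / y * y := (div_mul_cancel₀ _ hy0).symm
    rw [e]
    exact mul_mem h2 hy

/-- **from a good generator to triviality** ((C), (D) of the plan).
PROOF.  `t := galS s0 v / v^a` is `IsKum` (`IsKum.galS`, `IsKum.pow`, `IsKum.div`); `W := ⟨t^p, _⟩ : FN (M₁ p)`, `(W : series) = galS s0 (v^p) / (v^p)^a`: `Dp A (λ^p) W 0` by `Dp.inertia_lam_p` (K := ℚ; `galS s0 = coeffMap s0` by `rfl`).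
`wq W = galS s0 (wq ⟨v^p,_⟩) / (wq ⟨v^p,_⟩)^a` (`map_div₀`, `map_pow`, `wq_galF`, `coe_galF`): `Dp A (λ^p) (wq W) 0` by `Dp.inertia_lam_p` again.  `p ∣ ord_P W`: third component of `IsKum t`.
`P5.kl2p`: `y^p = galF s0 W / W^a = (galS s0 t / t^a)^p`; `mem_FL_of_pow_eq_pow`: `galS s0 t / t^a ∈ FL`.  With `f := galS s0 v / v ∈ FL` (`f ≠ 0`): `galS s0 v = f v`, `t = f / v^(a-1)` (`a ≥ 1` because `ζ^a ≠ 1`…
or avoid subtraction: `t * v^a = f v`), `galS s0 t / t^a = (galS s0 f / (f^(a-1) f^a)) * v^((a-1)^2)`; so `v^((a-1)^2) ∈ FL`; `(a-1)^2` is prime to `p` by `ha`; `v^p ∈ FL`; `mem_FL_of_pow_coprime`. -/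
theorem core_of_gen [NeZero M₁] [NeZero p] (hM : AdmLevel M₁) (hp : p.Prime) (hpM : ¬ p ∣ M₁)
    (hA : A.LiesOverPrime p) {ζ : Qbˣ} (hζ : IsPrimitiveRoot ζ p) {s0 : GQ}
    (hs0 : s0 ∈ A.inertiaSubgroupIn ℚ) {a : ℕ} (hsζ : s0 (ζ : Qb) = (ζ : Qb) ^ a)
    (ha : ¬ (p : ℤ) ∣ (a : ℤ) - 1) {v : LaurentSeries Qb} (hv : IsKum Qb (M₁ * p) p v)
    (h1 : Dp A (lam ζ ^ p) (v ^ p) 0)
    (h2 : ∃ b, Dp A (lam ζ ^ p)
      ((wq M₁ p ⟨v ^ p, hv.pow_mem⟩ : FN (M₁ * p)) : LaurentSeries Qb) b)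
    (hs0v : galS s0 v / v ∈ FL Qb (M₁ * p)) : v ∈ FL Qb (M₁ * p) := by
  obtain ⟨b, h2⟩ := h2
  have hv0 : v ≠ 0 := hv.ne_zero
  have hsv0 : galS s0 v ≠ 0 := galS_ne_zero s0 hv0
  set V : FN (M₁ * p) := ⟨v ^ p, hv.pow_mem⟩ with hV
  set t : LaurentSeries Qb := galS s0 v / v ^ a with ht
  have ht0 : t ≠ 0 := div_ne_zero hsv0 (pow_ne_zero _ hv0)
  obtain ⟨-, htf, htdiv⟩ : IsKum Qb (M₁ * p) p t := (hv.galS s0).div (hv.pow a)
  set W : FN (M₁ * p) := ⟨t ^ p, htf⟩ with hW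
  have hWV : W = galF (M₁ * p) s0 V / V ^ a := by
    apply Subtype.ext
    show t ^ p = galS s0 (v ^ p) / (v ^ p) ^ a
    rw [ht, div_pow, map_pow, ← pow_mul, ← pow_mul, mul_comm a p]
  have hW1 : Dp A (lam ζ ^ p) (W : LaurentSeries Qb) 0 := by
    rw [hWV]
    exact h1.inertia_lam_p hp hA hζ hs0 hsζ
  have hW2 : Dp A (lam ζ ^ p) ((wq M₁ p W : FN (M₁ * p)) : LaurentSeries Qb) 0 := by
    rw [hWV, map_div₀, map_pow, wq_galF hp hpM]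
    exact h2.inertia_lam_p hp hA hζ hs0 hsζ
  obtain ⟨y, hy⟩ := P5.kl2p M₁ p hM hp hpM A hA hζ hs0 hsζ W hW1 hW2 htdiv
  have hr : galS s0 t / t ^ a ∈ FL Qb (M₁ * p) := by
    refine mem_FL_of_pow_eq_pow hp.ne_zero y.2 ?_
    have h3 := congrArg (Subtype.val : FN (M₁ * p) → LaurentSeries Qb) hy
    have h4 : ((y : LaurentSeries Qb)) ^ p = galS s0 (t ^ p) / (t ^ p) ^ a := h3
    rw [h4, div_pow, map_pow, ← pow_mul, ← pow_mul, mul_comm a p]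
  -- the algebra
  set f : LaurentSeries Qb := galS s0 v / v with hf
  have hf0 : f ≠ 0 := div_ne_zero hsv0 hv0
  have hsf0 : galS s0 f ≠ 0 := galS_ne_zero s0 hf0
  have hsv : galS s0 v = f * v := by rw [hf, div_mul_cancel₀ _ hv0]
  obtain ⟨m, hm⟩ : ∃ m : ℕ, m + 2 * a = a * a + 1 := ⟨a * a + 1 - 2 * a, by
    have : 2 * a ≤ a * a + 1 := by nlinarith [sq_nonneg ((a : ℤ) - 1), sq_nonneg (a - 1)]
    omega⟩
  have hvm : v ^ m = (galS s0 t / t ^ a) * ((f ^ a * f ^ a) / (galS s0 f * f)) := by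
    have e1 : v ^ (a * a + 1) = v ^ m * v ^ (2 * a) := by rw [← _root_.pow_add, hm]
    have e2 : galS s0 t = galS s0 f * (f * v) / (f * v) ^ a := by
      rw [ht, map_div₀, map_pow, hsv, map_mul, hsv]
    have e3 : t = f * v / v ^ a := by rw [ht, hsv]
    rw [e2, e3]
    have e4 : v ^ (a * a + 1) = (v ^ a) ^ a * v := by rw [pow_succ, pow_mul]
    have e5 : v ^ (2 * a) = v ^ a * v ^ a := by rw [two_mul, _root_.pow_add]
    have hva : v ^ a ≠ 0 := pow_ne_zero _ hv0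
    have hfa : f ^ a ≠ 0 := pow_ne_zero _ hf0
    have e6 : v ^ m = (v ^ a) ^ a * v / (v ^ a * v ^ a) := by
      rw [eq_div_iff (mul_ne_zero hva hva), ← e5, ← e1, e4]
    rw [e6, div_pow, mul_pow]
    have hvaa : (v ^ a) ^ a ≠ 0 := pow_ne_zero _ hva
    field_simp
  have hvmem : v ^ m ∈ FL Qb (M₁ * p) := by
    rw [hvm]
    exact mul_mem hr (div_mem (mul_mem (pow_mem hs0v a) (pow_mem hs0v a))
      (mul_mem (galS_mem_FL s0 hs0v) hs0v))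
  have hcop : Nat.Coprime m p := by
    rw [Nat.coprime_comm, hp.coprime_iff_not_dvd]
    intro hd
    apply ha
    have h5 : ((m : ℤ)) = ((a : ℤ) - 1) ^ 2 := by
      have : ((m + 2 * a : ℕ) : ℤ) = ((a * a + 1 : ℕ) : ℤ) := by rw [hm]
      push_cast at this
      linarith
    have h6 : (p : ℤ) ∣ ((a : ℤ) - 1) ^ 2 := by
      rw [← h5]
      exact Int.natCast_dvd_natCast.mpr hd
    exact (Nat.prime_iff_prime_int.mp hp).dvd_of_dvd_pow h6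
  exact mem_FL_of_pow_coprime hcop hv0 hvmem hv.pow_mem

variable {𝔽 : Type*} [Field 𝔽] {i₁ i₂ : 𝔽 →+* LaurentSeries Qb} {U : 𝔽 →* 𝔽} {π : Qb} {e₁ : ℕ}

/-- archimedean: a constant becomes integral after multiplication by a power of `π`. -/
theorem TopCore_exists_pow_mem (hp : p.Prime) (hA : A.LiesOverPrime p) {π : Qb}
    (hπ : π ∈ A.nonunits) {c : Qb} (hc : c ≠ 0) :
    ∃ N : ℕ, ∀ m, N ≤ m → c * π ^ m ∈ A := by
  have : Algebra.IsAlgebraic ℚ Qb := AlgebraicClosure.isAlgebraic ℚ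
  have hv : A.valuation (p : Qb) < 1 := A.mem_nonunits_iff.1 hA
  have hπ' : A.valuation π < 1 := A.mem_nonunits_iff.1 hπ
  obtain ⟨N, hN⟩ := ValArch.exists_pow_lt (v := A.valuation) hp hv hπ' (inv_ne_zero hc)
  refine ⟨N, fun m hm => ?_⟩
  rw [← A.valuation_le_one_iff, map_mul, map_pow]
  have h0 : 0 < A.valuation c := (A.valuation).pos_iff.mpr hc
  have h1 : A.valuation π ^ m ≤ (A.valuation c)⁻¹ := by
    rw [← map_inv₀]
    exact (pow_le_pow_of_le_one zero_le hπ'.le hm).trans hN.le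
  calc A.valuation c * A.valuation π ^ m ≤ A.valuation c * (A.valuation c)⁻¹ := by gcongr
    _ = 1 := mul_inv_cancel₀ h0.ne'

/-- `i₁ ∘ U^n = NmL^n ∘ i₁`. -/
theorem TopCore_iterate_U [NeZero p] {ζ : Qbˣ} (hζ : IsPrimitiveRoot ζ p)
    (CD : CoreData A p ζ π e₁ i₁ i₂ U) (n : ℕ) (x : 𝔽) :
    i₁ (U^[n] x) = (NmL Qb p)^[n] (i₁ x) := by
  induction n with
  | zero => rfl
  | succ n ih =>
    rw [Function.iterate_succ_apply', Function.iterate_succ_apply', CD.U₁, ih,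
      GAL.NmL_eq_normU p hζ]

theorem TopCore_C_mem (M : ℕ) (c : Qb) : (HahnSeries.C c : LaurentSeries Qb) ∈ FL Qb M := by
  rw [← GR.algebraMap_eq_C]
  exact (FL Qb M).algebraMap_mem c

/-- `wq` on `1 + C c * x`. -/
theorem TopCore_wq_affine [NeZero M₁] [NeZero p] (c : Qb) {x : LaurentSeries Qb} (hx : x ∈ FL Qb (M₁ * p))
    (hY : 1 + HahnSeries.C c * x ∈ FL Qb (M₁ * p)) :
    ((wq M₁ p ⟨1 + HahnSeries.C c * x, hY⟩ : FN (M₁ * p)) : LaurentSeries Qb) =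
      1 + HahnSeries.C c * ((wq M₁ p ⟨x, hx⟩ : FN (M₁ * p)) : LaurentSeries Qb) := by
  have e : (⟨1 + HahnSeries.C c * x, hY⟩ : FN (M₁ * p)) =
      1 + algebraMap Qb (FN (M₁ * p)) c * ⟨x, hx⟩ := by
    apply Subtype.ext
    show 1 + HahnSeries.C c * x = 1 + algebraMap Qb (LaurentSeries Qb) c * x
    rw [GR.algebraMap_eq_C]
  rw [e, map_add, map_one, map_mul, AlgEquiv.commutes]
  show 1 + algebraMap Qb (LaurentSeries Qb) c * _ = _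
  rw [GR.algebraMap_eq_C]

/-- **a good generator** ((A), (B) of the plan + constant fix).
PROOF.  (1) `UFix p i₁ U n h` with `κ = 1`, `g = g₀`: `i₁` is injective; `i₁ (U^[n] h) = (NmL Qb p)^[n] (u^p)` (induction, `CD.U₁`, `GAL.NmL_eq_normU p hζ`) `= ((NmL Qb p)^[n] u)^p` (`MonoidHom.iterate_map_pow`) `= (u * i₁ g₀)^p`.
(2) `core_formal`: `h' = κ h y^p`, `Dp (λ^p) (i₁ h') 0`, `Dp (λ^p) (i₂ (κ' h')) b`; `i₁ κ = C c`, `i₁ κ' = C c'` hence `i₂ κ' = C c'` (`CD.cst`), `c, c' ≠ 0`.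
(3) `c₁^p = c'`, `c₀^p = c` (`IsAlgClosed.exists_pow_nat_eq`).  `N` with `c₁ π^N, c₁⁻¹ π^N ∈ A` (`P3.exists_pos_pow_of_mem_nonunits` / `ValArch.exists_pow_le`-type archimedean lemma for `A.valuation` on `Qb`).
`CD.const_fix`: `ϑ`; `Y := 1 + C (c₁ - 1) * i₁ ϑ ∈ FL`, `wq ⟨Y,_⟩ = 1 + C (c₁ - 1) * i₂ ϑ` (`wq` is a `Qb`-algebra hom: `map_add, map_mul, map_one, AlgEquiv.commutes`, `C_eq_algebraMap`, `hi₂`).
`Dp (λ^p) (Y^p) 0` and `Dp (λ^p) ((wq Y / C c₁)^p) 0` (`Dp.pow_p_lam_one` with `a = 0`).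
(4) `v := C c₀ * u * i₁ y * Y`: `v / u ∈ FL`; `v^p = i₁ h' * Y^p`: `Dp.mul`; `wq ⟨v^p,_⟩ = i₂ h' * (wq Y)^p = i₂ (κ' h') * (wq Y / C c₁)^p`: `Dp.mul`, leading term `b + 0`. -/
theorem core_field_gen [NeZero M₁] [NeZero p] (hp : p.Prime) (hp2 : p ≠ 2) (hpM : ¬ p ∣ M₁)
    (hA : A.LiesOverPrime p) {ζ : Qbˣ} (hζ : IsPrimitiveRoot ζ p) {s : GQ}
    (CD : CoreData A p ζ π e₁ i₁ i₂ U) (S : FrobOn A p s i₂)
    (hi₁ : ∀ x, i₁ x ∈ FL Qb (M₁ * p))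
    (hi₂ : ∀ x, i₂ x = ((wq M₁ p ⟨i₁ x, hi₁ x⟩ : FN (M₁ * p)) : LaurentSeries Qb))
    {u : LaurentSeries Qb} (hu0 : u ≠ 0) (hred : HasRed A (u ^ p) 1) {n : ℕ} (hn : 1 ≤ n)
    {h g₀ : 𝔽} (hh : i₁ h = u ^ p) (hg : i₁ g₀ = (NmL Qb p)^[n] u / u) :
    ∃ v : LaurentSeries Qb, v / u ∈ FL Qb (M₁ * p) ∧ ∃ hv : v ^ p ∈ FL Qb (M₁ * p),
      Dp A (lam ζ ^ p) (v ^ p) 0 ∧
      ∃ b, Dp A (lam ζ ^ p) ((wq M₁ p ⟨v ^ p, hv⟩ : FN (M₁ * p)) : LaurentSeries Qb) b := by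
  have := GR.charP_residueField hp hA
  have : ExpChar (kk A) p := ExpChar.prime hp
  have hl0 : lam ζ ^ p ≠ 0 := pow_ne_zero _ (lam_ne_zero hp hζ)
  have hlm : lam ζ ^ p ∈ A.nonunits := by
    have h3 := lam_mem_nonunits (A := A) hp hA hζ.pow_eq_one
    rw [ValuationSubring.mem_nonunits_iff] at h3 ⊢
    rw [map_pow]
    exact pow_lt_one₀ zero_le h3 hp.ne_zero
  -- (1) `U^n` fixes the class of `h`
  have hU : UFix p i₁ U n h := by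
    refine ⟨1, g₀, IsC.one i₁, i₁.injective ?_⟩
    rw [TopCore_iterate_U hζ CD, hh, iterate_map_pow, map_mul, map_mul, map_one, one_mul, map_pow,
      hh, hg, ← mul_pow, mul_div_cancel₀ _ hu0]
  -- (2) the formal core
  obtain ⟨h', κ', b, ⟨κ, y, hκ, hy, ⟨c, hc⟩, hh'⟩, hd₁, hκ', ⟨c', hc'⟩, hd₂⟩ :=
    core_formal hp hp2 hA hζ CD S hn (by rw [hh]; exact hred) hU
  have hc'₂ : i₂ κ' = HahnSeries.C c' := (CD.cst κ' c').mp hc'
  have hc'0 : c' ≠ 0 := by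
    rintro rfl
    rw [map_zero] at hc'
    exact hκ' ((map_eq_zero i₁).1 hc')
  -- (3) the constants
  obtain ⟨c₁, hc₁⟩ := IsAlgClosed.exists_pow_nat_eq c' hp.pos
  obtain ⟨c₀, hc₀⟩ := IsAlgClosed.exists_pow_nat_eq c hp.pos
  have hc₁0 : c₁ ≠ 0 := by
    rintro rfl
    rw [zero_pow hp.ne_zero] at hc₁
    exact hc'0 hc₁.symm
  obtain ⟨N₁, hN₁⟩ := TopCore_exists_pow_mem hp hA CD.d₁.pi_mem hc₁0
  obtain ⟨N₂, hN₂⟩ := TopCore_exists_pow_mem hp hA CD.d₁.pi_mem (inv_ne_zero hc₁0)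
  obtain ⟨ϑ, hϑ₁, hϑ₂⟩ := CD.const_fix hp hA hc₁0 (hN₁ (max N₁ N₂) (le_max_left _ _))
    (hN₂ (max N₁ N₂) (le_max_right _ _))
  set Y : LaurentSeries Qb := 1 + HahnSeries.C (c₁ - 1) * i₁ ϑ with hYdef
  have hY : Y ∈ FL Qb (M₁ * p) :=
    add_mem (one_mem _) (mul_mem (TopCore_C_mem _ _) (hi₁ ϑ))
  have hwY : ((wq M₁ p ⟨Y, hY⟩ : FN (M₁ * p)) : LaurentSeries Qb) =
      1 + HahnSeries.C (c₁ - 1) * i₂ ϑ := by
    rw [hi₂ ϑ]
    exact TopCore_wq_affine (c₁ - 1) (hi₁ ϑ) hY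
  have hYp : Dp A (lam ζ ^ p) (Y ^ p) 0 := by
    have := hϑ₁.pow_p_lam_one hp hp2 hA hζ
    rwa [zero_pow hp.ne_zero, sub_zero] at this
  have hYp₂ : Dp A (lam ζ ^ p) (((1 + HahnSeries.C (c₁ - 1) * i₂ ϑ) / HahnSeries.C c₁) ^ p) 0 := by
    have := hϑ₂.pow_p_lam_one hp hp2 hA hζ
    rwa [zero_pow hp.ne_zero, sub_zero] at this
  -- (4) the generator
  have hvp : (HahnSeries.C c₀ * u * i₁ y * Y) ^ p = i₁ h' * Y ^ p := by
    rw [hh', map_mul, map_mul, map_pow, hh, hc, ← hc₀, map_pow, mul_pow, mul_pow, mul_pow]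
  have hmem : i₁ h' * Y ^ p ∈ FL Qb (M₁ * p) := mul_mem (hi₁ h') (pow_mem hY p)
  refine ⟨HahnSeries.C c₀ * u * i₁ y * Y, ?_, hvp ▸ hmem, ?_, b, ?_⟩
  · have : HahnSeries.C c₀ * u * i₁ y * Y / u = HahnSeries.C c₀ * i₁ y * Y := by
      field_simp
    rw [this]
    exact mul_mem (mul_mem (TopCore_C_mem _ _) (hi₁ y)) hY
  · rw [hvp]
    have := hd₁.mul hl0 hlm hYp
    rwa [add_zero] at this
  · have e1 : (⟨(HahnSeries.C c₀ * u * i₁ y * Y) ^ p, hvp ▸ hmem⟩ : FN (M₁ * p)) =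
        ⟨i₁ h', hi₁ h'⟩ * ⟨Y, hY⟩ ^ p := Subtype.ext hvp
    have e2 : ((wq M₁ p (⟨i₁ h', hi₁ h'⟩ * ⟨Y, hY⟩ ^ p) : FN (M₁ * p)) : LaurentSeries Qb) =
        i₂ h' * (1 + HahnSeries.C (c₁ - 1) * i₂ ϑ) ^ p := by
      rw [map_mul, map_pow, hi₂ h', ← hwY]
      rfl
    have hC : (HahnSeries.C c₁ : LaurentSeries Qb) ≠ 0 := C_ne_zero' hc₁0
    have e3 : i₂ h' * (1 + HahnSeries.C (c₁ - 1) * i₂ ϑ) ^ p =
        i₂ (κ' * h') * ((1 + HahnSeries.C (c₁ - 1) * i₂ ϑ) / HahnSeries.C c₁) ^ p := by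
      rw [map_mul, hc'₂, ← hc₁, map_pow, div_pow]
      field_simp
    rw [e1, e2, e3]
    have := hd₂.mul hl0 hlm hYp₂
    rwa [add_zero] at this

/-- **(CORE) for a Kummer element which is rational over a field package.** -/
theorem core_of_field [NeZero M₁] [NeZero p] (hM : AdmLevel M₁) (hp : p.Prime) (hp2 : p ≠ 2)
    (hpM : ¬ p ∣ M₁) (hA : A.LiesOverPrime p) {ζ : Qbˣ} (hζ : IsPrimitiveRoot ζ p) {s0 : GQ}
    (hs0 : s0 ∈ A.inertiaSubgroupIn ℚ) {a : ℕ} (hsζ : s0 (ζ : Qb) = (ζ : Qb) ^ a)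
    (ha : ¬ (p : ℤ) ∣ (a : ℤ) - 1) {s : GQ}
    (CD : CoreData A p ζ π e₁ i₁ i₂ U) (S : FrobOn A p s i₂)
    (hi₁ : ∀ x, i₁ x ∈ FL Qb (M₁ * p))
    (hi₂ : ∀ x, i₂ x = ((wq M₁ p ⟨i₁ x, hi₁ x⟩ : FN (M₁ * p)) : LaurentSeries Qb))
    {u : LaurentSeries Qb} (hu : IsKum Qb (M₁ * p) p u) (hred : HasRed A (u ^ p) 1) {n : ℕ}
    (hn : 1 ≤ n) {h g₀ : 𝔽} (hh : i₁ h = u ^ p) (hg : i₁ g₀ = (NmL Qb p)^[n] u / u)
    (hs0u : galS s0 u / u ∈ FL Qb (M₁ * p)) : u ∈ FL Qb (M₁ * p) := by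
  obtain ⟨v, hvu, hv, h1, h2⟩ :=
    core_field_gen hp hp2 hpM hA hζ CD S hi₁ hi₂ hu.ne_zero hred hn hh hg
  have hl0 : lam ζ ^ p ≠ 0 := pow_ne_zero _ (lam_ne_zero hp hζ)
  have hlm : lam ζ ^ p ∈ A.nonunits := by
    have h3 := lam_mem_nonunits (A := A) hp hA hζ.pow_eq_one
    rw [ValuationSubring.mem_nonunits_iff] at h3 ⊢
    rw [map_pow]
    exact pow_lt_one₀ zero_le h3 hp.ne_zero
  have hv0 : v ≠ 0 := by
    intro h0
    exact (h1.ne_zero hl0 hlm) (by rw [h0, zero_pow hp.ne_zero])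
  have hvu0 : v / u ≠ 0 := div_ne_zero hv0 hu.ne_zero
  have e1 : v = u * (v / u) := by rw [mul_div_cancel₀ _ hu.ne_zero]
  have hK : IsKum Qb (M₁ * p) p v := by
    rw [e1]; exact hu.mul (isKum_of_mem hvu hvu0)
  have hs0v : galS s0 v / v ∈ FL Qb (M₁ * p) := by
    have e2 : galS s0 v / v = (galS s0 u / u) * (galS s0 (v / u) / (v / u)) := by
      rw [map_div₀]
      have := galS_ne_zero s0 hu.ne_zero
      have := hu.ne_zero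
      field_simp
    rw [e2]
    exact mul_mem hs0u (div_mem (galS_mem_FL s0 hvu) hvu)
  have h3 := core_of_gen hM hp hpM hA hζ hs0 hsζ ha hK h1 h2 hs0v
  have e3 : u = v / (v / u) := by
    have := hu.ne_zero
    field_simp
  rw [e3]
  exact div_mem h3 hvu

end Fermat.Agent.ORD.P2
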