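import Fermat.Agent.ORD.P2.WF
import Fermat.Agent.ORD.P2.Bridge
import Fermat.Agent.GAL.ESR.Field
import Fermat.Agent.GAL.ESR.Main
import Fermat.Agent.GAL.Mod.Kum

/-!
# ORD / P2-T1 : the contract (WF) of ORD DECISIONS v2 (#1611 D1), from `weakFontaine` + `KL_p` + the field package of P3
-/

set_option autoImplicit false
noncomputable section

namespace Fermat.Agent.ORD.P2

open ModularCurve AlgebraicCurve HahnSeries Fermat.Agent.GR Fermat.Agent.GAL Fermat.Agent.GAL.KLC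

variable {A : ValuationSubring Qb} {M₁ p : ℕ}

/-- `x` is fixed by `H₁ = {τ ∈ I_A | τ ζ = ζ}`. -/
def FixH1 (A : ValuationSubring Qb) (ζ : Qbˣ) (x : LaurentSeries Qb) : Prop :=
  ∀ τ ∈ A.inertiaSubgroupIn ℚ, τ (ζ : Qb) = ζ → galS τ x = x

/-- **(WF) for a Kummer element which is rational over the field package.**
PROOF.  `h := ⟨u^p, hup⟩ : 𝔽`, `g := ⟨heckeS Qb p u, hTu⟩ : 𝔽`.  `formalT p ζ (u^p) = (formalT p ζ u)^p = (heckeS Qb p u)^p` (`GR.formalT_pow`, `GAL.heckeS_eq_formalT`): `TKilled p ζ 𝔽.subtype h` with `κ = 1`.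
`weakFontaine`: `h' = κ h y^p`, `Dp A (λ^(p+1)) h' a`; `Dp.of_deeper` (`λ^(p+1) = λ * λ^p`, `lam_mem_nonunits`): `Dp A (λ^p) h' 0`.  `W := ⟨h', hle _ _⟩ : FL Qb M₁`.
`p ∣ ord_P W`: `𝔽.subtype κ = C c`, `c ≠ 0`; the series `v := C c' * u * y` (`c'^p = c`, `IsAlgClosed.exists_pow_nat_eq`) satisfies `v^p = W` and `IsKum Qb M₁ p v` (`IsKum.mul`, `isKum_of_mem`, `C_mem_FL`),
so the divisibility is the third component of `IsKum` (proof irrelevance in `⟨v^p, _⟩`).  `klp_dp`: `Y^p = W = v^p`, `Y ∈ FL`, `Y ≠ 0`; `(v / Y)^p = 1 = C 1` ⇒ `v / Y ∈ FL` (`mem_FL_of_pow_eq_C`) ⇒ `v ∈ FL` ⇒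
`u = v / (C c' * y) ∈ FL`. -/
theorem wf_of_field [NeZero M₁] [NeZero p] (hM : AdmLevel M₁) (hp : p.Prime) (hp2 : p ≠ 2)
    (hpM : ¬ p ∣ M₁) (hA : A.LiesOverPrime p) {ζ : Qbˣ} (hζ : IsPrimitiveRoot ζ p) {s : GQ}
    (𝔽 : Subfield (LaurentSeries Qb)) (hle : ∀ x ∈ 𝔽, x ∈ FL Qb M₁)
    (D : Disc A (lam ζ) 𝔽.subtype) (S : FrobOn A p s 𝔽.subtype)
    (hT : ∀ x : 𝔽, ∃ x' : 𝔽, 𝔽.subtype x' = formalT p ζ (𝔽.subtype x))
    {u : LaurentSeries Qb} (hu : IsKum Qb M₁ p u) (hup : u ^ p ∈ 𝔽) (hTu : heckeS Qb p u ∈ 𝔽) :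
    u ∈ FL Qb M₁ := by
  have hu0 : u ≠ 0 := hu.ne_zero
  have hl0 : lam ζ ≠ 0 := lam_ne_zero hp hζ
  have h0 : (⟨u ^ p, hup⟩ : 𝔽) ≠ 0 := by
    intro h
    exact pow_ne_zero p hu0 (congrArg Subtype.val h)
  have hk : TKilled p ζ 𝔽.subtype (⟨u ^ p, hup⟩ : 𝔽) := by
    refine ⟨1, ⟨heckeS Qb p u, hTu⟩, IsC.one _, ?_⟩
    rw [one_mul, map_pow]
    show formalT p ζ (u ^ p) = heckeS Qb p u ^ p
    rw [formalT_pow p hζ, heckeS_eq_formalT p hζ]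
  obtain ⟨h', a, ⟨κ, y, hκ0, hy0, ⟨c, hc⟩, hh'⟩, hdp⟩ :=
    weakFontaine hp hp2 hA hζ D S hT h0 hk
  have hdp0 : Dp A (lam ζ ^ p) (𝔽.subtype h') 0 :=
    Dp.of_deeper (pow_ne_zero _ hl0) (lam_mem_nonunits hp hA hζ.pow_eq_one)
      (by rw [pow_succ, mul_comm]) hdp
  have hc0 : c ≠ 0 := by
    rintro rfl
    rw [map_zero] at hc
    exact hκ0 ((map_eq_zero 𝔽.subtype).mp hc)
  obtain ⟨c', hc'⟩ := IsAlgClosed.exists_pow_nat_eq c hp.pos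
  have hc'0 : c' ≠ 0 := by
    rintro rfl
    rw [zero_pow hp.ne_zero] at hc'
    exact hc0 hc'.symm
  have hCc'0 : (HahnSeries.C c' : LaurentSeries Qb) ≠ 0 := by
    intro h
    exact hc'0 ((map_eq_zero (HahnSeries.C : Qb →+* LaurentSeries Qb)).mp h)
  have hyFL : (y : LaurentSeries Qb) ∈ FL Qb M₁ := hle _ y.2
  have hy0' : (y : LaurentSeries Qb) ≠ 0 := fun h => hy0 (Subtype.ext h)
  have hv : IsKum Qb M₁ p (HahnSeries.C c' * u * (y : LaurentSeries Qb)) :=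
    ((isKum_of_mem (C_mem_FL M₁ c') hCc'0).mul hu).mul (isKum_of_mem hyFL hy0')
  have hvW : (HahnSeries.C c' * u * (y : LaurentSeries Qb)) ^ p = (h' : LaurentSeries Qb) := by
    have h1 : (h' : LaurentSeries Qb) = (κ : LaurentSeries Qb) * u ^ p * (y : LaurentSeries Qb) ^ p := by
      rw [hh']; rfl
    have h2 : (κ : LaurentSeries Qb) = HahnSeries.C c := hc
    rw [h1, h2, ← hc', map_pow, mul_pow, mul_pow]
  obtain ⟨hvmem, hvdiv⟩ := hv.2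
  have hWeq : (⟨(h' : LaurentSeries Qb), hle _ h'.2⟩ : FL Qb M₁) =
      ⟨(HahnSeries.C c' * u * (y : LaurentSeries Qb)) ^ p, hvmem⟩ := Subtype.ext hvW.symm
  obtain ⟨Y, hY⟩ := klp_dp hM hp hp2 hpM hA hζ (⟨(h' : LaurentSeries Qb), hle _ h'.2⟩ : FL Qb M₁)
    hdp0 (by rw [hWeq]; exact hvdiv)
  have hY' : (Y : LaurentSeries Qb) ^ p = (h' : LaurentSeries Qb) := congrArg Subtype.val hY
  have hv0 : HahnSeries.C c' * u * (y : LaurentSeries Qb) ≠ 0 := hv.ne_zero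
  have hY0 : (Y : LaurentSeries Qb) ≠ 0 := by
    intro h
    rw [h, zero_pow hp.ne_zero, ← hvW] at hY'
    exact pow_ne_zero p hv0 hY'.symm
  have hq : HahnSeries.C c' * u * (y : LaurentSeries Qb) / (Y : LaurentSeries Qb) ∈ FL Qb M₁ := by
    apply mem_FL_of_pow_eq_C M₁ hp.ne_zero (c := 1)
    rw [div_pow, hvW, hY', div_self (by rw [← hY']; exact pow_ne_zero p hY0), map_one]
  have hvFL : HahnSeries.C c' * u * (y : LaurentSeries Qb) ∈ FL Qb M₁ := by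
    have := mul_mem hq Y.2
    rwa [div_mul_cancel₀ _ hY0] at this
  have hfin : u = HahnSeries.C c' * u * (y : LaurentSeries Qb) *
      ((HahnSeries.C c')⁻¹ * (y : LaurentSeries Qb)⁻¹) := by
    field_simp
  rw [hfin]
  exact mul_mem hvFL (mul_mem (inv_mem (C_mem_FL M₁ c')) (inv_mem hyFL))

/-- **(WF)**, from the two P3 contracts `hF` (the field `FL^{H₁}` is discretely valued with uniformiser `λ`, Frobenius stable) and `hO` (Hilbert 90 by orbit sums). -/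
theorem wf_top [NeZero M₁] [NeZero p] (hM : AdmLevel M₁) (hp : p.Prime) (hp2 : p ≠ 2)
    (hpM : ¬ p ∣ M₁) (hA : A.LiesOverPrime p) {ζ : Qbˣ} (hζ : IsPrimitiveRoot ζ p)
    (hF : ∃ (s : GQ) (𝔽 : Subfield (LaurentSeries Qb)),
      (∀ x, x ∈ 𝔽 ↔ x ∈ FL Qb M₁ ∧ FixH1 A ζ x) ∧ Disc A (lam ζ) 𝔽.subtype ∧
        FrobOn A p s 𝔽.subtype)
    (hO : ∀ u : LaurentSeries Qb, IsKum Qb M₁ p u →
      (∀ τ ∈ A.inertiaSubgroupIn ℚ, τ (ζ : Qb) = ζ → galS τ u / u ∈ FL Qb M₁) →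
      ∃ f ∈ FL Qb M₁, f ≠ 0 ∧ FixH1 A ζ (u * f))
    {u : LaurentSeries Qb} (hu : IsKum Qb M₁ p u) (hTu : heckeS Qb p u ∈ FL Qb M₁)
    (hH : ∀ τ ∈ A.inertiaSubgroupIn ℚ, τ (ζ : Qb) = ζ → galS τ u / u ∈ FL Qb M₁) :
    u ∈ FL Qb M₁ := by
  obtain ⟨s, 𝔽, h𝔽, D, S⟩ := hF
  obtain ⟨f, hf, hf0, hfix⟩ := hO u hu hH
  have hu' : IsKum Qb M₁ p (u * f) := hu.mul (isKum_of_mem hf hf0)
  have hT : ∀ x : 𝔽, ∃ x' : 𝔽, 𝔽.subtype x' = formalT p ζ (𝔽.subtype x) := by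
    intro x
    obtain ⟨hx1, hx2⟩ := (h𝔽 _).mp x.2
    refine ⟨⟨formalT p ζ (x : LaurentSeries Qb), (h𝔽 _).mpr ⟨?_, ?_⟩⟩, rfl⟩
    · rw [← heckeS_eq_formalT p hζ]
      exact heckeS_mem_FL M₁ p hp hpM hx1
    · intro τ hτ hτζ
      rw [← heckeS_eq_formalT p hζ, galS_heckeS, hx2 τ hτ hτζ]
  have h1 : (u * f) ^ p ∈ 𝔽 := by
    refine (h𝔽 _).mpr ⟨hu'.pow_mem, fun τ hτ hτζ => ?_⟩
    rw [map_pow, hfix τ hτ hτζ]
  have h2 : heckeS Qb p (u * f) ∈ 𝔽 := by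
    refine (h𝔽 _).mpr ⟨?_, fun τ hτ hτζ => ?_⟩
    · rw [map_mul]
      exact mul_mem hTu (heckeS_mem_FL M₁ p hp hpM hf)
    · rw [galS_heckeS, hfix τ hτ hτζ]
  have h3 := wf_of_field hM hp hp2 hpM hA hζ 𝔽 (fun x hx => ((h𝔽 x).mp hx).1) D S hT hu' h1 h2
  have h4 : u = u * f * f⁻¹ := by rw [mul_assoc, mul_inv_cancel₀ hf0, mul_one]
  rw [h4]
  exact mul_mem h3 (inv_mem hf)

end Fermat.Agent.ORD.P2
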