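import Fermat.Agent.ORD.P2.WF2

/-!
# ORD / P2-F3 : weak Fontaine, the improvement step `λ^p → λ^(p+1)`

`λ = lam ζ = ζ - 1` is the uniformiser.  `V = qExpand _ p`, `Fr = coeffMap (frobenius k p)`, `T = formalT p ζ`.
-/

set_option autoImplicit false
noncomputable section

namespace Fermat.Agent.ORD.P2

open ModularCurve HahnSeries Fermat.Agent.GR

variable {K L : Type*} [Field K] [Field L] [Algebra K L] {A : ValuationSubring L}
variable {𝔽 : Type*} [Field 𝔽] {i : 𝔽 →+* LaurentSeries L}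

/-- **step `j = p`.**
PROOF: as before `Dp (λ^p) (C γ) (V a - (e^p - e))`, so `V a - (e^p - e) = C cb` (`Dp.const_inv`); `as_descent`: `a = C (cb^p) + (ψ^p - ψ)`, `ψ = Fr e - a`.
Lifts: `X = (h - 1)/Λ^p` (`i Λ = C λ`, `D.exists_pi`) has reduction `a`; `E = (g₂ - 1)/Λ` has reduction `e`; `E'` lifts `s E` (`S.lift`), reduction `Fr e`
(`HasRed.map_frobenius`); `Ψ = E' - X` has reduction `ψ`; `y = 1 + Λ Ψ`: `Dp λ (i y) ψ` (`dp_iff`), `Dp (λ^p) (i y ^ p) (ψ^p - ψ)` (`Dp.pow_p_lam_one`), `y ≠ 0`.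
`h₁ = h * (y⁻¹)^p`: `Dp (λ^p) (i h₁) (C (cb^p))` (`Dp.div`); `D.improve_const` with `j = p`. -/
theorem wf_step_eq {p : ℕ} [NeZero p] (hp : p.Prime) (hp2 : p ≠ 2) (hA : A.LiesOverPrime p)
    {ζ : Lˣ} (hζ : IsPrimitiveRoot ζ p) {s : L ≃ₐ[K] L} (D : Disc A (lam ζ) i)
    (S : FrobOn A p s i) {h : 𝔽} (hk : TKilled p ζ i h) {a : LaurentSeries (kk A)}
    (ha : Dp A (lam ζ ^ p) (i h) a) :
    ∃ (h' : 𝔽) (a' : LaurentSeries (kk A)), SameCl p i h h' ∧ Dp A (lam ζ ^ (p + 1)) (i h') a' := by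
  have := GR.charP_residueField hp hA
  have : ExpChar (kk A) p := ExpChar.prime hp
  have hl0 : lam ζ ≠ 0 := lam_ne_zero hp hζ
  have hlm : lam ζ ∈ A.nonunits := lam_mem_nonunits hp hA hζ.pow_eq_one
  have hε : lam ζ ^ p ≠ 0 := pow_ne_zero p hl0
  have hm : lam ζ ^ p ∈ A.nonunits := LamDp_pow_mem_nonunits hlm hp.ne_zero
  obtain ⟨γ, g₂, e, hT, he⟩ := wf_root hp hA hζ D hp.one_le hk ha
  have hTa : Dp A (lam ζ ^ p) (formalT p ζ (i h)) (qExpand (kk A) p a) :=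
    ha.formalT_lam hp hA hζ hp.one_le
  have hgp : Dp A (lam ζ ^ p) (i g₂ ^ p) (e ^ p - e) := he.pow_p_lam_one hp hp2 hA hζ
  have hγ : Dp A (lam ζ ^ p) (HahnSeries.C γ) (qExpand (kk A) p a - (e ^ p - e)) := by
    have hdiv := hTa.div hε hm hgp
    rwa [hT, mul_div_cancel_right₀ _ (hgp.ne_zero hε hm)] at hdiv
  obtain ⟨cb, -, hcb⟩ := hγ.const_inv
  have has := as_descent p hcb
  -- lifts
  obtain ⟨Λ, hΛ⟩ := D.exists_pi
  have hX : HasRed A (i ((h - 1) / Λ ^ p)) a := by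
    rw [map_div₀, map_sub, map_one, map_pow, hΛ, ← map_pow]
    exact ha
  have hE : HasRed A (i ((g₂ - 1) / Λ)) e := by
    rw [map_div₀, map_sub, map_one, hΛ]
    exact he
  obtain ⟨E', hE'⟩ := S.lift ((g₂ - 1) / Λ)
  have hE'r : HasRed A (i E') (coeffMap (frobenius (kk A) p) e) := by
    rw [hE']
    exact hE.map_frobenius S.frob
  have hΨ : HasRed A (i (E' - (h - 1) / Λ ^ p)) (coeffMap (frobenius (kk A) p) e - a) := by
    rw [map_sub]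
    exact hasRed_sub' hE'r hX
  set Ψ : 𝔽 := E' - (h - 1) / Λ ^ p with hΨdef
  set ψ : LaurentSeries (kk A) := coeffMap (frobenius (kk A) p) e - a with hψ
  have hy : Dp A (lam ζ) (i (1 + Λ * Ψ)) ψ :=
    (dp_iff hl0).mpr ⟨i Ψ, hΨ, by rw [map_add, map_one, map_mul, hΛ]⟩
  have hyp : Dp A (lam ζ ^ p) (i (1 + Λ * Ψ) ^ p) (ψ ^ p - ψ) := hy.pow_p_lam_one hp hp2 hA hζ
  have hy0 : (1 + Λ * Ψ) ≠ 0 := by
    intro h0
    have := hy.ne_zero hl0 hlm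
    rw [h0, map_zero] at this
    exact this rfl
  have h1 : Dp A (lam ζ ^ p) (i (h * ((1 + Λ * Ψ)⁻¹) ^ p)) (HahnSeries.C (cb ^ p)) := by
    have hdiv := ha.div hε hm hyp
    have e1 : i (h * ((1 + Λ * Ψ)⁻¹) ^ p) = i h / i (1 + Λ * Ψ) ^ p := by
      rw [map_mul, map_pow, map_inv₀, inv_pow, div_eq_mul_inv]
    have e2 : a - (ψ ^ p - ψ) = HahnSeries.C (cb ^ p) := by
      rw [sub_eq_iff_eq_add]
      exact has
    rwa [← e1, e2] at hdiv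
  obtain ⟨κ, a', hκ0, hκc, ha'⟩ := D.improve_const hp.one_le h1
  exact ⟨κ * (h * ((1 + Λ * Ψ)⁻¹) ^ p), a',
    (SameCl.of_pow i (inv_ne_zero hy0) h).trans (SameCl.of_const hκ0 hκc _), ha'⟩

end Fermat.Agent.ORD.P2
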