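import Fermat.Agent.ORD.P2.WF1
import Fermat.Agent.ORD.P2.WF3

/-!
# ORD / P2-F : weak Fontaine, abstract form (step (4) of the plan #1179)
-/

set_option autoImplicit false
noncomputable section

namespace Fermat.Agent.ORD.P2

open ModularCurve HahnSeries Fermat.Agent.GR

variable {K L : Type*} [Field K] [Field L] [Algebra K L] {A : ValuationSubring L}
variable {𝔽 : Type*} [Field 𝔽] {i : 𝔽 →+* LaurentSeries L}

/-- **weak Fontaine, formal core.**  `𝔽` a field of `q`-expansions, discretely valued with uniformiser `λ = ζ_p - 1`, stable under `T_p` and a Frobenius element.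
If `T_p h` is a constant times a `p`-th power, then the class of `h` has a generator `≡ 1 mod λ^(p+1)`. -/
theorem weakFontaine {p : ℕ} [NeZero p] (hp : p.Prime) (hp2 : p ≠ 2) (hA : A.LiesOverPrime p)
    {ζ : Lˣ} (hζ : IsPrimitiveRoot ζ p) {s : L ≃ₐ[K] L} (D : Disc A (lam ζ) i)
    (S : FrobOn A p s i) (hT : ∀ x : 𝔽, ∃ x' : 𝔽, i x' = formalT p ζ (i x)) {h : 𝔽} (h0 : h ≠ 0)
    (hk : TKilled p ζ i h) :
    ∃ (h' : 𝔽) (a : LaurentSeries (kk A)), SameCl p i h h' ∧ Dp A (lam ζ ^ (p + 1)) (i h') a := by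
  obtain ⟨h₁, hs₁, hr₁⟩ := wf_stage0 hp hA hζ D S h0 hk
  obtain ⟨a₁, ha₁⟩ := D.dp_of_hasRed_one hr₁
  have key : ∀ j : ℕ, 1 ≤ j → j ≤ p → ∃ (h' : 𝔽) (a : LaurentSeries (kk A)),
      SameCl p i h h' ∧ Dp A (lam ζ ^ j) (i h') a := by
    intro j hj
    induction j, hj using Nat.le_induction with
    | base => intro _; exact ⟨h₁, a₁, hs₁, by rwa [pow_one]⟩
    | succ j hj ih =>
      intro hjp
      obtain ⟨h', a, hs, ha⟩ := ih (by omega)
      obtain ⟨h'', a', hs', ha'⟩ := wf_step_lt hp hp2 hA hζ D hj (by omega) (hk.sameCl hζ hT hs) ha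
      exact ⟨h'', a', hs.trans hs', ha'⟩
  obtain ⟨h', a, hs, ha⟩ := key p hp.one_le le_rfl
  obtain ⟨h'', a', hs', ha'⟩ := wf_step_eq hp hp2 hA hζ D S (hk.sameCl hζ hT hs) ha
  exact ⟨h'', a', hs.trans hs', ha'⟩

end Fermat.Agent.ORD.P2
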