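import Fermat.Agent.ORD.P2.WFDefs

/-!
# ORD / P2-F1 : weak Fontaine, stage 0: a generator `≡ 1`

`V = qExpand _ p`, `Fr = coeffMap (frobenius k p)`, `T = formalT p ζ`, `s` a Frobenius element.
-/

set_option autoImplicit false
noncomputable section

namespace Fermat.Agent.ORD.P2

open ModularCurve HahnSeries Fermat.Agent.GR

variable {K L : Type*} [Field K] [Field L] [Algebra K L] {A : ValuationSubring L}
variable {𝔽 : Type*} [Field 𝔽] {π : L} {i : 𝔽 →+* LaurentSeries L}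

/-- **stage 0.**  If `T h = κ g^p` then `h` is, up to a constant and a `p`-th power, `≡ 1`.
PROOF.  (1) `D.normalize`: `h₁ = κ₀ h` has reduction `hb ≠ 0`; `h₁` is still `TKilled` (`T (i h₁) = i (κ₁ g^p)`, `κ₁ = κ₀^(p+1) κ`, `formalT_C`, `formalT_mul`).
(2) `HasRed.map_formalT` + `GR.formalT_one_root`: `T (i h₁)` has reduction `V hb * Fr hb ≠ 0`.
(3) `D.normalize_root'`: `g₁ = κ₂ g` has reduction `gb ≠ 0`, the constant `κ₃ = κ₁/κ₂^p` has reduction `C cb`, `V hb * Fr hb = C cb * gb^p`.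
(4) `es_descent`: `hb^p * Fr² hb = C (cb^p) * (Fr gb)^p`.
(5) lifts (`S.lift`): `h₂` of `s² h₁`, `g₂` of `s g₁`, `κ₄` of `s κ₃` (a constant: `coeffMap_C`).  By `HasRed.map_frobenius`:
`x := h₂ * h₁^p / (κ₄ g₂^p)` has reduction `1`, i.e. `h₂ / (κ₄ (g₂/h₁)^p) ≡ 1`.
(6) apply `s⁻²`: let `y` lift `s⁻² (g₂ / h₁)`, `κ₅` lift `s⁻² κ₄` (`S.lift_symm` twice).  Then `s² (i (h₁ / (κ₅ y^p))) = i (h₂ / (κ₄ (g₂/h₁)^p))`, so
`h₁ / (κ₅ y^p) ≡ 1` by `hasRed_of_map_frobenius` twice (`Fr 1 = 1`).  `h' = (κ₀/κ₅) h (y⁻¹)^p`. -/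
theorem wf_stage0 {p : ℕ} [NeZero p] (hp : p.Prime) (hA : A.LiesOverPrime p) {ζ : Lˣ}
    (hζ : IsPrimitiveRoot ζ p) {s : L ≃ₐ[K] L} (D : Disc A π i) (S : FrobOn A p s i) {h : 𝔽}
    (h0 : h ≠ 0) (hk : TKilled p ζ i h) : ∃ h' : 𝔽, SameCl p i h h' ∧ HasRed A (i h') 1 := by
  have := GR.charP_residueField hp hA
  have : ExpChar (kk A) p := ExpChar.prime hp
  have hFr : ∀ w : LaurentSeries (kk A), w ≠ 0 → coeffMap (frobenius (kk A) p) w ≠ 0 :=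
    fun _ hw => coeffMap_ne_zero_of_injective (RingHom.injective _) hw
  have hστ : ∀ y : LaurentSeries L,
      coeffMap (s : L →+* L) (coeffMap (s.symm : L →+* L) y) = y := by
    intro y
    ext n
    simp
  obtain ⟨κ, g, hκ, hTh⟩ := hk
  -- (1)
  obtain ⟨κ₀, hb, hκ₀, hcκ₀, hhb, hred₁⟩ := D.normalize h0
  have hT₁ : formalT p ζ (i (κ₀ * h)) = i (κ₀ ^ (p + 1) * κ * g ^ p) := by
    obtain ⟨c₀, hc₀⟩ := hcκ₀
    rw [map_mul, formalT_mul p hζ, hTh, hc₀, formalT_C, map_pow HahnSeries.C, ← hc₀]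
    simp only [map_mul, map_pow]
    ring
  have hcκ₁ : IsC i (κ₀ ^ (p + 1) * κ) := (hcκ₀.pow _).mul hκ
  -- (2)
  have hred₂ := hred₁.map_formalT hp hA hζ
  rw [formalT_one_root, hT₁] at hred₂
  have hz : qExpand (kk A) p hb * coeffMap (frobenius (kk A) p) hb ≠ 0 :=
    mul_ne_zero (fun e => hhb (qExpand_injective p (by rw [e, map_zero]))) (hFr _ hhb)
  -- (3)
  obtain ⟨κ₂, gb, cb, hκ₂, hcκ₂, hgb, hcb, hredg, hredκ, hzeq⟩ :=
    D.normalize_root' hcκ₁ hz hred₂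
  -- (4)
  have hes := es_descent p hzeq
  -- (5), (6)
  set h₁ := κ₀ * h with hh₁
  set g₁ := κ₂ * g with hg₁
  set κ₃ := κ₀ ^ (p + 1) * κ / κ₂ ^ p with hκ₃
  have hCcb : (HahnSeries.C cb : LaurentSeries (kk A)) ≠ 0 := by
    intro e
    apply hcb
    have := congrArg (fun f : LaurentSeries (kk A) => f.coeff 0) e
    simpa using this
  obtain ⟨κ₅, hκ₅⟩ := S.lift_symm κ₃
  obtain ⟨a₁, ha₁⟩ := S.lift_symm g₁
  obtain ⟨a₂', ha₂'⟩ := S.lift_symm h₁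
  obtain ⟨a₂, ha₂⟩ := S.lift_symm a₂'
  have e₅ : coeffMap (s : L →+* L) (i κ₅) = i κ₃ := by rw [hκ₅, hστ]
  have e₁ : coeffMap (s : L →+* L) (i a₁) = i g₁ := by rw [ha₁, hστ]
  have e₂ : coeffMap (s : L →+* L) (coeffMap (s : L →+* L) (i a₂)) = i h₁ := by
    rw [ha₂, hστ, ha₂', hστ]
  have hκ₅0 : κ₅ ≠ 0 := by
    rintro rfl
    rw [map_zero, map_zero] at e₅
    exact hredκ.ne_zero hCcb e₅.symm
  have ha₁0 : a₁ ≠ 0 := by
    rintro rfl
    rw [map_zero, map_zero] at e₁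
    exact hredg.ne_zero hgb e₁.symm
  have ha₂0 : a₂ ≠ 0 := by
    rintro rfl
    rw [map_zero, map_zero, map_zero] at e₂
    exact hred₁.ne_zero hhb e₂.symm
  have hcκ₅ : IsC i κ₅ := by
    obtain ⟨c₃, hc₃⟩ := hcκ₁.div (hcκ₂.pow p)
    exact ⟨s.symm c₃, by rw [hκ₅, hc₃, coeffMap_C]; rfl⟩
  refine ⟨h₁ / (κ₅ * (a₁ / a₂) ^ p), ⟨κ₀ / κ₅, a₂ / a₁, div_ne_zero hκ₀ hκ₅0,
    div_ne_zero ha₂0 ha₁0, hcκ₀.div hcκ₅, ?_⟩, ?_⟩
  · rw [hh₁, div_pow, div_pow]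
    field_simp
  · apply hasRed_of_map_frobenius S.frob
    apply hasRed_of_map_frobenius S.frob
    rw [map_one, map_one]
    have e : coeffMap (s : L →+* L) (coeffMap (s : L →+* L) (i (h₁ / (κ₅ * (a₁ / a₂) ^ p)))) =
        coeffMap (s : L →+* L) (coeffMap (s : L →+* L) (i h₁)) /
          (coeffMap (s : L →+* L) (i κ₃) * (coeffMap (s : L →+* L) (i g₁) / i h₁) ^ p) := by
      simp only [map_div₀, map_mul, map_pow, e₅, e₁, e₂]
    rw [e]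
    have r1 := (hred₁.map_frobenius S.frob).map_frobenius S.frob
    have r2 := hredκ.map_frobenius S.frob
    have r3 := hredg.map_frobenius S.frob
    have r4 := r2.mul ((r3.div hred₁ hhb).pow p)
    have hne : coeffMap (frobenius (kk A) p) (HahnSeries.C cb) *
        (coeffMap (frobenius (kk A) p) gb / hb) ^ p ≠ 0 :=
      mul_ne_zero (hFr _ hCcb) (pow_ne_zero _ (div_ne_zero (hFr _ hgb) hhb))
    have r5 := r1.div r4 hne
    convert r5 using 1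
    rw [eq_comm, div_eq_one_iff_eq hne, smallP_frob_C, div_pow, mul_div_assoc',
      eq_div_iff (pow_ne_zero _ hhb), ← hes]
    ring

end Fermat.Agent.ORD.P2
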