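import Fermat.Agent.ORD.P2.WFDefs

/-!
# ORD / P2-F2 : weak Fontaine, the improvement steps `λ^j → λ^(j+1)`, `1 ≤ j ≤ p`

`λ = lam ζ = ζ - 1` is the uniformiser.  `V = qExpand _ p`, `Fr = coeffMap (frobenius k p)`, `T = formalT p ζ`.
-/

set_option autoImplicit false
noncomputable section

namespace Fermat.Agent.ORD.P2

open ModularCurve HahnSeries Fermat.Agent.GR

variable {K L : Type*} [Field K] [Field L] [Algebra K L] {A : ValuationSubring L}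
variable {𝔽 : Type*} [Field 𝔽] {i : 𝔽 →+* LaurentSeries L}

/-- **normalised root.**  If `h ≡ 1 mod λ` and `T h = κ g^p`, then `T h = C γ * g₂^p` with `g₂ = 1 + λ (e + …)`.
PROOF: `Dp.formalT_lam` ⇒ `T (i h) ≡ 1` (`Dp.hasRed_one`); `D.normalize_root`: `g₂ = κ₁ g ≡ 1`; `D.dp_of_hasRed_one`; `C γ = i (κ / κ₁^p)`. -/
theorem wf_root {p : ℕ} [NeZero p] (hp : p.Prime) (hA : A.LiesOverPrime p) {ζ : Lˣ}
    (hζ : IsPrimitiveRoot ζ p) (D : Disc A (lam ζ) i) {j : ℕ} (hj : 1 ≤ j) {h : 𝔽}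
    (hk : TKilled p ζ i h) {a : LaurentSeries (kk A)} (ha : Dp A (lam ζ ^ j) (i h) a) :
    ∃ (γ : L) (g₂ : 𝔽) (e : LaurentSeries (kk A)),
      formalT p ζ (i h) = HahnSeries.C γ * i g₂ ^ p ∧ Dp A (lam ζ) (i g₂) e := by
  have := GR.charP_residueField hp hA
  have : ExpChar (kk A) p := ExpChar.prime hp
  have hl0 := lam_ne_zero hp hζ
  have hlm := lam_mem_nonunits hp hA hζ.pow_eq_one
  obtain ⟨κ, g, hκ, hT⟩ := hk
  have hTd := ha.formalT_lam hp hA hζ hj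
  have hT1 := hTd.hasRed_one (pow_ne_zero j hl0) (LamDp_pow_mem_nonunits hlm (by omega))
  rw [hT] at hT1
  obtain ⟨κ₁, hκ₁0, hκ₁c, hred⟩ := D.normalize_root hκ hT1
  obtain ⟨e, he⟩ := D.dp_of_hasRed_one hred
  obtain ⟨γ, hγ⟩ := hκ.div (hκ₁c.pow p)
  refine ⟨γ, κ₁ * g, e, ?_, he⟩
  rw [hT, ← hγ, ← map_pow, ← map_mul]
  congr 1
  rw [mul_pow]
  field_simp

/-- **step `j < p`.**
PROOF: `wf_root`; `Dp.formalT_lam`: `Dp (λ^j) (T h) (V a)`; `Dp.pow_p_lam_one`: `Dp (λ^p) (g₂^p) (e^p - e)`, hence `Dp (λ^j) (g₂^p) 0` (`Dp.of_deeper`,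
`λ^p = λ^(p-j) λ^j`); `Dp.div`: `Dp (λ^j) (C γ) (V a)`; `Dp.const_inv`: `V a = C cb`; `qExpand_eq_C`: `a = C cb`; `D.improve_const`; `SameCl.of_const`. -/
theorem wf_step_lt {p : ℕ} [NeZero p] (hp : p.Prime) (hp2 : p ≠ 2) (hA : A.LiesOverPrime p)
    {ζ : Lˣ} (hζ : IsPrimitiveRoot ζ p) (D : Disc A (lam ζ) i) {j : ℕ} (hj : 1 ≤ j) (hjp : j < p)
    {h : 𝔽} (hk : TKilled p ζ i h) {a : LaurentSeries (kk A)} (ha : Dp A (lam ζ ^ j) (i h) a) :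
    ∃ (h' : 𝔽) (a' : LaurentSeries (kk A)), SameCl p i h h' ∧ Dp A (lam ζ ^ (j + 1)) (i h') a' := by
  have := GR.charP_residueField hp hA
  have : ExpChar (kk A) p := ExpChar.prime hp
  have hl0 := lam_ne_zero hp hζ
  have hlm := lam_mem_nonunits hp hA hζ.pow_eq_one
  have hε : lam ζ ^ j ≠ 0 := pow_ne_zero j hl0
  have hm : lam ζ ^ j ∈ A.nonunits := LamDp_pow_mem_nonunits hlm (by omega)
  obtain ⟨γ, g₂, e, hT, he⟩ := wf_root hp hA hζ D hj hk ha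
  have hTd := ha.formalT_lam hp hA hζ hj
  have hgp := he.pow_p_lam_one hp hp2 hA hζ
  have hgp0 : Dp A (lam ζ ^ j) (i g₂ ^ p) 0 :=
    hgp.of_deeper (pow_ne_zero p hl0) (LamDp_pow_mem_nonunits hlm (n := p - j) (by omega))
      (by rw [← _root_.pow_add]; congr 1; omega)
  have hdiv := hTd.div hε hm hgp0
  have hne := hgp0.ne_zero hε hm
  rw [hT, mul_div_cancel_right₀ _ hne, sub_zero] at hdiv
  obtain ⟨cb, -, hcb⟩ := Dp.const_inv hdiv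
  have hacb : a = HahnSeries.C cb := qExpand_eq_C p hcb
  rw [hacb] at ha
  obtain ⟨κ, a', hκ0, hκc, ha'⟩ := D.improve_const hj ha
  exact ⟨κ * h, a', SameCl.of_const hκ0 hκc h, ha'⟩

end Fermat.Agent.ORD.P2
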