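import Fermat.Agent.ORD.P2.DiscLemmas
import Fermat.Agent.ORD.P2.LamDp

/-!
# ORD / P2-F0 : weak Fontaine, abstract form.  `TKilled` and its stability
-/

set_option autoImplicit false
noncomputable section

namespace Fermat.Agent.ORD.P2

open ModularCurve HahnSeries Fermat.Agent.GR

variable {L : Type*} [Field L] {A : ValuationSubring L}
variable {𝔽 : Type*} [Field 𝔽] {i : 𝔽 →+* LaurentSeries L}

/-- `T_p h` is a constant times a `p`-th power. -/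
def TKilled (p : ℕ) [NeZero p] (ζ : Lˣ) (i : 𝔽 →+* LaurentSeries L) (h : 𝔽) : Prop :=
  ∃ κ g : 𝔽, IsC i κ ∧ formalT p ζ (i h) = i (κ * g ^ p)

/-- PROOF: `h' = κ' h y^p`; `T` multiplicative (`GR.formalT_mul`, `GR.formalT_pow`), `T (C c) = C (c^(p+1)) = i (κ'^(p+1))` (`formalT_C`),
`T (i y) = i y'` (`hT`): `T (i h') = i ((κ'^(p+1) κ) (g y')^p)`. -/
theorem TKilled.sameCl {p : ℕ} [NeZero p] {ζ : Lˣ} (hζ : IsPrimitiveRoot ζ p)
    (hT : ∀ x : 𝔽, ∃ x' : 𝔽, i x' = formalT p ζ (i x)) {h h' : 𝔽} (hk : TKilled p ζ i h)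
    (hs : SameCl p i h h') : TKilled p ζ i h' := by
  obtain ⟨κ, g, hκ, hTh⟩ := hk
  obtain ⟨κ', y, -, -, hκ', rfl⟩ := hs
  obtain ⟨y', hy'⟩ := hT y
  refine ⟨κ' ^ (p + 1) * κ, g * y', (hκ'.pow _).mul hκ, ?_⟩
  obtain ⟨c', hc'⟩ := hκ'
  rw [map_mul, map_mul, map_pow, formalT_mul p hζ, formalT_mul p hζ, formalT_pow p hζ, hTh, ← hy',
    hc', formalT_C, map_pow HahnSeries.C, ← hc']
  simp only [map_mul, map_pow]
  ring

end Fermat.Agent.ORD.P2
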